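import Fermat.Agent.S26.Alg.TensorDomain

/-! # S25 / ML-1 : tensor product of domains over an algebraically closed field. -/
set_option autoImplicit false
universe u
open TensorProduct

namespace Fermat.Agent.S25

variable {k : Type u} [Field k]

/-- ML-1 : tensor product of domains over an algebraically closed field. -/
theorem isDomain_tensorProduct_of_isAlgClosed [IsAlgClosed k] (B B' : Type u) [CommRing B]
    [CommRing B'] [Algebra k B] [Algebra k B'] [IsDomain B] [IsDomain B'] :
    IsDomain (B ⊗[k] B') := Fermat.Agent.S26.isDomain_tensorProduct k B B'

end Fermat.Agent.S25
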