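import Fermat.Agent.S25.L.CohBundle
import Fermat.Agent.S25.B.BaseChange

/-! # S25 / LC3 : a `BC`-model is a base change of modules -/
set_option autoImplicit false
set_option linter.style.haveILetI false
universe u
open TensorProduct Polynomial

namespace Fermat.Agent.S25
variable {k : Type u} [Field k] {Γ : CurveAlg k}

namespace Rings
variable {A A' : Type u} [CommRing A] [Algebra k A] [CommRing A'] [Algebra k A']
  (B : Type u) [CommRing B] [Algebra k B]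

theorem isScalarTower_map (f : A →ₐ[k] A') :
    letI := f.toRingHom.toAlgebra
    haveI : IsScalarTower k A A' := .of_algebraMap_eq fun r => (f.commutes r).symm
    letI : Algebra (A ⊗[k] B) (A' ⊗[k] B) :=
      (Algebra.TensorProduct.map f (AlgHom.id k B)).toRingHom.toAlgebra
    IsScalarTower A (A ⊗[k] B) (A' ⊗[k] B) := by
  letI := f.toRingHom.toAlgebra
  haveI : IsScalarTower k A A' := .of_algebraMap_eq fun r => (f.commutes r).symm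
  letI : Algebra (A ⊗[k] B) (A' ⊗[k] B) :=
    (Algebra.TensorProduct.map f (AlgHom.id k B)).toRingHom.toAlgebra
  exact .of_algebraMap_eq fun a => by
    show algebraMap A' (A' ⊗[k] B) (f a) = Algebra.TensorProduct.map f (AlgHom.id k B) (a ⊗ₜ 1)
    simp

theorem isPushout_map (f : A →ₐ[k] A') :
    letI := f.toRingHom.toAlgebra
    haveI : IsScalarTower k A A' := .of_algebraMap_eq fun r => (f.commutes r).symm
    letI : Algebra (A ⊗[k] B) (A' ⊗[k] B) :=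
      (Algebra.TensorProduct.map f (AlgHom.id k B)).toRingHom.toAlgebra
    haveI := isScalarTower_map B f
    Algebra.IsPushout A A' (A ⊗[k] B) (A' ⊗[k] B) := by
  letI := f.toRingHom.toAlgebra
  haveI : IsScalarTower k A A' := .of_algebraMap_eq fun r => (f.commutes r).symm
  letI : Algebra (A ⊗[k] B) (A' ⊗[k] B) :=
    (Algebra.TensorProduct.map f (AlgHom.id k B)).toRingHom.toAlgebra
  haveI := isScalarTower_map B f
  refine Algebra.IsPushout.tensorProduct_tensorProduct k B A A' ?_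
  ext b
  show Algebra.TensorProduct.map f (AlgHom.id k B) (1 ⊗ₜ b) = 1 ⊗ₜ b
  simp

end Rings

namespace LB
variable {A A' : Type u} [CommRing A] [Algebra k A] [CommRing A'] [Algebra k A']
  {f : A →ₐ[k] A'} {𝒩 : LB Γ A} {𝒩' : LB Γ A'}

theorem BC.exists_equiv₀ (h : BC f 𝒩 𝒩') :
    letI := f.toRingHom.toAlgebra
    ∃ e : A' ⊗[A] 𝒩.N₀ ≃ₗ[A'] 𝒩'.N₀, ∀ (a' : A') (n : 𝒩.N₀), e (a' ⊗ₜ n) = a' • h.b₀ n := by
  letI := f.toRingHom.toAlgebra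
  haveI : IsScalarTower k A A' := .of_algebraMap_eq fun r => (f.commutes r).symm
  letI : Algebra (Γ.R₀ A) (Γ.R₀ A') :=
    (Algebra.TensorProduct.map f (AlgHom.id k Γ.B₀)).toRingHom.toAlgebra
  haveI := Rings.isScalarTower_map Γ.B₀ f
  haveI := Rings.isPushout_map Γ.B₀ f
  exact B.exists_equiv_of_span h.b₀ h.span₀

theorem BC.exists_equiv₁ (h : BC f 𝒩 𝒩') :
    letI := f.toRingHom.toAlgebra
    ∃ e : A' ⊗[A] 𝒩.N₁ ≃ₗ[A'] 𝒩'.N₁, ∀ (a' : A') (n : 𝒩.N₁), e (a' ⊗ₜ n) = a' • h.b₁ n := by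
  letI := f.toRingHom.toAlgebra
  haveI : IsScalarTower k A A' := .of_algebraMap_eq fun r => (f.commutes r).symm
  letI : Algebra (Γ.R₁ A) (Γ.R₁ A') :=
    (Algebra.TensorProduct.map f (AlgHom.id k Γ.B₁)).toRingHom.toAlgebra
  haveI := Rings.isScalarTower_map Γ.B₁ f
  haveI := Rings.isPushout_map Γ.B₁ f
  exact B.exists_equiv_of_span h.b₁ h.span₁

theorem ρ₀₁_φ₀_xA (f : A →ₐ[k] A') : Γ.ρ₀₁ f (Γ.φ₀ A (Γ.xA A)) = Γ.φ₀ A' (Γ.xA A') := by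
  simp [CurveAlg.ρ₀₁, CurveAlg.φ₀, CurveAlg.xA]

theorem r₀A_apply (𝒩 : LB Γ A) (n : 𝒩.N₀) : 𝒩.r₀A n = 𝒩.r₀ n := rfl
theorem r₁A_apply (𝒩 : LB Γ A) (n : 𝒩.N₁) : 𝒩.r₁A n = 𝒩.r₁ n := rfl

theorem smulA₀₁_def (𝒩 : LB Γ A) (a : A) (n : 𝒩.N₀₁) :
    a • n = algebraMap A (Γ.R₀₁ A) a • n := rfl

theorem BC.b₀₁_smul (h : BC f 𝒩 𝒩') (a : A) (n : 𝒩.N₀₁) : h.b₀₁ (a • n) = f a • h.b₀₁ n := by
  rw [smulA₀₁_def, smulA₀₁_def, h.b₀₁.map_smulₛₗ]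
  congr 1

/-- **LC3, explicit form**: the Čech complex of a `BC`-model is the base change of the Čech
complex. -/
theorem BC.exists_total (hΓ : Γ.IsGood) (h : BC f 𝒩 𝒩') :
    letI := f.toRingHom.toAlgebra
    ∃ (E : A' ⊗[A] (𝒩.N₀ × 𝒩.N₁) ≃ₗ[A'] 𝒩'.N₀ × 𝒩'.N₁) (eM : A' ⊗[A] 𝒩.N₀₁ ≃ₗ[A'] 𝒩'.N₀₁),
      (∀ (a : A') (n : 𝒩.N₀ × 𝒩.N₁), E (a ⊗ₜ n) = (a • h.b₀ n.1, a • h.b₁ n.2)) ∧
      (∀ (a : A') (m : 𝒩.N₀₁), eM (a ⊗ₜ m) = a • h.b₀₁ m) ∧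
      ∀ t, eM ((B.dC 𝒩.r₀A 𝒩.r₁A).baseChange A' t) = B.dC 𝒩'.r₀A 𝒩'.r₁A (E t) := by
  letI := f.toRingHom.toAlgebra
  obtain ⟨e₀, he₀⟩ := h.exists_equiv₀
  obtain ⟨e₁, he₁⟩ := h.exists_equiv₁
  letI : Module A 𝒩'.N₀₁ := Module.compHom _ f.toRingHom
  haveI : IsScalarTower A A' 𝒩'.N₀₁ := .of_algebraMap_smul fun _ _ => rfl
  let bA : 𝒩.N₀₁ →ₗ[A] 𝒩'.N₀₁ :=
    { toFun := h.b₀₁
      map_add' := h.b₀₁.map_add
      map_smul' := fun a n => h.b₀₁_smul a n }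
  let bM : A' ⊗[A] 𝒩.N₀₁ →ₗ[A'] 𝒩'.N₀₁ := bA.liftBaseChange A'
  have hbM : ∀ (a : A') (m : 𝒩.N₀₁), bM (a ⊗ₜ m) = a • h.b₀₁ m := fun a m => rfl
  have hc₀ : ∀ t, bM (𝒩.r₀A.baseChange A' t) = 𝒩'.r₀A (e₀ t) := by
    intro t
    induction t using TensorProduct.induction_on with
    | zero => simp
    | tmul a n =>
      rw [LinearMap.baseChange_tmul, hbM, he₀, map_smul, r₀A_apply, r₀A_apply, h.comm₀]
    | add x y hx hy => simp only [map_add, hx, hy]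
  have hc₁ : ∀ t, bM (𝒩.r₁A.baseChange A' t) = 𝒩'.r₁A (e₁ t) := by
    intro t
    induction t using TensorProduct.induction_on with
    | zero => simp
    | tmul a n =>
      rw [LinearMap.baseChange_tmul, hbM, he₁, map_smul, r₁A_apply, r₁A_apply, h.comm₁]
    | add x y hx hy => simp only [map_add, hx, hy]
  have hbij : Function.Bijective bM := by
    refine B.bijective_of_localization 𝒩.r₀A
      ((LinearMap.lsmul (Γ.R₀ A) 𝒩.N₀ (Γ.xA A)).restrictScalars A) (𝒩.xM hΓ)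
      (fun n => 𝒩.r₀.map_smulₛₗ _ _)
      (fun m => by
        obtain ⟨j, n, hn⟩ := 𝒩.span₀ m
        exact ⟨j, n, by rw [xM_pow_apply, hn]; rfl⟩)
      𝒩'.r₀A (𝒩'.xM hΓ) 𝒩'.inj₀
      (fun m => by
        obtain ⟨j, n, hn⟩ := 𝒩'.span₀ m
        exact ⟨j, n, by rw [xM_pow_apply, hn]; rfl⟩)
      e₀ bM hc₀ ?_
    intro t
    induction t using TensorProduct.induction_on with
    | zero => simp
    | tmul a m =>
      have h1 : h.b₀₁ (Γ.φ₀ A (Γ.xA A) • m) = Γ.φ₀ A' (Γ.xA A') • h.b₀₁ m := by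
        rw [h.b₀₁.map_smulₛₗ, ← ρ₀₁_φ₀_xA f]
        rfl
      rw [LinearEquiv.baseChange_tmul, hbM, hbM, xM_apply, xM_apply, h1, smul_comm]
    | add x y hx hy => simp only [map_add, hx, hy]
  let eM : A' ⊗[A] 𝒩.N₀₁ ≃ₗ[A'] 𝒩'.N₀₁ := LinearEquiv.ofBijective bM hbij
  obtain ⟨E, hE, hEd⟩ := B.exists_total_equiv 𝒩.r₀A 𝒩.r₁A 𝒩'.r₀A 𝒩'.r₁A e₀ e₁ eM hc₀ hc₁
  exact ⟨E, eM, fun a n => by rw [hE, he₀, he₁], hbM, hEd⟩

end LB
end Fermat.Agent.S25
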