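import Fermat.Agent.S25.L.Calculus
import Fermat.Agent.S25.L.BCIso
import Fermat.Agent.S25.B.Main
import Fermat.Agent.S25.B.Perfect

/-! # S25 / LC : cohomology of line bundle data (application of layer B) -/
set_option autoImplicit false
set_option linter.style.haveILetI false
universe u
open TensorProduct Polynomial

namespace Fermat.Agent.S25
variable {k : Type u} [Field k] {Γ : CurveAlg k}

namespace B
variable {A : Type u} [CommRing A] {P Q E₀ E₁ : Type u}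
    [AddCommGroup P] [AddCommGroup Q] [Module A P] [Module A Q]
    [AddCommGroup E₀] [AddCommGroup E₁] [Module A E₀] [Module A E₁]
    {d : P →ₗ[A] Q} {δ : E₀ →ₗ[A] E₁}

theorem ComputesUniversally.ker_self (h : ComputesUniversally d δ) :
    Nonempty (Ker d ≃ₗ[A] Ker δ) := by
  obtain ⟨e⟩ := h.ker A
  exact ⟨(kerBaseChangeSelf d).symm.trans (e.trans (kerBaseChangeSelf δ))⟩

theorem ComputesUniversally.coker_self (h : ComputesUniversally d δ) :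
    Nonempty (Coker d ≃ₗ[A] Coker δ) := by
  obtain ⟨e⟩ := h.coker A
  exact ⟨(cokerBaseChangeSelf d).symm.trans (e.trans (cokerBaseChangeSelf δ))⟩

end B

namespace LB
variable {A A' : Type u} [CommRing A] [Algebra k A] [CommRing A'] [Algebra k A']

/-- the Čech differential of `𝒩` -/
noncomputable abbrev d (𝒩 : LB Γ A) : (𝒩.N₀ × 𝒩.N₁) →ₗ[A] 𝒩.N₀₁ := B.dC 𝒩.r₀A 𝒩.r₁A

theorem H0_eq_ker (𝒩 : LB Γ A) : 𝒩.H0 = B.Ker 𝒩.d := rfl

theorem range_d (𝒩 : LB Γ A) :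
    LinearMap.range 𝒩.d = LinearMap.range 𝒩.r₀A ⊔ LinearMap.range 𝒩.r₁A := by
  show LinearMap.range (𝒩.r₀A.coprod (-𝒩.r₁A)) = _
  rw [LinearMap.range_coprod, LinearMap.range_neg]

/-- `H¹` is the cokernel of the Čech differential. -/
noncomputable def H1EquivCoker (𝒩 : LB Γ A) : 𝒩.H1 ≃ₗ[A] B.Coker 𝒩.d :=
  Submodule.quotEquivOfEq _ _ 𝒩.range_d.symm

/-- LC1+LC2 : the cohomology of `𝒩` is universally computed by a two term complex of f.g. projectives. -/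
theorem exists_perfect (hΓ : Γ.IsGood) (𝒩 : LB Γ A) :
    ∃ (E₀ E₁ : Type u) (_ : AddCommGroup E₀) (_ : AddCommGroup E₁) (_ : Module A E₀)
      (_ : Module A E₁) (δ : E₀ →ₗ[A] E₁),
      Module.Finite A E₀ ∧ Module.Projective A E₀ ∧ Module.Finite A E₁ ∧ Module.Projective A E₁ ∧
      B.ComputesUniversally 𝒩.d δ := by
  letI := 𝒩.polyMod₀
  letI := 𝒩.polyMod₁
  haveI := PolyMod.tower (A := A) (Γ.xA A) 𝒩.N₀
  haveI := PolyMod.tower (A := A) (Γ.yA A) 𝒩.N₁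
  exact (𝒩.isP1Bundle hΓ).exists_perfect

/-- LC3 : cohomology of a base change. -/
theorem BC.H0_equiv (hΓ : Γ.IsGood) {f : A →ₐ[k] A'} {𝒩 : LB Γ A} {𝒩' : LB Γ A'} (h : BC f 𝒩 𝒩') :
    letI := f.toRingHom.toAlgebra
    Nonempty (𝒩'.H0 ≃ₗ[A'] B.Ker (𝒩.d.baseChange A')) := by
  letI := f.toRingHom.toAlgebra
  obtain ⟨E, eM, -, -, hd⟩ := h.exists_total hΓ
  exact ⟨(B.kerEquivOfComm _ _ E eM hd).symm⟩
theorem BC.H1_equiv (hΓ : Γ.IsGood) {f : A →ₐ[k] A'} {𝒩 : LB Γ A} {𝒩' : LB Γ A'} (h : BC f 𝒩 𝒩') :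
    letI := f.toRingHom.toAlgebra
    Nonempty (𝒩'.H1 ≃ₗ[A'] B.Coker (𝒩.d.baseChange A')) := by
  letI := f.toRingHom.toAlgebra
  obtain ⟨E, eM, -, -, hd⟩ := h.exists_total hΓ
  exact ⟨𝒩'.H1EquivCoker.trans (B.cokerEquivOfComm _ _ E eM hd).symm⟩

theorem Iso.d_comm {𝒩 𝒩' : LB Γ A} (i : Iso 𝒩 𝒩') (p : 𝒩.N₀ × 𝒩.N₁) :
    (i.e₀₁.restrictScalars A) (𝒩.d p) =
      𝒩'.d (((i.e₀.restrictScalars A).prodCongr (i.e₁.restrictScalars A)) p) := by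
  rw [B.dC_apply, B.dC_apply, map_sub]
  exact congrArg₂ _ (i.comm₀ p.1) (i.comm₁ p.2)

theorem Equiv.H0_equiv {𝒩 𝒩' : LB Γ A} (h : 𝒩.Equiv 𝒩') : Nonempty (𝒩.H0 ≃ₗ[A] 𝒩'.H0) := by
  obtain ⟨i⟩ := h
  exact ⟨B.kerEquivOfComm 𝒩.d 𝒩'.d _ _ i.d_comm⟩
theorem Equiv.H1_equiv {𝒩 𝒩' : LB Γ A} (h : 𝒩.Equiv 𝒩') : Nonempty (𝒩.H1 ≃ₗ[A] 𝒩'.H1) := by
  obtain ⟨i⟩ := h
  exact ⟨𝒩.H1EquivCoker.trans ((B.cokerEquivOfComm 𝒩.d 𝒩'.d _ _ i.d_comm).trans
    𝒩'.H1EquivCoker.symm)⟩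

/-- LC4 -/
theorem finite_H1 (hΓ : Γ.IsGood) (𝒩 : LB Γ A) : Module.Finite A 𝒩.H1 := by
  obtain ⟨E₀, E₁, _, _, _, _, δ, -, -, hf, -, hcu⟩ := 𝒩.exists_perfect hΓ
  obtain ⟨e⟩ := hcu.coker_self
  exact Module.Finite.equiv (𝒩.H1EquivCoker.trans e).symm
theorem finite_H0_field (hΓ : Γ.IsGood) {K : Type u} [Field K] [Algebra k K] (𝒩 : LB Γ K) :
    Module.Finite K 𝒩.H0 := by
  obtain ⟨E₀, E₁, _, _, _, _, δ, hf, -, -, -, hcu⟩ := 𝒩.exists_perfect hΓ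
  obtain ⟨e⟩ := hcu.ker_self
  exact Module.Finite.equiv e.symm

/-- the fibre dimensions are computed by the perfect complex. -/
theorem finrank_of_computes (hΓ : Γ.IsGood) (𝒩 : LB Γ A) {E₀ E₁ : Type u} [AddCommGroup E₀]
    [AddCommGroup E₁] [Module A E₀] [Module A E₁] [Module.Finite A E₀] [Module.Projective A E₀]
    [Module.Finite A E₁] [Module.Projective A E₁] (δ : E₀ →ₗ[A] E₁)
    (hcu : B.ComputesUniversally 𝒩.d δ)
    (K : Type u) [Field K] [Algebra k K] (g : A →ₐ[k] K) (𝒩' : LB Γ K) (h : Nonempty (BC g 𝒩 𝒩')) :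
    Module.finrank K 𝒩'.H0 =
        B.h0At δ (PrimeSpectrum.comap g.toRingHom ⊥ : PrimeSpectrum A).asIdeal.ResidueField ∧
      Module.finrank K 𝒩'.H1 =
        B.h1At δ (PrimeSpectrum.comap g.toRingHom ⊥ : PrimeSpectrum A).asIdeal.ResidueField := by
  obtain ⟨h⟩ := h
  letI := g.toRingHom.toAlgebra
  obtain ⟨e₀⟩ := h.H0_equiv hΓ
  obtain ⟨e₁⟩ := h.H1_equiv hΓ
  obtain ⟨c₀⟩ := hcu.ker K
  obtain ⟨c₁⟩ := hcu.coker K
  exact ⟨(e₀.trans c₀).finrank_eq.trans (B.h0At_eq_residueField δ K),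
    (e₁.trans c₁).finrank_eq.trans (B.h1At_eq_residueField δ K)⟩

/-- LC5 : `h⁰`, `h¹` of the fibres as functions on `Spec A`. -/
theorem exists_h0_h1 (hΓ : Γ.IsGood) (𝒩 : LB Γ A) :
    ∃ h0 h1 : PrimeSpectrum A → ℕ,
      (∀ (K : Type u) [Field K] [Algebra k K] (g : A →ₐ[k] K) (𝒩' : LB Γ K), Nonempty (BC g 𝒩 𝒩') →
        Module.finrank K 𝒩'.H0 = h0 (PrimeSpectrum.comap g.toRingHom ⊥) ∧
        Module.finrank K 𝒩'.H1 = h1 (PrimeSpectrum.comap g.toRingHom ⊥)) ∧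
      IsLocallyConstant (fun p => (h0 p : ℤ) - (h1 p : ℤ)) ∧
      (∀ c, IsClosed {p | c ≤ h1 p}) ∧ (∀ c, IsClosed {p | c ≤ h0 p}) := by
  obtain ⟨E₀, E₁, _, _, _, _, δ, _, _, _, _, hcu⟩ := 𝒩.exists_perfect hΓ
  have hχ := B.isLocallyConstant_chi δ
  have hcl := B.isClosed_setOf_le_h1At δ
  refine ⟨fun p => B.h0At δ p.asIdeal.ResidueField, fun p => B.h1At δ p.asIdeal.ResidueField,
    fun K _ _ g 𝒩' h => finrank_of_computes hΓ 𝒩 δ hcu K g 𝒩' h, hχ, hcl, fun c => ?_⟩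
  rw [← isOpen_compl_iff, isOpen_iff_forall_mem_open]
  intro p hp
  have hp' : B.h0At δ p.asIdeal.ResidueField < c := not_le.mp hp
  refine ⟨{q | (B.h0At δ q.asIdeal.ResidueField : ℤ) - (B.h1At δ q.asIdeal.ResidueField : ℤ) =
      (B.h0At δ p.asIdeal.ResidueField : ℤ) - (B.h1At δ p.asIdeal.ResidueField : ℤ)} ∩
      {q | B.h1At δ p.asIdeal.ResidueField + 1 ≤ B.h1At δ q.asIdeal.ResidueField}ᶜ, ?_, ?_, ?_⟩
  · rintro q ⟨hq1, hq2⟩
    have hq1' : (B.h0At δ q.asIdeal.ResidueField : ℤ) - (B.h1At δ q.asIdeal.ResidueField : ℤ) =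
      (B.h0At δ p.asIdeal.ResidueField : ℤ) - (B.h1At δ p.asIdeal.ResidueField : ℤ) := hq1
    have hq2' : ¬ (B.h1At δ p.asIdeal.ResidueField + 1 ≤ B.h1At δ q.asIdeal.ResidueField) := hq2
    show ¬ (c ≤ B.h0At δ q.asIdeal.ResidueField)
    omega
  · exact (hχ.isOpen_fiber _).inter (hcl _).isOpen_compl
  · refine ⟨rfl, ?_⟩
    show ¬ (B.h1At δ p.asIdeal.ResidueField + 1 ≤ B.h1At δ p.asIdeal.ResidueField)
    omega

theorem comap_residueField (p : PrimeSpectrum A) :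
    PrimeSpectrum.comap (IsScalarTower.toAlgHom k A p.asIdeal.ResidueField).toRingHom ⊥ = p := by
  ext1
  rw [PrimeSpectrum.comap_asIdeal]
  exact (Ideal.ker_algebraMap_residueField p.asIdeal)

/-- LC6 : if `H¹` vanishes on all fibres then `H¹ = 0`, `H⁰` is f.g. projective and commutes with base change. -/
theorem H1_eq_zero_of_fibres (hΓ : Γ.IsGood) (𝒩 : LB Γ A)
    (h : ∀ (K : Type u) [Field K] [Algebra k K] (g : A →ₐ[k] K) (𝒩' : LB Γ K), Nonempty (BC g 𝒩 𝒩') →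
      Subsingleton 𝒩'.H1) : Subsingleton 𝒩.H1 := by
  obtain ⟨E₀, E₁, _, _, _, _, δ, _, _, _, _, hcu⟩ := 𝒩.exists_perfect hΓ
  have hsurj : Function.Surjective δ := by
    apply B.surjective_of_h1At_eq_zero
    intro p
    obtain ⟨𝒩', hBC⟩ := exists_BC hΓ (IsScalarTower.toAlgHom k A p.asIdeal.ResidueField) 𝒩
    have h1 := (finrank_of_computes hΓ 𝒩 δ hcu _ _ 𝒩' hBC).2
    rw [comap_residueField] at h1
    rw [← h1]
    haveI := h _ _ 𝒩' hBC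
    exact Module.finrank_zero_of_subsingleton
  obtain ⟨e⟩ := hcu.coker_self
  haveI : Subsingleton (B.Coker δ) := by
    rw [Submodule.Quotient.subsingleton_iff, LinearMap.range_eq_top]
    exact hsurj
  exact (𝒩.H1EquivCoker.trans e).toEquiv.subsingleton
theorem H0_finite_projective (hΓ : Γ.IsGood) (𝒩 : LB Γ A) (h : Subsingleton 𝒩.H1) :
    Module.Finite A 𝒩.H0 ∧ Module.Projective A 𝒩.H0 := by
  obtain ⟨E₀, E₁, _, _, _, _, δ, _, _, _, _, hcu⟩ := 𝒩.exists_perfect hΓ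
  obtain ⟨e⟩ := hcu.coker_self
  obtain ⟨e'⟩ := hcu.ker_self
  have hsurj : Function.Surjective δ := by
    haveI : Subsingleton (B.Coker δ) := (𝒩.H1EquivCoker.trans e).symm.toEquiv.subsingleton
    rw [← LinearMap.range_eq_top, ← Submodule.Quotient.subsingleton_iff]
    infer_instance
  obtain ⟨h1, h2⟩ := B.ker_finite_projective_of_surjective δ hsurj
  exact ⟨Module.Finite.equiv e'.symm, Module.Projective.of_equiv e'.symm⟩
/-- the map on `H⁰` induced by a base change -/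
theorem BC.exists_H0_map {f : A →ₐ[k] A'} {𝒩 : LB Γ A} {𝒩' : LB Γ A'} (h : BC f 𝒩 𝒩')
    (s : 𝒩.H0) : (h.b₀ s.1.1, h.b₁ s.1.2) ∈ 𝒩'.H0 := by
  have hs : 𝒩.d s.1 = 0 := s.2
  rw [B.dC_apply, r₀A_apply, r₁A_apply] at hs
  show 𝒩'.d (h.b₀ s.1.1, h.b₁ s.1.2) = 0
  rw [B.dC_apply, r₀A_apply, r₁A_apply, ← h.comm₀, ← h.comm₁, ← map_sub, hs, map_zero]
theorem BC.span_H0 (hΓ : Γ.IsGood) {f : A →ₐ[k] A'} {𝒩 : LB Γ A} {𝒩' : LB Γ A'} (h : BC f 𝒩 𝒩')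
    (h1 : Subsingleton 𝒩.H1) :
    Submodule.span A' {z : 𝒩'.N₀ × 𝒩'.N₁ | ∃ s : 𝒩.H0, z = (h.b₀ s.1.1, h.b₁ s.1.2)} = 𝒩'.H0 := by
  apply le_antisymm
  · rw [Submodule.span_le]
    rintro _ ⟨s, rfl⟩
    exact h.exists_H0_map s
  · letI := f.toRingHom.toAlgebra
    obtain ⟨E, eM, hE, -, hd⟩ := h.exists_total hΓ
    have hsurj : Function.Surjective 𝒩.d := by
      rw [← LinearMap.range_eq_top, 𝒩.range_d, ← Submodule.Quotient.subsingleton_iff]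
      exact h1
    haveI : Module.Projective A 𝒩.N₀₁ := by
      letI := 𝒩.polyMod₀
      letI := 𝒩.polyMod₁
      haveI := PolyMod.tower (A := A) (Γ.xA A) 𝒩.N₀
      haveI := PolyMod.tower (A := A) (Γ.yA A) 𝒩.N₁
      have hb := 𝒩.isP1Bundle hΓ
      haveI := hb.projective₀
      exact B.projective_of_lattice 𝒩.r₀A (𝒩.xM hΓ) hb.inj₀ hb.semilinear₀ hb.span₀
    obtain ⟨e, he⟩ := B.Perf.exists_ker_baseChange_equiv 𝒩.d hsurj A'
    intro z hz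
    have hz' : 𝒩'.d z = 0 := hz
    have ht : 𝒩.d.baseChange A' (E.symm z) = 0 := by
      apply eM.injective
      rw [hd, E.apply_symm_apply, hz', map_zero]
    obtain ⟨x, hx⟩ : ∃ x, E.symm z = (LinearMap.ker 𝒩.d).subtype.baseChange A' x :=
      ⟨e.symm ⟨E.symm z, ht⟩, by rw [← he, e.apply_symm_apply]⟩
    have hz2 : z = E ((LinearMap.ker 𝒩.d).subtype.baseChange A' x) := by
      rw [← hx, E.apply_symm_apply]
    rw [hz2]
    clear hz2 hx ht hz' hz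
    induction x using TensorProduct.induction_on with
    | zero => simp
    | tmul a s =>
      rw [LinearMap.baseChange_tmul, hE]
      have hmem : ((h.b₀ s.1.1, h.b₁ s.1.2) : 𝒩'.N₀ × 𝒩'.N₁) ∈ Submodule.span A'
          {z : 𝒩'.N₀ × 𝒩'.N₁ | ∃ s : 𝒩.H0, z = (h.b₀ s.1.1, h.b₁ s.1.2)} :=
        Submodule.subset_span ⟨s, rfl⟩
      exact Submodule.smul_mem _ a hmem
    | add x y hx hy =>
      rw [map_add, map_add]
      exact Submodule.add_mem _ hx hy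

end LB
end Fermat.Agent.S25
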