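import Fermat.Agent.S25.Defs
import Fermat.Agent.S25.L.TensorDomain

/-! # S25 / L1 : the rings `R₀ A`, `R₁ A`, `R₀₁ A` -/
set_option autoImplicit false
set_option linter.style.haveILetI false
universe u
open TensorProduct Polynomial

namespace Fermat.Agent.S25

variable {k : Type u} [Field k]

/-! ### general lemmas on `A ⊗[k] B` -/
namespace Rings

variable (A : Type u) [CommRing A] [Algebra k A]
  {B B' : Type u} [CommRing B] [CommRing B'] [Algebra k B] [Algebra k B']

theorem map_injective (ι : B →ₐ[k] B') (hι : Function.Injective ι) :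
    Function.Injective (Algebra.TensorProduct.map (AlgHom.id A A) ι) := by
  have h := Module.Flat.lTensor_preserves_injective_linearMap (M := A) ι.toLinearMap hι
  intro a b hab
  apply h
  have e : ∀ z : A ⊗[k] B, (LinearMap.lTensor A ι.toLinearMap) z
      = Algebra.TensorProduct.map (AlgHom.id A A) ι z := by
    intro z
    induction z using TensorProduct.induction_on with
    | zero => simp
    | tmul a b => simp
    | add a b ha hb => rw [map_add, map_add, ha, hb]
  rw [e, e, hab]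

theorem injective_of_away [IsDomain B] (ι : B →ₐ[k] B') (x : B) (hx : x ≠ 0)
    (h : @IsLocalization.Away B _ x B' _ ι.toRingHom.toAlgebra) : Function.Injective ι := by
  letI : Algebra B B' := ι.toRingHom.toAlgebra
  have : Function.Injective (algebraMap B B') :=
    IsLocalization.injective B' (M := Submonoid.powers x)
      (powers_le_nonZeroDivisors_of_noZeroDivisors hx)
  exact this

theorem isLocalization_map (ι : B →ₐ[k] B') (x : B)
    (h : @IsLocalization.Away B _ x B' _ ι.toRingHom.toAlgebra) :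
    @IsLocalization.Away (A ⊗[k] B) _ ((1 : A) ⊗ₜ[k] x) (A ⊗[k] B') _
      (Algebra.TensorProduct.map (AlgHom.id A A) ι).toRingHom.toAlgebra := by
  letI : Algebra B B' := ι.toRingHom.toAlgebra
  haveI : IsScalarTower k B B' := .of_algebraMap_eq fun r => (ι.commutes r).symm
  letI : Algebra (A ⊗[k] B) (A ⊗[k] B') :=
    (Algebra.TensorProduct.map (AlgHom.id A A) ι).toRingHom.toAlgebra
  haveI : IsScalarTower A (A ⊗[k] B) (A ⊗[k] B') :=
    .of_algebraMap_eq fun r => ((Algebra.TensorProduct.map (AlgHom.id A A) ι).commutes r).symm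
  haveI : IsLocalization (Submonoid.powers x) B' := h
  have key := IsLocalization.tensorProduct_tensorProduct_right k A (Submonoid.powers x) B'
    (by
      ext b
      change Algebra.TensorProduct.map (AlgHom.id A A) ι ((1 : A) ⊗ₜ[k] b) = (1 : A) ⊗ₜ[k] ι b
      simp)
  simp only [Submonoid.map_powers, Algebra.TensorProduct.includeRight_apply] at key
  exact key

theorem one_tmul_mem_nonZeroDivisors [IsDomain B] (x : B) (hx : x ≠ 0) :
    ((1 : A) ⊗ₜ[k] x) ∈ nonZeroDivisors (A ⊗[k] B) := by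
  have hinj : Function.Injective (LinearMap.mulLeft k x) := by
    intro a b hab
    exact mul_left_cancel₀ hx (by simpa using hab)
  have h := Module.Flat.lTensor_preserves_injective_linearMap (M := A) (LinearMap.mulLeft k x) hinj
  have e : ∀ z : A ⊗[k] B, (LinearMap.lTensor A (LinearMap.mulLeft k x)) z
      = ((1 : A) ⊗ₜ[k] x) * z := by
    intro z
    induction z using TensorProduct.induction_on with
    | zero => simp
    | tmul a b => simp
    | add a b ha hb => rw [map_add, mul_add, ha, hb]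
  rw [mem_nonZeroDivisors_iff_right]
  intro z hz
  apply h
  rw [e, map_zero, mul_comm, hz]

theorem exists_basis [IsDomain B] (x : B)
    (hfin : (Polynomial.aeval (R := k) x).toRingHom.Finite) (htr : Transcendental k x) :
    ∃ (n : ℕ) (β : Fin n → A ⊗[k] B), ∀ z : A ⊗[k] B, ∃! p : Fin n → A[X],
      z = ∑ i, Polynomial.aeval ((1 : A) ⊗ₜ[k] x) (p i) * β i := by
  letI : Algebra k[X] B := (Polynomial.aeval (R := k) x).toRingHom.toAlgebra
  haveI : Module.Finite k[X] B := hfin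
  haveI : IsScalarTower k k[X] B := .of_algebraMap_eq fun r => by
    change algebraMap k B r = Polynomial.aeval x (algebraMap k k[X] r)
    rw [AlgHom.commutes]
  have hinj : Function.Injective (algebraMap k[X] B) := transcendental_iff_injective.mp htr
  haveI : Module.IsTorsionFree k[X] B := Module.isTorsionFree_iff_algebraMap_injective.mpr hinj
  let b := Module.finBasis k[X] B
  let n := Module.finrank k[X] B
  let c₀ : Module.Basis (ℕ × Fin n) k B := (Polynomial.basisMonomials k).smulTower b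
  let c : Module.Basis (ℕ × Fin n) A (A ⊗[k] B) := c₀.baseChange A
  let d : Module.Basis ((_ : Fin n) × ℕ) A (Fin n → A[X]) :=
    Pi.basis fun _ : Fin n => Polynomial.basisMonomials A
  let e : ((_ : Fin n) × ℕ) ≃ ℕ × Fin n :=
    (Equiv.sigmaEquivProd (Fin n) ℕ).trans (Equiv.prodComm _ _)
  let β : Fin n → A ⊗[k] B := fun i => (1 : A) ⊗ₜ[k] b i
  let Ψ : (Fin n → A[X]) →ₗ[A] A ⊗[k] B :=
    ∑ i, (LinearMap.mulRight A (β i)) ∘ₗ
      (Polynomial.aeval ((1 : A) ⊗ₜ[k] x)).toLinearMap ∘ₗ (LinearMap.proj i)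
  have hΨ : ∀ p, Ψ p = ∑ i, Polynomial.aeval ((1 : A) ⊗ₜ[k] x) (p i) * β i := by
    intro p
    simp [Ψ, LinearMap.sum_apply]
  have hΨe : Ψ = (d.equiv c e).toLinearMap := by
    apply d.ext
    rintro ⟨i, j⟩
    rw [hΨ, LinearEquiv.coe_coe, Module.Basis.equiv_apply]
    have h1 : c (e ⟨i, j⟩) = (1 : A) ⊗ₜ[k] (x ^ j * b i) := by
      simp only [c, c₀, e, Module.Basis.baseChange_apply, Module.Basis.smulTower_apply]
      congr 1
      change (Polynomial.basisMonomials k j) • b i = _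
      rw [Polynomial.coe_basisMonomials, Algebra.smul_def]
      change Polynomial.aeval x (Polynomial.monomial j (1 : k)) * b i = _
      simp [Polynomial.aeval_monomial]
    rw [h1, Finset.sum_eq_single i]
    · simp only [d, Pi.basis_apply, Pi.single_eq_same, Polynomial.coe_basisMonomials,
        Polynomial.aeval_monomial, map_one, one_mul, β, Algebra.TensorProduct.tmul_pow, one_pow,
        Algebra.TensorProduct.tmul_mul_tmul, mul_one]
    · intro i' _ hi'
      simp only [d, Pi.basis_apply]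
      rw [Pi.single_eq_of_ne hi', map_zero, zero_mul]
    · intro h; exact absurd (Finset.mem_univ i) h
  have hbij : Function.Bijective Ψ := by
    rw [hΨe]; exact (d.equiv c e).bijective
  refine ⟨n, β, fun z => ?_⟩
  obtain ⟨p, hp⟩ := hbij.2 z
  refine ⟨p, (hp.symm.trans (hΨ p) : z = _), fun p' hp' => ?_⟩
  apply hbij.1
  have hp'' : z = ∑ i, Polynomial.aeval ((1 : A) ⊗ₜ[k] x) (p' i) * β i := hp'
  rw [hp, hΨ, ← hp'']

end Rings

namespace CurveAlg
variable {Γ : CurveAlg k} (hΓ : Γ.IsGood) (A : Type u) [CommRing A] [Algebra k A]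
include hΓ

theorem x_ne_zero : Γ.x ≠ 0 := fun h => hΓ.transc₀ (h ▸ isAlgebraic_zero)
theorem y_ne_zero : Γ.y ≠ 0 := fun h => hΓ.transc₁ (h ▸ isAlgebraic_zero)

theorem ι₀_injective : Function.Injective Γ.ι₀ :=
  haveI := hΓ.isDomain₀
  Rings.injective_of_away Γ.ι₀ Γ.x (x_ne_zero hΓ) hΓ.loc₀
theorem ι₁_injective : Function.Injective Γ.ι₁ :=
  haveI := hΓ.isDomain₁
  Rings.injective_of_away Γ.ι₁ Γ.y (y_ne_zero hΓ) hΓ.loc₁

theorem φ₀_injective : Function.Injective (Γ.φ₀ A) := Rings.map_injective A Γ.ι₀ (ι₀_injective hΓ)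
theorem φ₁_injective : Function.Injective (Γ.φ₁ A) := Rings.map_injective A Γ.ι₁ (ι₁_injective hΓ)
theorem φ₀_xA_mul_φ₁_yA : Γ.φ₀ A (Γ.xA A) * Γ.φ₁ A (Γ.yA A) = 1 := by
  simp only [φ₀, φ₁, xA, yA, Algebra.TensorProduct.map_tmul, Algebra.TensorProduct.tmul_mul_tmul,
    hΓ.xy, AlgHom.coe_id, id_eq, mul_one]
  rfl
theorem xA_mem_nonZeroDivisors : Γ.xA A ∈ nonZeroDivisors (Γ.R₀ A) :=
  haveI := hΓ.isDomain₀
  Rings.one_tmul_mem_nonZeroDivisors A Γ.x (x_ne_zero hΓ)
theorem yA_mem_nonZeroDivisors : Γ.yA A ∈ nonZeroDivisors (Γ.R₁ A) :=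
  haveI := hΓ.isDomain₁
  Rings.one_tmul_mem_nonZeroDivisors A Γ.y (y_ne_zero hΓ)
theorem isLocalization_φ₀ :
    @IsLocalization.Away (Γ.R₀ A) _ (Γ.xA A) (Γ.R₀₁ A) _ (Γ.φ₀ A).toRingHom.toAlgebra :=
  Rings.isLocalization_map A Γ.ι₀ Γ.x hΓ.loc₀
theorem isLocalization_φ₁ :
    @IsLocalization.Away (Γ.R₁ A) _ (Γ.yA A) (Γ.R₀₁ A) _ (Γ.φ₁ A).toRingHom.toAlgebra :=
  Rings.isLocalization_map A Γ.ι₁ Γ.y hΓ.loc₁

/-- `R₀ A` is finite free over `A[X]`, `X ↦ x` (because `B₀` is f.g. torsion free over the PID `k[X]`). -/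
theorem exists_basis_R₀ : ∃ (n : ℕ) (β : Fin n → Γ.R₀ A),
    ∀ z : Γ.R₀ A, ∃! p : Fin n → A[X], z = ∑ i, Polynomial.aeval (Γ.xA A) (p i) * β i :=
  haveI := hΓ.isDomain₀
  Rings.exists_basis A Γ.x hΓ.finite₀ hΓ.transc₀
theorem exists_basis_R₁ : ∃ (n : ℕ) (β : Fin n → Γ.R₁ A),
    ∀ z : Γ.R₁ A, ∃! p : Fin n → A[X], z = ∑ i, Polynomial.aeval (Γ.yA A) (p i) * β i :=
  haveI := hΓ.isDomain₁
  Rings.exists_basis A Γ.y hΓ.finite₁ hΓ.transc₁

theorem isDomain_B₀₁ : IsDomain Γ.B₀₁ := by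
  haveI := hΓ.isDomain₀
  letI : Algebra Γ.B₀ Γ.B₀₁ := Γ.ι₀.toRingHom.toAlgebra
  haveI : IsLocalization (Submonoid.powers Γ.x) Γ.B₀₁ := hΓ.loc₀
  exact IsLocalization.isDomain_of_le_nonZeroDivisors Γ.B₀₁ (M := Submonoid.powers Γ.x)
    (powers_le_nonZeroDivisors_of_noZeroDivisors (x_ne_zero hΓ))

theorem isDomain_R₀ [IsAlgClosed k] (K : Type u) [Field K] [Algebra k K] : IsDomain (Γ.R₀ K) :=
  haveI := hΓ.isDomain₀
  isDomain_tensorProduct_of_isAlgClosed K Γ.B₀
theorem isDomain_R₁ [IsAlgClosed k] (K : Type u) [Field K] [Algebra k K] : IsDomain (Γ.R₁ K) :=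
  haveI := hΓ.isDomain₁
  isDomain_tensorProduct_of_isAlgClosed K Γ.B₁
theorem isDomain_R₀₁ [IsAlgClosed k] (K : Type u) [Field K] [Algebra k K] : IsDomain (Γ.R₀₁ K) :=
  haveI := isDomain_B₀₁ hΓ
  isDomain_tensorProduct_of_isAlgClosed K Γ.B₀₁

end CurveAlg
end Fermat.Agent.S25
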