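import Mathlib

/-! # S25 / L3 (general part) : base change of modules along a ring hom, with semilinear maps

Everything is stated with explicit ring homs and semilinear maps (no `Algebra` instances), so that
it can be applied directly to the data of `LB`. -/
set_option autoImplicit false
set_option linter.style.haveILetI false
universe u
open TensorProduct

namespace Fermat.Agent.S25.SL

section BCMod
variable {R R' : Type u} [CommRing R] [CommRing R'] (ρ : R →+* R')
  (N : Type u) [AddCommGroup N] [Module R N]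

/-- `R' ⊗[R] N` along the ring hom `ρ`. -/
def BCMod : Type u := letI := ρ.toAlgebra; R' ⊗[R] N

noncomputable instance : AddCommGroup (BCMod ρ N) :=
  letI := ρ.toAlgebra; (inferInstance : AddCommGroup (R' ⊗[R] N))
noncomputable instance : Module R' (BCMod ρ N) :=
  letI := ρ.toAlgebra; (inferInstance : Module R' (R' ⊗[R] N))

namespace BCMod
variable {N}

/-- pure tensors -/
def tmul (a : R') (n : N) : BCMod ρ N := letI := ρ.toAlgebra; a ⊗ₜ[R] n

theorem tmul_add (a : R') (n n' : N) : tmul ρ a (n + n') = tmul ρ a n + tmul ρ a n' :=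
  letI := ρ.toAlgebra; TensorProduct.tmul_add a n n'
theorem add_tmul (a a' : R') (n : N) : tmul ρ (a + a') n = tmul ρ a n + tmul ρ a' n :=
  letI := ρ.toAlgebra; TensorProduct.add_tmul a a' n
theorem smul_tmul (a b : R') (n : N) : a • tmul ρ b n = tmul ρ (a * b) n :=
  letI := ρ.toAlgebra; TensorProduct.smul_tmul' a b n
theorem tmul_smul (a : R') (r : R) (n : N) : tmul ρ a (r • n) = tmul ρ (ρ r * a) n := by
  letI := ρ.toAlgebra
  have h : (r • a) ⊗ₜ[R] n = a ⊗ₜ[R] (r • n) := TensorProduct.smul_tmul r a n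
  have h2 : r • a = ρ r * a := Algebra.smul_def r a
  rw [h2] at h
  exact h.symm
theorem tmul_zero (a : R') : tmul ρ a (0 : N) = 0 :=
  letI := ρ.toAlgebra; TensorProduct.tmul_zero N a
theorem zero_tmul (n : N) : tmul ρ (0 : R') n = 0 :=
  letI := ρ.toAlgebra; TensorProduct.zero_tmul R' n

@[elab_as_elim]
theorem induction_on {motive : BCMod ρ N → Prop} (t : BCMod ρ N) (zero : motive 0)
    (tmul : ∀ a n, motive (tmul ρ a n)) (add : ∀ s t, motive s → motive t → motive (s + t)) :
    motive t :=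
  letI := ρ.toAlgebra; TensorProduct.induction_on (motive := motive) t zero tmul add

variable (N) in
/-- the canonical semilinear map `N → R' ⊗ N` -/
noncomputable def mk : N →ₛₗ[ρ] BCMod ρ N where
  toFun n := tmul ρ 1 n
  map_add' := tmul_add ρ 1
  map_smul' r n := by rw [tmul_smul, smul_tmul]

theorem mk_apply (n : N) : mk ρ N n = tmul ρ 1 n := rfl

theorem smul_mk (a : R') (n : N) : a • mk ρ N n = tmul ρ a n := by
  rw [mk_apply, smul_tmul, mul_one]

theorem span_range_mk : Submodule.span R' (Set.range (mk ρ N)) = ⊤ := by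
  rw [eq_top_iff]
  intro t ht
  clear ht
  induction t using induction_on with
  | zero => exact Submodule.zero_mem _
  | tmul a n =>
    rw [← smul_mk]
    exact Submodule.smul_mem _ _ (Submodule.subset_span ⟨n, rfl⟩)
  | add s t hs ht => exact Submodule.add_mem _ hs ht

section lift
variable {R'' : Type u} [CommRing R''] (τ : R' →+* R'') (υ : R →+* R'')
  (hυ : ∀ r, υ r = τ (ρ r)) {Q : Type u} [AddCommGroup Q] [Module R'' Q] (c : N →ₛₗ[υ] Q)

/-- auxiliary additive map -/
noncomputable def liftAux : BCMod ρ N →+ Q :=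
  letI := ρ.toAlgebra
  TensorProduct.liftAddHom (R := R) (M := R') (N := N)
    (AddMonoidHom.mk' (fun a => AddMonoidHom.mk' (fun n => τ a • c n)
      (fun n n' => by rw [map_add, smul_add]))
      (fun a a' => by ext n; simp [add_smul]))
    (fun r a n => by
      have h2 : r • a = ρ r * a := Algebra.smul_def r a
      simp only [AddMonoidHom.mk'_apply, h2, map_mul, c.map_smulₛₗ, hυ, smul_smul]
      rw [mul_comm])

include hυ in
theorem liftAux_tmul (a : R') (n : N) : liftAux ρ τ υ hυ c (tmul ρ a n) = τ a • c n := by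
  letI := ρ.toAlgebra
  exact TensorProduct.liftAddHom_tmul _ _ a n

/-- universal property of the base change, semilinear version -/
noncomputable def lift : BCMod ρ N →ₛₗ[τ] Q where
  toFun := liftAux ρ τ υ hυ c
  map_add' := map_add _
  map_smul' a t := by
    induction t using induction_on with
    | zero => simp
    | tmul b n => rw [smul_tmul, liftAux_tmul, liftAux_tmul, map_mul, mul_smul]
    | add s t hs ht => rw [smul_add, map_add, map_add, hs, ht, smul_add]

theorem lift_tmul (a : R') (n : N) : lift ρ τ υ hυ c (tmul ρ a n) = τ a • c n :=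
  liftAux_tmul ρ τ υ hυ c a n

theorem lift_mk (n : N) : lift ρ τ υ hυ c (mk ρ N n) = c n := by
  rw [mk_apply, lift_tmul, map_one, one_smul]

end lift

instance invertible [Module.Invertible R N] : Module.Invertible R' (BCMod ρ N) :=
  letI := ρ.toAlgebra; (inferInstance : Module.Invertible R' (R' ⊗[R] N))

theorem mk_injective [Module.Flat R N] (hρ : Function.Injective ρ) :
    Function.Injective (mk ρ N) := by
  letI := ρ.toAlgebra
  have h := Module.Flat.rTensor_preserves_injective_linearMap (M := N) (Algebra.linearMap R R') hρ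
  intro n n' hn
  have h1 : (LinearMap.rTensor N (Algebra.linearMap R R')) ((1 : R) ⊗ₜ[R] n)
      = (LinearMap.rTensor N (Algebra.linearMap R R')) ((1 : R) ⊗ₜ[R] n') := by
    simp only [LinearMap.rTensor_tmul, Algebra.linearMap_apply, map_one]
    exact hn
  have h2 := h h1
  have h3 := congrArg (TensorProduct.lid R N) h2
  simpa using h3

end BCMod
end BCMod

/-! ### maps that span -/
section span
variable {R R' R'' : Type u} [CommRing R] [CommRing R'] [CommRing R''] {ρ : R →+* R'}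
  {N N' Q : Type u} [AddCommGroup N] [Module R N] [AddCommGroup N'] [Module R' N']
  [AddCommGroup Q] [Module R'' Q]

/-- the canonical map `R' ⊗ N → N'` -/
noncomputable def can (b : N →ₛₗ[ρ] N') : BCMod ρ N →ₗ[R'] N' :=
  BCMod.lift ρ (RingHom.id R') ρ (fun _ => rfl) b

theorem can_mk (b : N →ₛₗ[ρ] N') (n : N) : can b (BCMod.mk ρ N n) = b n := BCMod.lift_mk ..

theorem can_surjective (b : N →ₛₗ[ρ] N') (hb : Submodule.span R' (Set.range b) = ⊤) :
    Function.Surjective (can b) := by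
  rw [← LinearMap.range_eq_top, eq_top_iff, ← hb, Submodule.span_le]
  rintro _ ⟨n, rfl⟩
  exact ⟨BCMod.mk ρ N n, can_mk b n⟩

theorem can_bijective [Module.Invertible R N] [Module.Invertible R' N'] (b : N →ₛₗ[ρ] N')
    (hb : Submodule.span R' (Set.range b) = ⊤) : Function.Bijective (can b) :=
  Module.Invertible.bijective_of_surjective (can_surjective b hb)

/-- a spanning semilinear map between invertible modules has the universal property of the base
change. -/
theorem exists_lift [Module.Invertible R N] [Module.Invertible R' N'] (b : N →ₛₗ[ρ] N')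
    (hb : Submodule.span R' (Set.range b) = ⊤) (τ : R' →+* R'') (υ : R →+* R'')
    (hυ : ∀ r, υ r = τ (ρ r)) (c : N →ₛₗ[υ] Q) :
    ∃ c' : N' →ₛₗ[τ] Q, ∀ n, c' (b n) = c n := by
  let e : BCMod ρ N ≃ₗ[R'] N' := LinearEquiv.ofBijective (can b) (can_bijective b hb)
  refine ⟨(BCMod.lift ρ τ υ hυ c).comp (e.symm : N' →ₗ[R'] BCMod ρ N), fun n => ?_⟩
  have h : e.symm (b n) = BCMod.mk ρ N n := by
    rw [LinearEquiv.symm_apply_eq]
    exact (can_mk b n).symm
  rw [LinearMap.comp_apply, LinearEquiv.coe_coe, h, BCMod.lift_mk]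

theorem ext_of_span (b : N →ₛₗ[ρ] N') (hb : Submodule.span R' (Set.range b) = ⊤)
    {τ : R' →+* R''} (c₁ c₂ : N' →ₛₗ[τ] Q) (h : ∀ n, c₁ (b n) = c₂ (b n)) : c₁ = c₂ :=
  LinearMap.ext_on hb (by rintro _ ⟨n, rfl⟩; exact h n)

end span

/-! ### localisation data -/
section loc
variable {R S : Type u} [CommRing R] [CommRing S] (φ : R →+* S) (x : R)
  {N M : Type u} [AddCommGroup N] [Module R N] [AddCommGroup M] [Module S M]

/-- `r : N → M` is a localisation of `N` away from the nonzerodivisor `x`. -/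
structure IsLoc (r : N →ₛₗ[φ] M) : Prop where
  unit : IsUnit (φ x)
  ring : ∀ s : S, ∃ (m : ℕ) (a : R), (φ x) ^ m * s = φ a
  inj : Function.Injective r
  span : ∀ n : M, ∃ (m : ℕ) (n₀ : N), (φ x) ^ m • n = r n₀

variable {φ x} {r : N →ₛₗ[φ] M} (hr : IsLoc φ x r)
  {S' : Type u} [CommRing S'] {Q : Type u} [AddCommGroup Q] [Module S' Q]

include hr in
theorem IsLoc.ext {τ : S →+* S'} (c₁ c₂ : M →ₛₗ[τ] Q) (h : ∀ n, c₁ (r n) = c₂ (r n)) :
    c₁ = c₂ := by
  ext m
  obtain ⟨j, n₀, hj⟩ := hr.span m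
  have hu : IsUnit (τ (φ x) ^ j) := (hr.unit.map τ).pow j
  have h1 : τ (φ x) ^ j • c₁ m = τ (φ x) ^ j • c₂ m := by
    rw [← map_pow, ← c₁.map_smulₛₗ, ← c₂.map_smulₛₗ, hj, h]
  exact hu.smul_left_cancel.mp h1

section lift
variable (τ : S →+* S') (υ : R →+* S') (hυ : ∀ a, υ a = τ (φ a)) (c : N →ₛₗ[υ] Q)

include hr hυ in
theorem IsLoc.lift_wd {u : S'} (hu : u * τ (φ x) = 1) {m : M} {j j' : ℕ} {n n' : N}
    (h : (φ x) ^ j • m = r n) (h' : (φ x) ^ j' • m = r n') : u ^ j • c n = u ^ j' • c n' := by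
  have e : x ^ j' • n = x ^ j • n' := hr.inj (by
    rw [r.map_smulₛₗ, r.map_smulₛₗ, map_pow, map_pow, ← h, ← h', smul_smul, smul_smul, mul_comm])
  have e2 : (τ (φ x)) ^ j' • c n = (τ (φ x)) ^ j • c n' := by
    have := congrArg c e
    rwa [c.map_smulₛₗ, c.map_smulₛₗ, map_pow, map_pow, hυ] at this
  calc u ^ j • c n = u ^ j • (u ^ j' * τ (φ x) ^ j') • c n := by
        rw [← mul_pow, hu, one_pow, one_smul]
    _ = (u ^ j * u ^ j') • (τ (φ x) ^ j' • c n) := by rw [smul_smul, smul_smul, mul_assoc]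
    _ = (u ^ j * u ^ j') • (τ (φ x) ^ j • c n') := by rw [e2]
    _ = u ^ j' • (u ^ j * τ (φ x) ^ j) • c n' := by
        rw [smul_smul, smul_smul]; congr 1; ring
    _ = u ^ j' • c n' := by rw [← mul_pow, hu, one_pow, one_smul]

include hr hυ in
/-- universal property of a localisation datum, semilinear version. -/
theorem IsLoc.exists_lift : ∃ c' : M →ₛₗ[τ] Q, ∀ n, c' (r n) = c n := by
  obtain ⟨v, hv⟩ := hr.unit
  set u : S' := τ ((v⁻¹ : Sˣ) : S) with hu_def
  set t : S' := τ (φ x) with ht_def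
  have hu : u * t = 1 := by
    rw [hu_def, ht_def, ← map_mul, ← hv, Units.inv_mul, map_one]
  have hpow : ∀ a b : ℕ, u ^ (a + b) * t ^ b = u ^ a := by
    intro a b
    rw [pow_add, mul_assoc, ← mul_pow, hu, one_pow, mul_one]
  let F : M → Q := fun m => u ^ (hr.span m).choose • c (hr.span m).choose_spec.choose
  have hF : ∀ (m : M) (j : ℕ) (n : N), (φ x) ^ j • m = r n → F m = u ^ j • c n := by
    intro m j n h
    exact hr.lift_wd τ υ hυ c hu (hr.span m).choose_spec.choose_spec h
  refine ⟨{ toFun := F, map_add' := ?_, map_smul' := ?_ }, ?_⟩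
  · intro m₁ m₂
    obtain ⟨j₁, n₁, h₁⟩ := hr.span m₁
    obtain ⟨j₂, n₂, h₂⟩ := hr.span m₂
    have h : (φ x) ^ (j₁ + j₂) • (m₁ + m₂) = r (x ^ j₂ • n₁ + x ^ j₁ • n₂) := by
      rw [map_add, r.map_smulₛₗ, r.map_smulₛₗ, ← h₁, ← h₂, smul_add, map_pow, map_pow, smul_smul,
        smul_smul, pow_add, mul_comm]
    rw [hF _ _ _ h, hF _ _ _ h₁, hF _ _ _ h₂, map_add, c.map_smulₛₗ, c.map_smulₛₗ, smul_add,
      map_pow, map_pow, hυ, smul_smul, smul_smul, hpow, add_comm j₁ j₂, hpow]
  · intro s m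
    obtain ⟨j, n, h⟩ := hr.span m
    obtain ⟨i, a, ha⟩ := hr.ring s
    have h' : (φ x) ^ (j + i) • (s • m) = r (a • n) := by
      rw [r.map_smulₛₗ, ← h, ← ha, smul_smul, smul_smul]
      congr 1
      ring
    rw [hF _ _ _ h', hF _ _ _ h, c.map_smulₛₗ, hυ, ← ha, map_mul, map_pow, smul_smul, smul_smul,
      ← mul_assoc, hpow, mul_comm]
  · intro n
    have h : (φ x) ^ 0 • r n = r n := by rw [pow_zero, one_smul]
    change F (r n) = c n
    rw [hF _ _ _ h, pow_zero, one_smul]

end lift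
end loc

/-! ### base change of a localisation datum -/
section square
variable {R S R' S' : Type u} [CommRing R] [CommRing S] [CommRing R'] [CommRing S']
  (φ : R →+* S) (φ' : R' →+* S') (ρ : R →+* R') (ρS : S →+* S')
  (comm : ∀ a, ρS (φ a) = φ' (ρ a))
  {N M : Type u} [AddCommGroup N] [Module R N] [AddCommGroup M] [Module S M] (r : N →ₛₗ[φ] M)

/-- `n ↦ 1 ⊗ r n` -/
noncomputable def mkComp : N →ₛₗ[ρS.comp φ] BCMod ρS M where
  toFun n := BCMod.mk ρS M (r n)
  map_add' n n' := by rw [map_add, map_add]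
  map_smul' a n := by rw [r.map_smulₛₗ, (BCMod.mk ρS M).map_smulₛₗ]; rfl

/-- the base change of a semilinear map along a commutative square of rings. -/
noncomputable def BCMod.map : BCMod ρ N →ₛₗ[φ'] BCMod ρS M :=
  BCMod.lift ρ φ' (ρS.comp φ) comm (mkComp φ ρS r)

theorem BCMod.map_tmul (a : R') (n : N) :
    BCMod.map φ φ' ρ ρS comm r (BCMod.tmul ρ a n) = BCMod.tmul ρS (φ' a) (r n) := by
  rw [BCMod.map, BCMod.lift_tmul]
  exact BCMod.smul_mk ρS _ _

theorem BCMod.map_mk (n : N) :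
    BCMod.map φ φ' ρ ρS comm r (BCMod.mk ρ N n) = BCMod.mk ρS M (r n) := by
  rw [BCMod.mk_apply, BCMod.map_tmul, map_one, BCMod.mk_apply]

variable {φ φ' ρ ρS r} {x : R}

theorem BCMod.map_injective (hr : IsLoc φ x r) (hφ' : Function.Injective φ')
    [Module.Flat R' (BCMod ρ N)] : Function.Injective (BCMod.map φ φ' ρ ρS comm r) := by
  -- the target `L = S' ⊗[R'] (R' ⊗[R] N)`
  have hj : Function.Injective (BCMod.mk φ' (BCMod ρ N)) := BCMod.mk_injective φ' hφ'
  let c₀ : N →ₛₗ[ρS.comp φ] BCMod φ' (BCMod ρ N) :=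
    { toFun := fun n => BCMod.mk φ' (BCMod ρ N) (BCMod.mk ρ N n)
      map_add' := fun n n' => by rw [map_add, map_add]
      map_smul' := fun a n => by
        rw [(BCMod.mk ρ N).map_smulₛₗ, (BCMod.mk φ' (BCMod ρ N)).map_smulₛₗ, ← comm]; rfl }
  obtain ⟨c₁, hc₁⟩ := hr.exists_lift ρS (ρS.comp φ) (fun _ => rfl) c₀
  let c₂ : BCMod ρS M →ₗ[S'] BCMod φ' (BCMod ρ N) := can c₁
  have key : ∀ t, c₂ (BCMod.map φ φ' ρ ρS comm r t) = BCMod.mk φ' (BCMod ρ N) t := by
    intro t
    induction t using BCMod.induction_on with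
    | zero => simp
    | tmul a n =>
      rw [BCMod.map_tmul, ← BCMod.smul_mk, map_smul, can_mk, hc₁, ← BCMod.smul_mk ρ,
        (BCMod.mk φ' (BCMod ρ N)).map_smulₛₗ]
      rfl
    | add s t hs ht => rw [map_add, map_add, map_add, hs, ht]
  intro t t' h
  apply hj
  rw [← key, ← key, h]

theorem BCMod.map_span (hr : IsLoc φ x r)
    (hS' : ∀ s : S', ∃ (m : ℕ) (a : R'), (φ' (ρ x)) ^ m * s = φ' a) (t : BCMod ρS M) :
    ∃ (m : ℕ) (t₀ : BCMod ρ N), (φ' (ρ x)) ^ m • t = BCMod.map φ φ' ρ ρS comm r t₀ := by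
  induction t using BCMod.induction_on with
  | zero => exact ⟨0, 0, by simp⟩
  | tmul s m =>
    obtain ⟨i, a, ha⟩ := hS' s
    obtain ⟨j, n, hn⟩ := hr.span m
    refine ⟨j + i, BCMod.tmul ρ a n, ?_⟩
    rw [BCMod.map_tmul, ← hn, ← ha, BCMod.tmul_smul, BCMod.smul_tmul, map_pow, comm, pow_add,
      mul_assoc]
  | add s t hs ht =>
    obtain ⟨i, a, ha⟩ := hs
    obtain ⟨j, b, hb⟩ := ht
    refine ⟨i + j, (ρ x) ^ j • a + (ρ x) ^ i • b, ?_⟩
    rw [map_add, LinearMap.map_smulₛₗ, LinearMap.map_smulₛₗ, ← ha, ← hb, smul_add, map_pow,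
      map_pow, smul_smul, smul_smul, pow_add, mul_comm]

end square

end Fermat.Agent.S25.SL
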