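import Fermat.Agent.S25.L.IsoUnit
import Fermat.Agent.S25.L.SemiLin

/-! # S25 / L3 : base change of line bundle data -/
set_option autoImplicit false
set_option linter.style.haveILetI false
universe u
open TensorProduct Polynomial

namespace Fermat.Agent.S25
variable {k : Type u} [Field k] {Γ : CurveAlg k}

namespace CurveAlg
section
variable (Γ) {A A' A'' : Type u} [CommRing A] [Algebra k A] [CommRing A'] [Algebra k A']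
  [CommRing A''] [Algebra k A'']

theorem ρ₀₁_φ₀ (f : A →ₐ[k] A') (a : Γ.R₀ A) : Γ.ρ₀₁ f (Γ.φ₀ A a) = Γ.φ₀ A' (Γ.ρ₀ f a) := by
  induction a using TensorProduct.induction_on with
  | zero => simp
  | tmul a b => simp [ρ₀₁, φ₀, ρ₀]
  | add a b ha hb => rw [map_add, map_add, map_add, map_add, ha, hb]

theorem ρ₀₁_φ₁ (f : A →ₐ[k] A') (a : Γ.R₁ A) : Γ.ρ₀₁ f (Γ.φ₁ A a) = Γ.φ₁ A' (Γ.ρ₁ f a) := by
  induction a using TensorProduct.induction_on with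
  | zero => simp
  | tmul a b => simp [ρ₀₁, φ₁, ρ₁]
  | add a b ha hb => rw [map_add, map_add, map_add, map_add, ha, hb]

theorem ρ₀_xA (f : A →ₐ[k] A') : Γ.ρ₀ f (Γ.xA A) = Γ.xA A' := by simp [ρ₀, xA]
theorem ρ₁_yA (f : A →ₐ[k] A') : Γ.ρ₁ f (Γ.yA A) = Γ.yA A' := by simp [ρ₁, yA]

theorem ρ₀_id (a : Γ.R₀ A) : Γ.ρ₀ (AlgHom.id k A) a = a := by simp [ρ₀]
theorem ρ₁_id (a : Γ.R₁ A) : Γ.ρ₁ (AlgHom.id k A) a = a := by simp [ρ₁]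
theorem ρ₀₁_id (a : Γ.R₀₁ A) : Γ.ρ₀₁ (AlgHom.id k A) a = a := by simp [ρ₀₁]

theorem ρ₀_comp (f : A →ₐ[k] A') (g : A' →ₐ[k] A'') (a : Γ.R₀ A) :
    Γ.ρ₀ (g.comp f) a = Γ.ρ₀ g (Γ.ρ₀ f a) := by
  induction a using TensorProduct.induction_on with
  | zero => simp
  | tmul a b => simp [ρ₀]
  | add a b ha hb => rw [map_add, map_add, map_add, ha, hb]
theorem ρ₁_comp (f : A →ₐ[k] A') (g : A' →ₐ[k] A'') (a : Γ.R₁ A) :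
    Γ.ρ₁ (g.comp f) a = Γ.ρ₁ g (Γ.ρ₁ f a) := by
  induction a using TensorProduct.induction_on with
  | zero => simp
  | tmul a b => simp [ρ₁]
  | add a b ha hb => rw [map_add, map_add, map_add, ha, hb]
theorem ρ₀₁_comp (f : A →ₐ[k] A') (g : A' →ₐ[k] A'') (a : Γ.R₀₁ A) :
    Γ.ρ₀₁ (g.comp f) a = Γ.ρ₀₁ g (Γ.ρ₀₁ f a) := by
  induction a using TensorProduct.induction_on with
  | zero => simp
  | tmul a b => simp [ρ₀₁]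
  | add a b ha hb => rw [map_add, map_add, map_add, ha, hb]

theorem eA_ρ₀ (f : A →ₐ[k] A') (a : Γ.R₀ A) : Γ.eA A' (Γ.ρ₀ f a) = f (Γ.eA A a) := by
  induction a using TensorProduct.induction_on with
  | zero => simp
  | tmul a b => simp [ρ₀, eA, Algebra.smul_def, mul_comm]
  | add a b ha hb => rw [map_add, map_add, map_add, map_add, ha, hb]

end
end CurveAlg

namespace LB
section
variable {A : Type u} [CommRing A] [Algebra k A]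

theorem isLoc₀ (hΓ : Γ.IsGood) (𝒩 : LB Γ A) :
    SL.IsLoc (Γ.φ₀ A).toRingHom (Γ.xA A) 𝒩.r₀ where
  unit := IsUnit.of_mul_eq_one _ (CurveAlg.φ₀_xA_mul_φ₁_yA hΓ A)
  ring := unit_span₀ hΓ A
  inj := 𝒩.inj₀
  span := 𝒩.span₀

theorem isLoc₁ (hΓ : Γ.IsGood) (𝒩 : LB Γ A) :
    SL.IsLoc (Γ.φ₁ A).toRingHom (Γ.yA A) 𝒩.r₁ where
  unit := IsUnit.of_mul_eq_one _ ((mul_comm _ _).trans (CurveAlg.φ₀_xA_mul_φ₁_yA hΓ A))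
  ring := unit_span₁ hΓ A
  inj := 𝒩.inj₁
  span := 𝒩.span₁

end

section BC
variable {A A' A'' : Type u} [CommRing A] [Algebra k A] [CommRing A'] [Algebra k A']
  [CommRing A''] [Algebra k A'']

/-- the base change of a line bundle datum -/
noncomputable def bc (hΓ : Γ.IsGood) (f : A →ₐ[k] A') (𝒩 : LB Γ A) : LB Γ A' where
  N₀ := SL.BCMod (Γ.ρ₀ f).toRingHom 𝒩.N₀
  N₁ := SL.BCMod (Γ.ρ₁ f).toRingHom 𝒩.N₁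
  N₀₁ := SL.BCMod (Γ.ρ₀₁ f).toRingHom 𝒩.N₀₁
  r₀ := SL.BCMod.map (Γ.φ₀ A).toRingHom (Γ.φ₀ A').toRingHom (Γ.ρ₀ f).toRingHom
    (Γ.ρ₀₁ f).toRingHom (Γ.ρ₀₁_φ₀ f) 𝒩.r₀
  r₁ := SL.BCMod.map (Γ.φ₁ A).toRingHom (Γ.φ₁ A').toRingHom (Γ.ρ₁ f).toRingHom
    (Γ.ρ₀₁ f).toRingHom (Γ.ρ₀₁_φ₁ f) 𝒩.r₁
  inv₀ := inferInstance
  inv₁ := inferInstance
  inj₀ := SL.BCMod.map_injective (Γ.ρ₀₁_φ₀ f) (isLoc₀ hΓ 𝒩) (CurveAlg.φ₀_injective hΓ A')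
  inj₁ := SL.BCMod.map_injective (Γ.ρ₀₁_φ₁ f) (isLoc₁ hΓ 𝒩) (CurveAlg.φ₁_injective hΓ A')
  span₀ t := by
    have h := SL.BCMod.map_span (Γ.ρ₀₁_φ₀ f) (isLoc₀ hΓ 𝒩) (by
      intro s
      have := unit_span₀ hΓ A' s
      rw [← Γ.ρ₀_xA f] at this
      exact this) t
    have e : (Γ.ρ₀ f).toRingHom (Γ.xA A) = Γ.xA A' := Γ.ρ₀_xA f
    rw [e] at h
    exact h
  span₁ t := by
    have h := SL.BCMod.map_span (Γ.ρ₀₁_φ₁ f) (isLoc₁ hΓ 𝒩) (by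
      intro s
      have := unit_span₁ hΓ A' s
      rw [← Γ.ρ₁_yA f] at this
      exact this) t
    have e : (Γ.ρ₁ f).toRingHom (Γ.yA A) = Γ.yA A' := Γ.ρ₁_yA f
    rw [e] at h
    exact h

/-- `bc` is a base change -/
noncomputable def bcBC (hΓ : Γ.IsGood) (f : A →ₐ[k] A') (𝒩 : LB Γ A) : BC f 𝒩 (bc hΓ f 𝒩) where
  b₀ := SL.BCMod.mk (Γ.ρ₀ f).toRingHom 𝒩.N₀
  b₁ := SL.BCMod.mk (Γ.ρ₁ f).toRingHom 𝒩.N₁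
  b₀₁ := SL.BCMod.mk (Γ.ρ₀₁ f).toRingHom 𝒩.N₀₁
  comm₀ n := (SL.BCMod.map_mk _ _ _ _ (Γ.ρ₀₁_φ₀ f) 𝒩.r₀ n).symm
  comm₁ n := (SL.BCMod.map_mk _ _ _ _ (Γ.ρ₀₁_φ₁ f) 𝒩.r₁ n).symm
  span₀ := SL.BCMod.span_range_mk _
  span₁ := SL.BCMod.span_range_mk _

theorem exists_BC (hΓ : Γ.IsGood) (f : A →ₐ[k] A') (𝒩 : LB Γ A) :
    ∃ 𝒩' : LB Γ A', Nonempty (BC f 𝒩 𝒩') := ⟨bc hΓ f 𝒩, ⟨bcBC hΓ f 𝒩⟩⟩

/-- an isomorphism on the chart `U₀` extends to the overlap. -/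
theorem exists_e₀₁ (hΓ : Γ.IsGood) {𝒩₁ 𝒩₂ : LB Γ A} (e₀ : 𝒩₁.N₀ ≃ₗ[Γ.R₀ A] 𝒩₂.N₀) :
    ∃ e₀₁ : 𝒩₁.N₀₁ ≃ₗ[Γ.R₀₁ A] 𝒩₂.N₀₁, ∀ n, e₀₁ (𝒩₁.r₀ n) = 𝒩₂.r₀ (e₀ n) := by
  obtain ⟨g, hg⟩ := (isLoc₀ hΓ 𝒩₁).exists_lift (RingHom.id _) (Γ.φ₀ A).toRingHom (fun _ => rfl)
    (𝒩₂.r₀.comp (e₀ : 𝒩₁.N₀ →ₗ[Γ.R₀ A] 𝒩₂.N₀))
  obtain ⟨g', hg'⟩ := (isLoc₀ hΓ 𝒩₂).exists_lift (RingHom.id _) (Γ.φ₀ A).toRingHom (fun _ => rfl)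
    (𝒩₁.r₀.comp (e₀.symm : 𝒩₂.N₀ →ₗ[Γ.R₀ A] 𝒩₁.N₀))
  have h1 : g'.comp g = LinearMap.id := (isLoc₀ hΓ 𝒩₁).ext _ _ (fun n => by
    change g' (g (𝒩₁.r₀ n)) = 𝒩₁.r₀ n
    rw [hg]
    change g' (𝒩₂.r₀ (e₀ n)) = _
    rw [hg']
    change 𝒩₁.r₀ (e₀.symm (e₀ n)) = _
    rw [e₀.symm_apply_apply])
  have h2 : g.comp g' = LinearMap.id := (isLoc₀ hΓ 𝒩₂).ext _ _ (fun n => by
    change g (g' (𝒩₂.r₀ n)) = 𝒩₂.r₀ n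
    rw [hg']
    change g (𝒩₁.r₀ (e₀.symm n)) = _
    rw [hg]
    change 𝒩₂.r₀ (e₀ (e₀.symm n)) = _
    rw [e₀.apply_symm_apply])
  exact ⟨LinearEquiv.ofLinearMap g g' h2 h1, fun n => hg n⟩

theorem BC.unique (hΓ : Γ.IsGood) {f : A →ₐ[k] A'} {𝒩 : LB Γ A} {𝒩₁ 𝒩₂ : LB Γ A'}
    (h₁ : BC f 𝒩 𝒩₁) (h₂ : BC f 𝒩 𝒩₂) : 𝒩₁.Equiv 𝒩₂ := by
  -- the isomorphisms on the two charts
  obtain ⟨c₀, hc₀⟩ := SL.exists_lift h₁.b₀ h₁.span₀ (RingHom.id _) (Γ.ρ₀ f).toRingHom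
    (fun _ => rfl) h₂.b₀
  obtain ⟨c₁, hc₁⟩ := SL.exists_lift h₁.b₁ h₁.span₁ (RingHom.id _) (Γ.ρ₁ f).toRingHom
    (fun _ => rfl) h₂.b₁
  have s₀ : Function.Surjective c₀ := by
    rw [← LinearMap.range_eq_top, eq_top_iff, ← h₂.span₀, Submodule.span_le]
    rintro _ ⟨n, rfl⟩
    exact ⟨h₁.b₀ n, hc₀ n⟩
  have s₁ : Function.Surjective c₁ := by
    rw [← LinearMap.range_eq_top, eq_top_iff, ← h₂.span₁, Submodule.span_le]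
    rintro _ ⟨n, rfl⟩
    exact ⟨h₁.b₁ n, hc₁ n⟩
  let e₀ : 𝒩₁.N₀ ≃ₗ[Γ.R₀ A'] 𝒩₂.N₀ :=
    LinearEquiv.ofBijective c₀ (Module.Invertible.bijective_of_surjective s₀)
  let e₁ : 𝒩₁.N₁ ≃ₗ[Γ.R₁ A'] 𝒩₂.N₁ :=
    LinearEquiv.ofBijective c₁ (Module.Invertible.bijective_of_surjective s₁)
  obtain ⟨e₀₁, he₀₁⟩ := exists_e₀₁ hΓ e₀
  -- `e₀₁` is compatible with the base change maps on the overlap
  have hb : (e₀₁ : 𝒩₁.N₀₁ →ₗ[Γ.R₀₁ A'] 𝒩₂.N₀₁).comp h₁.b₀₁ = h₂.b₀₁ :=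
    (isLoc₀ hΓ 𝒩).ext _ _ (fun n => by
      rw [LinearMap.comp_apply, h₁.comm₀, LinearEquiv.coe_coe, he₀₁, h₂.comm₀]
      exact congrArg _ (hc₀ n))
  have hcomm₁ : (e₀₁ : 𝒩₁.N₀₁ →ₗ[Γ.R₀₁ A'] 𝒩₂.N₀₁).comp 𝒩₁.r₁
      = 𝒩₂.r₁.comp (e₁ : 𝒩₁.N₁ →ₗ[Γ.R₁ A'] 𝒩₂.N₁) :=
    SL.ext_of_span h₁.b₁ h₁.span₁ _ _ (fun n => by
      rw [LinearMap.comp_apply, ← h₁.comm₁, ← LinearMap.comp_apply, hb, h₂.comm₁,
        LinearMap.comp_apply]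
      exact congrArg _ (hc₁ n).symm)
  exact ⟨{ e₀ := e₀, e₁ := e₁, e₀₁ := e₀₁, comm₀ := he₀₁,
           comm₁ := fun n => LinearMap.congr_fun hcomm₁ n }⟩

theorem BC.of_equiv {f : A →ₐ[k] A'} {𝒩 𝒩₂ : LB Γ A} {𝒩' 𝒩₂' : LB Γ A'}
    (h : BC f 𝒩 𝒩') (e : 𝒩.Equiv 𝒩₂) (e' : 𝒩'.Equiv 𝒩₂') : Nonempty (BC f 𝒩₂ 𝒩₂') := by
  obtain ⟨i⟩ := e
  obtain ⟨i'⟩ := e'
  refine ⟨{
    b₀ := ((i'.e₀ : 𝒩'.N₀ →ₗ[Γ.R₀ A'] 𝒩₂'.N₀).comp h.b₀).comp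
      (i.e₀.symm : 𝒩₂.N₀ →ₗ[Γ.R₀ A] 𝒩.N₀)
    b₁ := ((i'.e₁ : 𝒩'.N₁ →ₗ[Γ.R₁ A'] 𝒩₂'.N₁).comp h.b₁).comp
      (i.e₁.symm : 𝒩₂.N₁ →ₗ[Γ.R₁ A] 𝒩.N₁)
    b₀₁ := ((i'.e₀₁ : 𝒩'.N₀₁ →ₗ[Γ.R₀₁ A'] 𝒩₂'.N₀₁).comp h.b₀₁).comp
      (i.e₀₁.symm : 𝒩₂.N₀₁ →ₗ[Γ.R₀₁ A] 𝒩.N₀₁)
    comm₀ := fun n => ?_
    comm₁ := fun n => ?_
    span₀ := ?_
    span₁ := ?_ }⟩
  · have e : i.e₀₁.symm (𝒩₂.r₀ n) = 𝒩.r₀ (i.e₀.symm n) := i.symm.comm₀ n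
    change i'.e₀₁ (h.b₀₁ (i.e₀₁.symm (𝒩₂.r₀ n))) = 𝒩₂'.r₀ (i'.e₀ (h.b₀ (i.e₀.symm n)))
    rw [e, h.comm₀, i'.comm₀]
  · have e : i.e₀₁.symm (𝒩₂.r₁ n) = 𝒩.r₁ (i.e₁.symm n) := i.symm.comm₁ n
    change i'.e₀₁ (h.b₀₁ (i.e₀₁.symm (𝒩₂.r₁ n))) = 𝒩₂'.r₁ (i'.e₁ (h.b₁ (i.e₁.symm n)))
    rw [e, h.comm₁, i'.comm₁]
  · have hr : Set.range (((i'.e₀ : 𝒩'.N₀ →ₗ[Γ.R₀ A'] 𝒩₂'.N₀).comp h.b₀).comp
        (i.e₀.symm : 𝒩₂.N₀ →ₗ[Γ.R₀ A] 𝒩.N₀)) = (i'.e₀ : 𝒩'.N₀ →ₗ[Γ.R₀ A'] 𝒩₂'.N₀) '' Set.range h.b₀ := by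
      ext z
      constructor
      · rintro ⟨n, rfl⟩
        exact ⟨_, ⟨i.e₀.symm n, rfl⟩, rfl⟩
      · rintro ⟨_, ⟨n, rfl⟩, rfl⟩
        exact ⟨i.e₀ n, by
          change i'.e₀ (h.b₀ (i.e₀.symm (i.e₀ n))) = _
          rw [i.e₀.symm_apply_apply]; rfl⟩
    rw [hr, Submodule.span_image, h.span₀, Submodule.map_top, LinearMap.range_eq_top]
    exact i'.e₀.surjective
  · have hr : Set.range (((i'.e₁ : 𝒩'.N₁ →ₗ[Γ.R₁ A'] 𝒩₂'.N₁).comp h.b₁).comp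
        (i.e₁.symm : 𝒩₂.N₁ →ₗ[Γ.R₁ A] 𝒩.N₁)) = (i'.e₁ : 𝒩'.N₁ →ₗ[Γ.R₁ A'] 𝒩₂'.N₁) '' Set.range h.b₁ := by
      ext z
      constructor
      · rintro ⟨n, rfl⟩
        exact ⟨_, ⟨i.e₁.symm n, rfl⟩, rfl⟩
      · rintro ⟨_, ⟨n, rfl⟩, rfl⟩
        exact ⟨i.e₁ n, by
          change i'.e₁ (h.b₁ (i.e₁.symm (i.e₁ n))) = _
          rw [i.e₁.symm_apply_apply]; rfl⟩
    rw [hr, Submodule.span_image, h.span₁, Submodule.map_top, LinearMap.range_eq_top]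
    exact i'.e₁.surjective

theorem BC.id (𝒩 : LB Γ A) : Nonempty (BC (AlgHom.id k A) 𝒩 𝒩) :=
  ⟨{ b₀ := { toFun := fun n => n, map_add' := fun _ _ => rfl
             map_smul' := fun a n => by
              change a • n = Γ.ρ₀ (AlgHom.id k A) a • n
              rw [Γ.ρ₀_id] }
     b₁ := { toFun := fun n => n, map_add' := fun _ _ => rfl
             map_smul' := fun a n => by
              change a • n = Γ.ρ₁ (AlgHom.id k A) a • n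
              rw [Γ.ρ₁_id] }
     b₀₁ := { toFun := fun n => n, map_add' := fun _ _ => rfl
              map_smul' := fun a n => by
                change a • n = Γ.ρ₀₁ (AlgHom.id k A) a • n
                rw [Γ.ρ₀₁_id] }
     comm₀ := fun _ => rfl
     comm₁ := fun _ => rfl
     span₀ := by
      rw [eq_top_iff]
      intro n _
      exact Submodule.subset_span ⟨n, rfl⟩
     span₁ := by
      rw [eq_top_iff]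
      intro n _
      exact Submodule.subset_span ⟨n, rfl⟩ }⟩

/-- the composite of two spanning semilinear maps spans. -/
theorem span_comp {R R' R'' : Type u} [CommRing R] [CommRing R'] [CommRing R'']
    {ρ : R →+* R'} {ρ' : R' →+* R''} {N N' N'' : Type u} [AddCommGroup N] [Module R N]
    [AddCommGroup N'] [Module R' N'] [AddCommGroup N''] [Module R'' N'']
    (b : N →ₛₗ[ρ] N') (b' : N' →ₛₗ[ρ'] N'') (hb : Submodule.span R' (Set.range b) = ⊤)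
    (hb' : Submodule.span R'' (Set.range b') = ⊤) :
    Submodule.span R'' (Set.range fun n => b' (b n)) = ⊤ := by
  rw [eq_top_iff, ← hb', Submodule.span_le]
  rintro _ ⟨n', rfl⟩
  have hn' : n' ∈ Submodule.span R' (Set.range b) := hb ▸ Submodule.mem_top
  induction hn' using Submodule.span_induction with
  | mem x hx =>
    obtain ⟨n, rfl⟩ := hx
    exact Submodule.subset_span ⟨n, rfl⟩
  | zero => rw [map_zero]; exact Submodule.zero_mem _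
  | add x y _ _ hx hy => rw [map_add]; exact Submodule.add_mem _ hx hy
  | smul a x _ hx => rw [b'.map_smulₛₗ]; exact Submodule.smul_mem _ _ hx

theorem BC.comp {f : A →ₐ[k] A'} {g : A' →ₐ[k] A''} {𝒩 : LB Γ A} {𝒩' : LB Γ A'} {𝒩'' : LB Γ A''}
    (h : BC f 𝒩 𝒩') (h' : BC g 𝒩' 𝒩'') : Nonempty (BC (g.comp f) 𝒩 𝒩'') :=
  ⟨{ b₀ := { toFun := fun n => h'.b₀ (h.b₀ n)
             map_add' := fun _ _ => by rw [map_add, map_add]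
             map_smul' := fun a n => by
              rw [h.b₀.map_smulₛₗ, h'.b₀.map_smulₛₗ]
              change Γ.ρ₀ g (Γ.ρ₀ f a) • _ = Γ.ρ₀ (g.comp f) a • _
              rw [Γ.ρ₀_comp] }
     b₁ := { toFun := fun n => h'.b₁ (h.b₁ n)
             map_add' := fun _ _ => by rw [map_add, map_add]
             map_smul' := fun a n => by
              rw [h.b₁.map_smulₛₗ, h'.b₁.map_smulₛₗ]
              change Γ.ρ₁ g (Γ.ρ₁ f a) • _ = Γ.ρ₁ (g.comp f) a • _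
              rw [Γ.ρ₁_comp] }
     b₀₁ := { toFun := fun n => h'.b₀₁ (h.b₀₁ n)
              map_add' := fun _ _ => by rw [map_add, map_add]
              map_smul' := fun a n => by
                rw [h.b₀₁.map_smulₛₗ, h'.b₀₁.map_smulₛₗ]
                change Γ.ρ₀₁ g (Γ.ρ₀₁ f a) • _ = Γ.ρ₀₁ (g.comp f) a • _
                rw [Γ.ρ₀₁_comp] }
     comm₀ := fun n => by
      change h'.b₀₁ (h.b₀₁ (𝒩.r₀ n)) = 𝒩''.r₀ (h'.b₀ (h.b₀ n))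
      rw [h.comm₀, h'.comm₀]
     comm₁ := fun n => by
      change h'.b₀₁ (h.b₀₁ (𝒩.r₁ n)) = 𝒩''.r₁ (h'.b₁ (h.b₁ n))
      rw [h.comm₁, h'.comm₁]
     span₀ := span_comp h.b₀ h'.b₀ h.span₀ h'.span₀
     span₁ := span_comp h.b₁ h'.b₁ h.span₁ h'.span₁ }⟩

theorem BC.unit (hΓ : Γ.IsGood) (f : A →ₐ[k] A') : Nonempty (BC f (unit hΓ A) (unit hΓ A')) :=
  ⟨{ b₀ := { toFun := Γ.ρ₀ f, map_add' := map_add _, map_smul' := fun a b => map_mul (Γ.ρ₀ f) a b }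
     b₁ := { toFun := Γ.ρ₁ f, map_add' := map_add _, map_smul' := fun a b => map_mul (Γ.ρ₁ f) a b }
     b₀₁ := { toFun := Γ.ρ₀₁ f, map_add' := map_add _
              map_smul' := fun a b => map_mul (Γ.ρ₀₁ f) a b }
     comm₀ := Γ.ρ₀₁_φ₀ f
     comm₁ := Γ.ρ₀₁_φ₁ f
     span₀ := (Ideal.eq_top_iff_one (Ideal.span (Set.range (Γ.ρ₀ f)))).mpr
      (Submodule.subset_span ⟨1, map_one _⟩)
     span₁ := (Ideal.eq_top_iff_one (Ideal.span (Set.range (Γ.ρ₁ f)))).mpr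
      (Submodule.subset_span ⟨1, map_one _⟩) }⟩

theorem BC.rigid {f : A →ₐ[k] A'} {𝒩 : LB Γ A} {𝒩' : LB Γ A'} (h : BC f 𝒩 𝒩') (h' : 𝒩.Rigid) :
    𝒩'.Rigid := by
  obtain ⟨ℓ, hℓ⟩ := h'
  let c : 𝒩.N₀ →ₛₗ[f.toRingHom.comp (Γ.eA A).toRingHom] A' :=
    { toFun := fun n => f (ℓ n)
      map_add' := fun _ _ => by rw [map_add, map_add]
      map_smul' := fun a n => by
        rw [ℓ.map_smulₛₗ, smul_eq_mul, map_mul]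
        rfl }
  obtain ⟨ℓ', hℓ'⟩ := SL.exists_lift h.b₀ h.span₀ (Γ.eA A').toRingHom
    (f.toRingHom.comp (Γ.eA A).toRingHom) (fun r => (Γ.eA_ρ₀ f r).symm) c
  refine ⟨ℓ', fun a' => ?_⟩
  obtain ⟨n, hn⟩ := hℓ 1
  refine ⟨algebraMap A' (Γ.R₀ A') a' • h.b₀ n, ?_⟩
  rw [ℓ'.map_smulₛₗ, hℓ']
  change Γ.eA A' (algebraMap A' (Γ.R₀ A') a') • f (ℓ n) = a'
  rw [hn, map_one, eA_algebraMap, smul_eq_mul, mul_one]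

end BC
end LB
end Fermat.Agent.S25
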