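import Fermat.Agent.S25.L.SemiLin

/-! # S25 / L4 (general part) : bilinear maps, universal properties, tensor products and duals of
localisation data -/
set_option autoImplicit false
set_option linter.style.haveILetI false
universe u
open TensorProduct

namespace Fermat.Agent.S25.SL

/-! ### semilinear maps with the universal property of a base change -/
section univ
variable {R R' : Type u} [CommRing R] [CommRing R'] {ρ : R →+* R'}
  {N N' P P' : Type u} [AddCommGroup N] [Module R N] [AddCommGroup N'] [Module R N']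
  [AddCommGroup P] [Module R' P] [AddCommGroup P'] [Module R' P']

/-- `b : N → P` has the universal property of the base change along `ρ`. -/
structure IsUniv (b : N →ₛₗ[ρ] P) : Prop where
  lift : ∀ (Q : Type u) [AddCommGroup Q] [Module R' Q] (c : N →ₛₗ[ρ] Q),
    ∃ c' : P →ₗ[R'] Q, ∀ n, c' (b n) = c n
  ext : ∀ (Q : Type u) [AddCommGroup Q] [Module R' Q] (c₁ c₂ : P →ₗ[R'] Q),
    (∀ n, c₁ (b n) = c₂ (b n)) → c₁ = c₂

theorem isUniv_of_span [Module.Invertible R N] [Module.Invertible R' P] (b : N →ₛₗ[ρ] P)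
    (hb : Submodule.span R' (Set.range b) = ⊤) : IsUniv b where
  lift _ _ _ c := exists_lift b hb (RingHom.id R') ρ (fun _ => rfl) c
  ext _ _ _ c₁ c₂ h := ext_of_span b hb c₁ c₂ h

theorem IsLoc.isUniv {x : R} {b : N →ₛₗ[ρ] P} (hb : IsLoc ρ x b) : IsUniv b where
  lift _ _ _ c := hb.exists_lift (RingHom.id R') ρ (fun _ => rfl) c
  ext _ _ _ c₁ c₂ h := hb.ext c₁ c₂ h

variable {b : N →ₛₗ[ρ] P} {b' : N' →ₛₗ[ρ] P'} {Q : Type u} [AddCommGroup Q] [Module R' Q]

/-- the lifting operator, as a linear map -/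
noncomputable def IsUniv.liftₗ (hb : IsUniv b) (Q : Type u) [AddCommGroup Q] [Module R' Q] :
    (N →ₛₗ[ρ] Q) →ₗ[R'] (P →ₗ[R'] Q) where
  toFun c := (hb.lift Q c).choose
  map_add' c₁ c₂ := hb.ext Q _ _ fun n => by
    rw [(hb.lift Q (c₁ + c₂)).choose_spec, LinearMap.add_apply, LinearMap.add_apply,
      (hb.lift Q c₁).choose_spec, (hb.lift Q c₂).choose_spec]
  map_smul' a c := hb.ext Q _ _ fun n => by
    rw [(hb.lift Q (a • c)).choose_spec, RingHom.id_apply, LinearMap.smul_apply,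
      LinearMap.smul_apply, (hb.lift Q c).choose_spec]

theorem IsUniv.liftₗ_apply (hb : IsUniv b) (c : N →ₛₗ[ρ] Q) (n : N) :
    hb.liftₗ Q c (b n) = c n := (hb.lift Q c).choose_spec n

/-- bilinear version of the universal property -/
theorem IsUniv.exists_lift₂ (hb : IsUniv b) (hb' : IsUniv b') (c : N →ₛₗ[ρ] N' →ₛₗ[ρ] Q) :
    ∃ c' : P →ₗ[R'] P' →ₗ[R'] Q, ∀ n n', c' (b n) (b' n') = c n n' := by
  obtain ⟨c', hc'⟩ := hb.lift _ ((hb'.liftₗ Q).comp c)
  exact ⟨c', fun n n' => by rw [hc']; exact hb'.liftₗ_apply (c n) n'⟩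

theorem IsUniv.ext₂ (hb : IsUniv b) (hb' : IsUniv b') (c₁ c₂ : P →ₗ[R'] P' →ₗ[R'] Q)
    (h : ∀ n n', c₁ (b n) (b' n') = c₂ (b n) (b' n')) : c₁ = c₂ :=
  hb.ext _ _ _ fun n => hb'.ext _ _ _ (h n)

end univ

/-! ### spanning bilinear maps between invertible modules -/
section bil
variable {S : Type u} [CommRing S] {P Q T X : Type u} [AddCommGroup P] [Module S P]
  [AddCommGroup Q] [Module S Q] [AddCommGroup T] [Module S T] [AddCommGroup X] [Module S X]

theorem lift_surjective (m : P →ₗ[S] Q →ₗ[S] T)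
    (h : Submodule.span S {z | ∃ p q, m p q = z} = ⊤) :
    Function.Surjective (TensorProduct.lift m) := by
  rw [← LinearMap.range_eq_top, eq_top_iff, ← h, Submodule.span_le]
  rintro _ ⟨p, q, rfl⟩
  exact ⟨p ⊗ₜ q, rfl⟩

variable [Module.Invertible S P] [Module.Invertible S Q] [Module.Invertible S T]

/-- a spanning bilinear map between invertible modules is a tensor product. -/
noncomputable def equivOfSpan (m : P →ₗ[S] Q →ₗ[S] T)
    (h : Submodule.span S {z | ∃ p q, m p q = z} = ⊤) : P ⊗[S] Q ≃ₗ[S] T :=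
  LinearEquiv.ofBijective (TensorProduct.lift m)
    (Module.Invertible.bijective_of_surjective (lift_surjective m h))

theorem equivOfSpan_tmul (m : P →ₗ[S] Q →ₗ[S] T)
    (h : Submodule.span S {z | ∃ p q, m p q = z} = ⊤) (p : P) (q : Q) :
    equivOfSpan m h (p ⊗ₜ q) = m p q := rfl

theorem equivOfSpan_symm (m : P →ₗ[S] Q →ₗ[S] T)
    (h : Submodule.span S {z | ∃ p q, m p q = z} = ⊤) (p : P) (q : Q) :
    (equivOfSpan m h).symm (m p q) = p ⊗ₜ q := by
  rw [LinearEquiv.symm_apply_eq, equivOfSpan_tmul]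

/-- the operator "factor a bilinear map through `m`", as a linear map -/
noncomputable def factorₗ (m : P →ₗ[S] Q →ₗ[S] T)
    (h : Submodule.span S {z | ∃ p q, m p q = z} = ⊤) (X : Type u) [AddCommGroup X] [Module S X] :
    (P →ₗ[S] Q →ₗ[S] X) →ₗ[S] (T →ₗ[S] X) :=
  (LinearMap.lcomp S X ((equivOfSpan m h).symm : T →ₗ[S] P ⊗[S] Q)).comp
    (TensorProduct.uncurry (RingHom.id S) P Q X)

theorem factorₗ_apply (m : P →ₗ[S] Q →ₗ[S] T)
    (h : Submodule.span S {z | ∃ p q, m p q = z} = ⊤) (c : P →ₗ[S] Q →ₗ[S] X) (p : P) (q : Q) :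
    factorₗ m h X c (m p q) = c p q := by
  change TensorProduct.lift c ((equivOfSpan m h).symm (m p q)) = c p q
  rw [equivOfSpan_symm, TensorProduct.lift.tmul]

end bil

/-! ### more on spanning bilinear maps -/
section bil2
variable {S : Type u} [CommRing S] {P Q T T' X : Type u} [AddCommGroup P] [Module S P]
  [AddCommGroup Q] [Module S Q] [AddCommGroup T] [Module S T] [AddCommGroup T'] [Module S T']
  [AddCommGroup X] [Module S X]

theorem ext_of_span₂ {S' : Type u} [CommRing S'] {τ : S →+* S'} {Y : Type u} [AddCommGroup Y]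
    [Module S' Y] (m : P →ₗ[S] Q →ₗ[S] T) (h : Submodule.span S {z | ∃ p q, m p q = z} = ⊤)
    (c₁ c₂ : T →ₛₗ[τ] Y) (hc : ∀ p q, c₁ (m p q) = c₂ (m p q)) : c₁ = c₂ :=
  LinearMap.ext_on h (by rintro _ ⟨p, q, rfl⟩; exact hc p q)

theorem exists_equiv_of_span [Module.Invertible S P] [Module.Invertible S Q]
    [Module.Invertible S T] [Module.Invertible S T'] (m : P →ₗ[S] Q →ₗ[S] T)
    (h : Submodule.span S {z | ∃ p q, m p q = z} = ⊤) (m' : P →ₗ[S] Q →ₗ[S] T')
    (h' : Submodule.span S {z | ∃ p q, m' p q = z} = ⊤) :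
    ∃ e : T ≃ₗ[S] T', ∀ p q, e (m p q) = m' p q :=
  ⟨(equivOfSpan m h).symm.trans (equivOfSpan m' h'), fun p q => by
    rw [LinearEquiv.trans_apply, equivOfSpan_symm, equivOfSpan_tmul]⟩

theorem span_mk : Submodule.span S {z | ∃ p q, TensorProduct.mk S P Q p q = z} = ⊤ := by
  rw [eq_top_iff]
  intro t ht
  clear ht
  induction t using TensorProduct.induction_on with
  | zero => exact Submodule.zero_mem _
  | tmul p q => exact Submodule.subset_span ⟨p, q, rfl⟩
  | add s t hs ht => exact Submodule.add_mem _ hs ht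

theorem span_flip (m : P →ₗ[S] Q →ₗ[S] T) (h : Submodule.span S {z | ∃ p q, m p q = z} = ⊤) :
    Submodule.span S {z | ∃ q p, m.flip q p = z} = ⊤ := by
  rw [← h]
  congr 1
  ext z
  exact ⟨fun ⟨q, p, e⟩ => ⟨p, q, e⟩, fun ⟨p, q, e⟩ => ⟨q, p, e⟩⟩

theorem span_lsmul : Submodule.span S {z | ∃ (a : S) (p : P), LinearMap.lsmul S P a p = z} = ⊤ := by
  rw [eq_top_iff]
  intro p _
  exact Submodule.subset_span ⟨1, p, one_smul S p⟩

theorem span_eval [Module.Invertible S P] :
    Submodule.span S {z | ∃ (p : P) (f : Module.Dual S P), Module.Dual.eval S P p f = z} = ⊤ := by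
  rw [eq_top_iff]
  intro z hz
  clear hz
  obtain ⟨t, rfl⟩ := (Module.Invertible.bijective (R := S) (M := P)).2 z
  induction t using TensorProduct.induction_on with
  | zero => rw [map_zero]; exact Submodule.zero_mem _
  | tmul f p => exact Submodule.subset_span ⟨p, f, rfl⟩
  | add s t hs ht => rw [map_add]; exact Submodule.add_mem _ hs ht

/-- transport of a spanning bilinear map along isomorphisms -/
theorem span_congr {P₂ Q₂ T₂ : Type u} [AddCommGroup P₂] [Module S P₂] [AddCommGroup Q₂]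
    [Module S Q₂] [AddCommGroup T₂] [Module S T₂] (m : P →ₗ[S] Q →ₗ[S] T)
    (h : Submodule.span S {z | ∃ p q, m p q = z} = ⊤) (e : P₂ ≃ₗ[S] P) (e' : Q₂ ≃ₗ[S] Q)
    (e'' : T ≃ₗ[S] T₂) (m₂ : P₂ →ₗ[S] Q₂ →ₗ[S] T₂) (hm : ∀ p q, m₂ p q = e'' (m (e p) (e' q))) :
    Submodule.span S {z | ∃ p q, m₂ p q = z} = ⊤ := by
  have hs : {z | ∃ p q, m₂ p q = z} = (e'' : T →ₗ[S] T₂) '' {z | ∃ p q, m p q = z} := by
    ext z
    constructor
    · rintro ⟨p, q, rfl⟩
      exact ⟨_, ⟨e p, e' q, rfl⟩, (hm p q).symm⟩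
    · rintro ⟨_, ⟨p, q, rfl⟩, rfl⟩
      exact ⟨e.symm p, e'.symm q, by
        rw [hm, e.apply_symm_apply, e'.apply_symm_apply]; rfl⟩
  rw [hs, Submodule.span_image, h, Submodule.map_top, LinearMap.range_eq_top]
  exact e''.surjective

end bil2

/-! ### associativity -/
section assoc
variable {S : Type u} [CommRing S] {P₁ P₂ P₃ P₁₂ P₂₃ T : Type u} [AddCommGroup P₁] [Module S P₁]
  [AddCommGroup P₂] [Module S P₂] [AddCommGroup P₃] [Module S P₃] [AddCommGroup P₁₂] [Module S P₁₂]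
  [AddCommGroup P₂₃] [Module S P₂₃] [AddCommGroup T] [Module S T]

theorem exists_assoc [Module.Invertible S P₂] [Module.Invertible S P₃] [Module.Invertible S P₂₃]
    (m₁₂ : P₁ →ₗ[S] P₂ →ₗ[S] P₁₂) (h₁₂ : Submodule.span S {z | ∃ p q, m₁₂ p q = z} = ⊤)
    (m₂₃ : P₂ →ₗ[S] P₃ →ₗ[S] P₂₃) (h₂₃ : Submodule.span S {z | ∃ p q, m₂₃ p q = z} = ⊤)
    (m : P₁₂ →ₗ[S] P₃ →ₗ[S] T) (h : Submodule.span S {z | ∃ p q, m p q = z} = ⊤) :
    ∃ m' : P₁ →ₗ[S] P₂₃ →ₗ[S] T, (∀ p₁ p₂ p₃, m' p₁ (m₂₃ p₂ p₃) = m (m₁₂ p₁ p₂) p₃) ∧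
      Submodule.span S {z | ∃ p q, m' p q = z} = ⊤ := by
  let m' : P₁ →ₗ[S] P₂₃ →ₗ[S] T := (factorₗ m₂₃ h₂₃ T).comp (m₁₂.compr₂ m)
  have hm' : ∀ p₁ p₂ p₃, m' p₁ (m₂₃ p₂ p₃) = m (m₁₂ p₁ p₂) p₃ := fun p₁ p₂ p₃ =>
    factorₗ_apply m₂₃ h₂₃ (m₁₂.compr₂ m p₁) p₂ p₃
  refine ⟨m', hm', ?_⟩
  rw [eq_top_iff, ← h, Submodule.span_le]
  rintro _ ⟨t, p₃, rfl⟩
  have ht : t ∈ Submodule.span S {z | ∃ p q, m₁₂ p q = z} := h₁₂ ▸ Submodule.mem_top
  induction ht using Submodule.span_induction with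
  | mem x hx =>
    obtain ⟨p₁, p₂, rfl⟩ := hx
    exact Submodule.subset_span ⟨p₁, m₂₃ p₂ p₃, hm' p₁ p₂ p₃⟩
  | zero => rw [map_zero, LinearMap.zero_apply]; exact Submodule.zero_mem _
  | add x y _ _ hx hy => rw [map_add, LinearMap.add_apply]; exact Submodule.add_mem _ hx hy
  | smul a x _ hx => rw [map_smul, LinearMap.smul_apply]; exact Submodule.smul_mem _ _ hx

end assoc

/-! ### tensor product of localisation data -/
section tensLoc
variable {R S : Type u} [CommRing R] [CommRing S] {φ : R →+* S} {x : R}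
  {N N' M M' : Type u} [AddCommGroup N] [Module R N] [AddCommGroup N'] [Module R N']
  [AddCommGroup M] [Module S M] [AddCommGroup M'] [Module S M']

/-- the tensor product of two semilinear maps -/
noncomputable def tmap (r : N →ₛₗ[φ] M) (r' : N' →ₛₗ[φ] M') : N ⊗[R] N' →ₛₗ[φ] M ⊗[S] M' :=
  TensorProduct.lift (((TensorProduct.mk S M M').comp r).compl₂ r')

theorem tmap_tmul (r : N →ₛₗ[φ] M) (r' : N' →ₛₗ[φ] M') (n : N) (n' : N') :
    tmap r r' (n ⊗ₜ n') = r n ⊗ₜ r' n' := rfl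

theorem IsLoc.tmap {r : N →ₛₗ[φ] M} {r' : N' →ₛₗ[φ] M'} (hr : IsLoc φ x r) (hr' : IsLoc φ x r')
    (hφ : Function.Injective φ) [Module.Flat R (N ⊗[R] N')] : IsLoc φ x (tmap r r') where
  unit := hr.unit
  ring := hr.ring
  inj := by
    obtain ⟨c, hc⟩ := hr.isUniv.exists_lift₂ hr'.isUniv
      ((TensorProduct.mk R N N').compr₂ₛₗ (BCMod.mk φ (N ⊗[R] N')))
    have key : ∀ t, TensorProduct.lift c (SL.tmap r r' t) = BCMod.mk φ _ t := by
      intro t
      induction t using TensorProduct.induction_on with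
      | zero => simp
      | tmul n n' => rw [tmap_tmul, TensorProduct.lift.tmul, hc]; rfl
      | add s t hs ht => rw [map_add, map_add, map_add, hs, ht]
    intro t t' h
    apply BCMod.mk_injective φ hφ
    rw [← key, ← key, h]
  span := by
    intro t
    induction t using TensorProduct.induction_on with
    | zero => exact ⟨0, 0, by simp⟩
    | tmul m m' =>
      obtain ⟨i, a, ha⟩ := hr.span m
      obtain ⟨j, a', ha'⟩ := hr'.span m'
      refine ⟨i + j, a ⊗ₜ a', ?_⟩
      rw [tmap_tmul, ← ha, ← ha', pow_add, mul_smul, TensorProduct.smul_tmul',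
        TensorProduct.smul_tmul', TensorProduct.smul_tmul, TensorProduct.smul_tmul,
        TensorProduct.smul_tmul, smul_comm]
    | add s t hs ht =>
      obtain ⟨i, a, ha⟩ := hs
      obtain ⟨j, b, hb⟩ := ht
      refine ⟨i + j, x ^ j • a + x ^ i • b, ?_⟩
      rw [map_add, LinearMap.map_smulₛₗ, LinearMap.map_smulₛₗ, ← ha, ← hb, smul_add, map_pow,
        map_pow, smul_smul, smul_smul, pow_add, mul_comm]

end tensLoc

/-! ### dual of a localisation datum -/
section dualLoc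
variable {R S : Type u} [CommRing R] [CommRing S] {φ : R →+* S} {x : R}
  {N M : Type u} [AddCommGroup N] [Module R N] [AddCommGroup M] [Module S M] {r : N →ₛₗ[φ] M}

/-- the transpose-inverse of a localisation datum: `f ↦` the extension of `φ ∘ f`. -/
noncomputable def IsLoc.dualMap (hr : IsLoc φ x r) : Module.Dual R N →ₛₗ[φ] Module.Dual S M :=
  (hr.isUniv.liftₗ S).comp (LinearMap.llcomp S N R S φ.toSemilinearMap)

theorem IsLoc.dualMap_apply (hr : IsLoc φ x r) (f : Module.Dual R N) (n : N) :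
    hr.dualMap f (r n) = φ (f n) :=
  hr.isUniv.liftₗ_apply _ n

theorem IsLoc.isLoc_dualMap (hr : IsLoc φ x r) (hφ : Function.Injective φ) [Module.Finite R N] :
    IsLoc φ x hr.dualMap where
  unit := hr.unit
  ring := hr.ring
  inj := by
    intro f f' h
    ext n
    apply hφ
    rw [← hr.dualMap_apply, ← hr.dualMap_apply, h]
  span := by
    intro g
    obtain ⟨s, hs⟩ := (Module.Finite.fg_top : (⊤ : Submodule R N).FG)
    choose mm a h using fun n : N => hr.ring (g (r n))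
    let m := s.sup mm
    let W : Submodule R N :=
      { carrier := {n | ∃ a, (φ x) ^ m * g (r n) = φ a}
        add_mem' := by
          rintro n n' ⟨a, ha⟩ ⟨a', ha'⟩
          exact ⟨a + a', by rw [map_add, map_add, mul_add, ha, ha', map_add]⟩
        zero_mem' := ⟨0, by simp⟩
        smul_mem' := by
          rintro c n ⟨a, ha⟩
          refine ⟨c * a, ?_⟩
          rw [r.map_smulₛₗ, map_smul, smul_eq_mul, map_mul, ← ha]
          ring }
    have hW : W = ⊤ := by
      rw [eq_top_iff, ← hs, Submodule.span_le]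
      intro n hn
      refine ⟨x ^ (m - mm n) * a n, ?_⟩
      rw [map_mul, map_pow, ← h n, ← mul_assoc, ← pow_add,
        Nat.sub_add_cancel (Finset.le_sup (f := mm) hn)]
    have hall : ∀ n, ∃ a, (φ x) ^ m * g (r n) = φ a := fun n =>
      (hW ▸ Submodule.mem_top : n ∈ W)
    choose f hf using hall
    refine ⟨m, { toFun := f, map_add' := ?_, map_smul' := ?_ }, ?_⟩
    · intro n n'
      apply hφ
      rw [map_add, ← hf, ← hf, ← hf, map_add, map_add, mul_add]
    · intro c n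
      apply hφ
      rw [RingHom.id_apply, smul_eq_mul, map_mul, ← hf, ← hf, r.map_smulₛₗ, map_smul, smul_eq_mul]
      ring
    · apply hr.ext
      intro n
      rw [LinearMap.smul_apply, hr.dualMap_apply, smul_eq_mul]
      exact hf n

end dualLoc

/-! ### base change of a spanning bilinear map -/
section bcBil
variable {R R' : Type u} [CommRing R] [CommRing R'] {ρ : R →+* R'}
  {N N' T P P' T' : Type u} [AddCommGroup N] [Module R N] [AddCommGroup N'] [Module R N']
  [AddCommGroup T] [Module R T] [AddCommGroup P] [Module R' P] [AddCommGroup P'] [Module R' P']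
  [AddCommGroup T'] [Module R' T']

theorem span_of_bc (m : N →ₗ[R] N' →ₗ[R] T) (hm : Submodule.span R {z | ∃ p q, m p q = z} = ⊤)
    (b : N →ₛₗ[ρ] P) (b' : N' →ₛₗ[ρ] P') (b'' : T →ₛₗ[ρ] T')
    (hb'' : Submodule.span R' (Set.range b'') = ⊤) (m' : P →ₗ[R'] P' →ₗ[R'] T')
    (h : ∀ n n', m' (b n) (b' n') = b'' (m n n')) :
    Submodule.span R' {z | ∃ p q, m' p q = z} = ⊤ := by
  rw [eq_top_iff, ← hb'', Submodule.span_le]
  rintro _ ⟨t, rfl⟩
  have ht : t ∈ Submodule.span R {z | ∃ p q, m p q = z} := hm ▸ Submodule.mem_top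
  induction ht using Submodule.span_induction with
  | mem x hx =>
    obtain ⟨n, n', rfl⟩ := hx
    exact Submodule.subset_span ⟨b n, b' n', h n n'⟩
  | zero => rw [map_zero]; exact Submodule.zero_mem _
  | add x y _ _ hx hy => rw [map_add]; exact Submodule.add_mem _ hx hy
  | smul a x _ hx => rw [b''.map_smulₛₗ]; exact Submodule.smul_mem _ _ hx

end bcBil

end Fermat.Agent.S25.SL
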