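import Fermat.Agent.S25.L.BC
import Fermat.Agent.S25.L.TensGen

/-! # S25 / L4 : tensor products and inverses of line bundle data -/
set_option autoImplicit false
set_option linter.style.haveILetI false
universe u
open TensorProduct Polynomial

namespace Fermat.Agent.S25
variable {k : Type u} [Field k] {Γ : CurveAlg k}

namespace LB
section Tens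
variable {A A' : Type u} [CommRing A] [Algebra k A] [CommRing A'] [Algebra k A']

/-- the tensor product of two line bundle data -/
noncomputable def tens (hΓ : Γ.IsGood) (𝒩 𝒩' : LB Γ A) : LB Γ A where
  N₀ := 𝒩.N₀ ⊗[Γ.R₀ A] 𝒩'.N₀
  N₁ := 𝒩.N₁ ⊗[Γ.R₁ A] 𝒩'.N₁
  N₀₁ := 𝒩.N₀₁ ⊗[Γ.R₀₁ A] 𝒩'.N₀₁
  r₀ := SL.tmap 𝒩.r₀ 𝒩'.r₀
  r₁ := SL.tmap 𝒩.r₁ 𝒩'.r₁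
  inv₀ := inferInstance
  inv₁ := inferInstance
  inj₀ := ((isLoc₀ hΓ 𝒩).tmap (isLoc₀ hΓ 𝒩') (CurveAlg.φ₀_injective hΓ A)).inj
  inj₁ := ((isLoc₁ hΓ 𝒩).tmap (isLoc₁ hΓ 𝒩') (CurveAlg.φ₁_injective hΓ A)).inj
  span₀ := ((isLoc₀ hΓ 𝒩).tmap (isLoc₀ hΓ 𝒩') (CurveAlg.φ₀_injective hΓ A)).span
  span₁ := ((isLoc₁ hΓ 𝒩).tmap (isLoc₁ hΓ 𝒩') (CurveAlg.φ₁_injective hΓ A)).span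

/-- `tens` is a tensor product -/
noncomputable def tensTens (hΓ : Γ.IsGood) (𝒩 𝒩' : LB Γ A) : Tens 𝒩 𝒩' (tens hΓ 𝒩 𝒩') where
  m₀ := TensorProduct.mk (Γ.R₀ A) 𝒩.N₀ 𝒩'.N₀
  m₁ := TensorProduct.mk (Γ.R₁ A) 𝒩.N₁ 𝒩'.N₁
  m₀₁ := TensorProduct.mk (Γ.R₀₁ A) 𝒩.N₀₁ 𝒩'.N₀₁
  comm₀ _ _ := rfl
  comm₁ _ _ := rfl
  span₀ := SL.span_mk
  span₁ := SL.span_mk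

theorem exists_Tens (hΓ : Γ.IsGood) (𝒩 𝒩' : LB Γ A) : ∃ 𝒩'' : LB Γ A, Nonempty (Tens 𝒩 𝒩' 𝒩'') :=
  ⟨tens hΓ 𝒩 𝒩', ⟨tensTens hΓ 𝒩 𝒩'⟩⟩

theorem Tens.unique (hΓ : Γ.IsGood) {𝒩 𝒩' 𝒩₁ 𝒩₂ : LB Γ A} (h₁ : Tens 𝒩 𝒩' 𝒩₁) (h₂ : Tens 𝒩 𝒩' 𝒩₂) :
    𝒩₁.Equiv 𝒩₂ := by
  obtain ⟨e₀, he₀⟩ := SL.exists_equiv_of_span h₁.m₀ h₁.span₀ h₂.m₀ h₂.span₀
  obtain ⟨e₁, he₁⟩ := SL.exists_equiv_of_span h₁.m₁ h₁.span₁ h₂.m₁ h₂.span₁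
  obtain ⟨e₀₁, he₀₁⟩ := exists_e₀₁ hΓ e₀
  have hm : h₁.m₀₁.compr₂ (e₀₁ : 𝒩₁.N₀₁ →ₗ[Γ.R₀₁ A] 𝒩₂.N₀₁) = h₂.m₀₁ :=
    (isLoc₀ hΓ 𝒩).isUniv.ext₂ (isLoc₀ hΓ 𝒩').isUniv _ _ (fun n n' => by
      rw [LinearMap.compr₂_apply, h₁.comm₀, LinearEquiv.coe_coe, he₀₁, he₀, h₂.comm₀])
  have hcomm₁ : (e₀₁ : 𝒩₁.N₀₁ →ₗ[Γ.R₀₁ A] 𝒩₂.N₀₁).comp 𝒩₁.r₁
      = 𝒩₂.r₁.comp (e₁ : 𝒩₁.N₁ →ₗ[Γ.R₁ A] 𝒩₂.N₁) :=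
    SL.ext_of_span₂ h₁.m₁ h₁.span₁ _ _ (fun p q => by
      rw [LinearMap.comp_apply, ← h₁.comm₁, LinearMap.comp_apply, LinearEquiv.coe_coe,
        LinearEquiv.coe_coe, he₁, ← h₂.comm₁, ← hm]
      rfl)
  exact ⟨{ e₀ := e₀, e₁ := e₁, e₀₁ := e₀₁, comm₀ := he₀₁,
           comm₁ := fun n => LinearMap.congr_fun hcomm₁ n }⟩

theorem Tens.of_equiv {𝒩 𝒩' 𝒩'' 𝒩₂ 𝒩₂' 𝒩₂'' : LB Γ A} (h : Tens 𝒩 𝒩' 𝒩'') (e : 𝒩.Equiv 𝒩₂)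
    (e' : 𝒩'.Equiv 𝒩₂') (e'' : 𝒩''.Equiv 𝒩₂'') : Nonempty (Tens 𝒩₂ 𝒩₂' 𝒩₂'') := by
  obtain ⟨i⟩ := e
  obtain ⟨i'⟩ := e'
  obtain ⟨i''⟩ := e''
  refine ⟨{
    m₀ := (h.m₀.compl₁₂ (i.e₀.symm : 𝒩₂.N₀ →ₗ[Γ.R₀ A] 𝒩.N₀)
      (i'.e₀.symm : 𝒩₂'.N₀ →ₗ[Γ.R₀ A] 𝒩'.N₀)).compr₂ (i''.e₀ : 𝒩''.N₀ →ₗ[Γ.R₀ A] 𝒩₂''.N₀)
    m₁ := (h.m₁.compl₁₂ (i.e₁.symm : 𝒩₂.N₁ →ₗ[Γ.R₁ A] 𝒩.N₁)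
      (i'.e₁.symm : 𝒩₂'.N₁ →ₗ[Γ.R₁ A] 𝒩'.N₁)).compr₂ (i''.e₁ : 𝒩''.N₁ →ₗ[Γ.R₁ A] 𝒩₂''.N₁)
    m₀₁ := (h.m₀₁.compl₁₂ (i.e₀₁.symm : 𝒩₂.N₀₁ →ₗ[Γ.R₀₁ A] 𝒩.N₀₁)
      (i'.e₀₁.symm : 𝒩₂'.N₀₁ →ₗ[Γ.R₀₁ A] 𝒩'.N₀₁)).compr₂
        (i''.e₀₁ : 𝒩''.N₀₁ →ₗ[Γ.R₀₁ A] 𝒩₂''.N₀₁)
    comm₀ := fun n n' => ?_
    comm₁ := fun n n' => ?_
    span₀ := SL.span_congr h.m₀ h.span₀ i.e₀.symm i'.e₀.symm i''.e₀ _ (fun _ _ => rfl)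
    span₁ := SL.span_congr h.m₁ h.span₁ i.e₁.symm i'.e₁.symm i''.e₁ _ (fun _ _ => rfl) }⟩
  · have e : i.e₀₁.symm (𝒩₂.r₀ n) = 𝒩.r₀ (i.e₀.symm n) := i.symm.comm₀ n
    have e' : i'.e₀₁.symm (𝒩₂'.r₀ n') = 𝒩'.r₀ (i'.e₀.symm n') := i'.symm.comm₀ n'
    change i''.e₀₁ (h.m₀₁ (i.e₀₁.symm (𝒩₂.r₀ n)) (i'.e₀₁.symm (𝒩₂'.r₀ n')))
      = 𝒩₂''.r₀ (i''.e₀ (h.m₀ (i.e₀.symm n) (i'.e₀.symm n')))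
    rw [e, e', h.comm₀, i''.comm₀]
  · have e : i.e₀₁.symm (𝒩₂.r₁ n) = 𝒩.r₁ (i.e₁.symm n) := i.symm.comm₁ n
    have e' : i'.e₀₁.symm (𝒩₂'.r₁ n') = 𝒩'.r₁ (i'.e₁.symm n') := i'.symm.comm₁ n'
    change i''.e₀₁ (h.m₀₁ (i.e₀₁.symm (𝒩₂.r₁ n)) (i'.e₀₁.symm (𝒩₂'.r₁ n')))
      = 𝒩₂''.r₁ (i''.e₁ (h.m₁ (i.e₁.symm n) (i'.e₁.symm n')))
    rw [e, e', h.comm₁, i''.comm₁]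

theorem Tens.comm {𝒩 𝒩' 𝒩'' : LB Γ A} (h : Tens 𝒩 𝒩' 𝒩'') : Nonempty (Tens 𝒩' 𝒩 𝒩'') :=
  ⟨{ m₀ := h.m₀.flip
     m₁ := h.m₁.flip
     m₀₁ := h.m₀₁.flip
     comm₀ := fun n n' => h.comm₀ n' n
     comm₁ := fun n n' => h.comm₁ n' n
     span₀ := SL.span_flip _ h.span₀
     span₁ := SL.span_flip _ h.span₁ }⟩

theorem Tens.assoc (hΓ : Γ.IsGood) {𝒩₁ 𝒩₂ 𝒩₃ 𝒩₁₂ 𝒩₂₃ 𝒩 : LB Γ A} (h₁₂ : Tens 𝒩₁ 𝒩₂ 𝒩₁₂)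
    (h₂₃ : Tens 𝒩₂ 𝒩₃ 𝒩₂₃) (h : Tens 𝒩₁₂ 𝒩₃ 𝒩) : Nonempty (Tens 𝒩₁ 𝒩₂₃ 𝒩) := by
  obtain ⟨m₀, hm₀, hs₀⟩ := SL.exists_assoc h₁₂.m₀ h₁₂.span₀ h₂₃.m₀ h₂₃.span₀ h.m₀ h.span₀
  obtain ⟨m₁, hm₁, hs₁⟩ := SL.exists_assoc h₁₂.m₁ h₁₂.span₁ h₂₃.m₁ h₂₃.span₁ h.m₁ h.span₁
  obtain ⟨m₀₁, hm₀₁⟩ := (isLoc₀ hΓ 𝒩₁).isUniv.exists_lift₂ (isLoc₀ hΓ 𝒩₂₃).isUniv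
    (m₀.compr₂ₛₗ 𝒩.r₀)
  -- the associativity identity on the overlap
  have s1 : ∀ p₁ p₂ p₃, m₀₁ (𝒩₁.r₀ p₁) (h₂₃.m₀₁ (𝒩₂.r₀ p₂) (𝒩₃.r₀ p₃))
      = h.m₀₁ (h₁₂.m₀₁ (𝒩₁.r₀ p₁) (𝒩₂.r₀ p₂)) (𝒩₃.r₀ p₃) := by
    intro p₁ p₂ p₃
    rw [h₂₃.comm₀, hm₀₁, h₁₂.comm₀, h.comm₀, LinearMap.compr₂ₛₗ_apply, hm₀]
  have s2 : ∀ a p₂ p₃, m₀₁ a (h₂₃.m₀₁ (𝒩₂.r₀ p₂) (𝒩₃.r₀ p₃))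
      = h.m₀₁ (h₁₂.m₀₁ a (𝒩₂.r₀ p₂)) (𝒩₃.r₀ p₃) := by
    intro a p₂ p₃
    exact LinearMap.congr_fun ((isLoc₀ hΓ 𝒩₁).ext
      (m₀₁.flip (h₂₃.m₀₁ (𝒩₂.r₀ p₂) (𝒩₃.r₀ p₃)))
      ((h.m₀₁.flip (𝒩₃.r₀ p₃)).comp (h₁₂.m₀₁.flip (𝒩₂.r₀ p₂))) (fun p₁ => s1 p₁ p₂ p₃)) a
  have s3 : ∀ a b p₃, m₀₁ a (h₂₃.m₀₁ b (𝒩₃.r₀ p₃)) = h.m₀₁ (h₁₂.m₀₁ a b) (𝒩₃.r₀ p₃) := by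
    intro a b p₃
    exact LinearMap.congr_fun ((isLoc₀ hΓ 𝒩₂).ext
      ((m₀₁ a).comp (h₂₃.m₀₁.flip (𝒩₃.r₀ p₃)))
      ((h.m₀₁.flip (𝒩₃.r₀ p₃)).comp (h₁₂.m₀₁ a)) (fun p₂ => s2 a p₂ p₃)) b
  have s4 : ∀ a b c, m₀₁ a (h₂₃.m₀₁ b c) = h.m₀₁ (h₁₂.m₀₁ a b) c := by
    intro a b c
    exact LinearMap.congr_fun ((isLoc₀ hΓ 𝒩₃).ext
      ((m₀₁ a).comp (h₂₃.m₀₁ b)) (h.m₀₁ (h₁₂.m₀₁ a b)) (fun p₃ => s3 a b p₃)) c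
  refine ⟨{ m₀ := m₀, m₁ := m₁, m₀₁ := m₀₁, comm₀ := hm₀₁, comm₁ := fun n n' => ?_,
            span₀ := hs₀, span₁ := hs₁ }⟩
  refine LinearMap.congr_fun (SL.ext_of_span₂ h₂₃.m₁ h₂₃.span₁
    ((m₀₁ (𝒩₁.r₁ n)).comp 𝒩₂₃.r₁) (𝒩.r₁.comp (m₁ n)) (fun p₂ p₃ => ?_)) n'
  rw [LinearMap.comp_apply, LinearMap.comp_apply, ← h₂₃.comm₁, s4, h₁₂.comm₁, h.comm₁, hm₁]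

theorem Tens.unit_left (hΓ : Γ.IsGood) (𝒩 : LB Γ A) : Nonempty (Tens (unit hΓ A) 𝒩 𝒩) :=
  ⟨{ m₀ := LinearMap.lsmul (Γ.R₀ A) 𝒩.N₀
     m₁ := LinearMap.lsmul (Γ.R₁ A) 𝒩.N₁
     m₀₁ := LinearMap.lsmul (Γ.R₀₁ A) 𝒩.N₀₁
     comm₀ := fun a n => (𝒩.r₀.map_smulₛₗ a n).symm
     comm₁ := fun a n => (𝒩.r₁.map_smulₛₗ a n).symm
     span₀ := SL.span_lsmul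
     span₁ := SL.span_lsmul }⟩

/-- the dual of a line bundle datum -/
noncomputable def dual (hΓ : Γ.IsGood) (𝒩 : LB Γ A) : LB Γ A where
  N₀ := Module.Dual (Γ.R₀ A) 𝒩.N₀
  N₁ := Module.Dual (Γ.R₁ A) 𝒩.N₁
  N₀₁ := Module.Dual (Γ.R₀₁ A) 𝒩.N₀₁
  r₀ := (isLoc₀ hΓ 𝒩).dualMap
  r₁ := (isLoc₁ hΓ 𝒩).dualMap
  inv₀ := inferInstance
  inv₁ := inferInstance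
  inj₀ := ((isLoc₀ hΓ 𝒩).isLoc_dualMap (CurveAlg.φ₀_injective hΓ A)).inj
  inj₁ := ((isLoc₁ hΓ 𝒩).isLoc_dualMap (CurveAlg.φ₁_injective hΓ A)).inj
  span₀ := ((isLoc₀ hΓ 𝒩).isLoc_dualMap (CurveAlg.φ₀_injective hΓ A)).span
  span₁ := ((isLoc₁ hΓ 𝒩).isLoc_dualMap (CurveAlg.φ₁_injective hΓ A)).span

/-- the evaluation pairing -/
noncomputable def dualTens (hΓ : Γ.IsGood) (𝒩 : LB Γ A) : Tens 𝒩 (dual hΓ 𝒩) (unit hΓ A) where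
  m₀ := Module.Dual.eval (Γ.R₀ A) 𝒩.N₀
  m₁ := Module.Dual.eval (Γ.R₁ A) 𝒩.N₁
  m₀₁ := Module.Dual.eval (Γ.R₀₁ A) 𝒩.N₀₁
  comm₀ n f := (isLoc₀ hΓ 𝒩).dualMap_apply f n
  comm₁ n f := (isLoc₁ hΓ 𝒩).dualMap_apply f n
  span₀ := SL.span_eval
  span₁ := SL.span_eval

theorem exists_inverse (hΓ : Γ.IsGood) (𝒩 : LB Γ A) :
    ∃ 𝒩' : LB Γ A, Nonempty (Tens 𝒩 𝒩' (unit hΓ A)) := ⟨dual hΓ 𝒩, ⟨dualTens hΓ 𝒩⟩⟩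

theorem Tens.BC (hΓ : Γ.IsGood) {f : A →ₐ[k] A'} {𝒩₁ 𝒩₂ 𝒩₃ : LB Γ A} {𝒩₁' 𝒩₂' 𝒩₃' : LB Γ A'}
    (h : Tens 𝒩₁ 𝒩₂ 𝒩₃) (b₁ : BC f 𝒩₁ 𝒩₁') (b₂ : BC f 𝒩₂ 𝒩₂') (b₃ : BC f 𝒩₃ 𝒩₃') :
    Nonempty (Tens 𝒩₁' 𝒩₂' 𝒩₃') := by
  obtain ⟨m₀, hm₀⟩ := (SL.isUniv_of_span b₁.b₀ b₁.span₀).exists_lift₂
    (SL.isUniv_of_span b₂.b₀ b₂.span₀) (h.m₀.compr₂ₛₗ b₃.b₀)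
  obtain ⟨m₁, hm₁⟩ := (SL.isUniv_of_span b₁.b₁ b₁.span₁).exists_lift₂
    (SL.isUniv_of_span b₂.b₁ b₂.span₁) (h.m₁.compr₂ₛₗ b₃.b₁)
  obtain ⟨m₀₁, hm₀₁⟩ := (isLoc₀ hΓ 𝒩₁').isUniv.exists_lift₂ (isLoc₀ hΓ 𝒩₂').isUniv
    (m₀.compr₂ₛₗ 𝒩₃'.r₀)
  have s1 : ∀ n n', m₀₁ (b₁.b₀₁ (𝒩₁.r₀ n)) (b₂.b₀₁ (𝒩₂.r₀ n'))
      = b₃.b₀₁ (h.m₀₁ (𝒩₁.r₀ n) (𝒩₂.r₀ n')) := by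
    intro n n'
    rw [b₁.comm₀, b₂.comm₀, hm₀₁, LinearMap.compr₂ₛₗ_apply, hm₀, LinearMap.compr₂ₛₗ_apply,
      h.comm₀, b₃.comm₀]
  have s2 : ∀ a n', m₀₁ (b₁.b₀₁ a) (b₂.b₀₁ (𝒩₂.r₀ n')) = b₃.b₀₁ (h.m₀₁ a (𝒩₂.r₀ n')) := by
    intro a n'
    exact LinearMap.congr_fun ((isLoc₀ hΓ 𝒩₁).ext
      ((m₀₁.flip (b₂.b₀₁ (𝒩₂.r₀ n'))).comp b₁.b₀₁)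
      (b₃.b₀₁.comp (h.m₀₁.flip (𝒩₂.r₀ n'))) (fun n => s1 n n')) a
  have s3 : ∀ a a', m₀₁ (b₁.b₀₁ a) (b₂.b₀₁ a') = b₃.b₀₁ (h.m₀₁ a a') := by
    intro a a'
    exact LinearMap.congr_fun ((isLoc₀ hΓ 𝒩₂).ext
      ((m₀₁ (b₁.b₀₁ a)).comp b₂.b₀₁) (b₃.b₀₁.comp (h.m₀₁ a)) (fun n' => s2 a n')) a'
  have t1 : ∀ n n', m₀₁ (𝒩₁'.r₁ (b₁.b₁ n)) (𝒩₂'.r₁ (b₂.b₁ n')) = 𝒩₃'.r₁ (m₁ (b₁.b₁ n) (b₂.b₁ n')) := by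
    intro n n'
    rw [← b₁.comm₁, ← b₂.comm₁, s3, h.comm₁, b₃.comm₁, hm₁, LinearMap.compr₂ₛₗ_apply]
  have t2 : ∀ p n', m₀₁ (𝒩₁'.r₁ p) (𝒩₂'.r₁ (b₂.b₁ n')) = 𝒩₃'.r₁ (m₁ p (b₂.b₁ n')) := by
    intro p n'
    exact LinearMap.congr_fun (SL.ext_of_span b₁.b₁ b₁.span₁
      ((m₀₁.flip (𝒩₂'.r₁ (b₂.b₁ n'))).comp 𝒩₁'.r₁)
      (𝒩₃'.r₁.comp (m₁.flip (b₂.b₁ n'))) (fun n => t1 n n')) p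
  have t3 : ∀ p q, m₀₁ (𝒩₁'.r₁ p) (𝒩₂'.r₁ q) = 𝒩₃'.r₁ (m₁ p q) := by
    intro p q
    exact LinearMap.congr_fun (SL.ext_of_span b₂.b₁ b₂.span₁
      ((m₀₁ (𝒩₁'.r₁ p)).comp 𝒩₂'.r₁) (𝒩₃'.r₁.comp (m₁ p)) (fun n' => t2 p n')) q
  exact ⟨{ m₀ := m₀, m₁ := m₁, m₀₁ := m₀₁, comm₀ := hm₀₁, comm₁ := t3
           span₀ := SL.span_of_bc h.m₀ h.span₀ b₁.b₀ b₂.b₀ b₃.b₀ b₃.span₀ m₀ hm₀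
           span₁ := SL.span_of_bc h.m₁ h.span₁ b₁.b₁ b₂.b₁ b₃.b₁ b₃.span₁ m₁ hm₁ }⟩

end Tens
end LB
end Fermat.Agent.S25
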