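import Fermat.Agent.S25.L.BC
import Fermat.Agent.S25.L.Tens

/-! # S25 / L2-L5 : calculus of line bundle data (Iso, unit, base change, tensor, inverse)

All statements are proved in `L/IsoUnit.lean`, `L/BC.lean` (base change) and `L/Tens.lean`
(tensor products, inverses); this file only gathers them. -/
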