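import Fermat.Agent.S25.L.Rings
import Fermat.Agent.S25.B.Main

/-! # S25 / LC1 : a line bundle datum is a `P¹`-bundle in the sense of layer B -/
set_option autoImplicit false
set_option linter.style.haveILetI false
universe u
open TensorProduct Polynomial

namespace Fermat.Agent.S25

namespace PolyMod
variable {A R : Type u} [CommRing A] [CommRing R] [Algebra A R] (t : R)
  (N : Type u) [AddCommGroup N] [Module R N]

/-- the `A[X]`-module structure `X ↦ t` on an `R`-module. -/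
noncomputable abbrev mod : Module A[X] N := Module.compHom N (aeval (R := A) t).toRingHom

theorem smul_def (p : A[X]) (n : N) :
    letI := mod (A := A) t N
    p • n = aeval (R := A) t p • n := rfl

theorem X_smul (n : N) :
    letI := mod (A := A) t N
    (X : A[X]) • n = t • n := by
  rw [smul_def, aeval_X]

theorem tower [Module A N] [IsScalarTower A R N] :
    letI := mod (A := A) t N
    IsScalarTower A A[X] N :=
  letI := mod (A := A) t N
  ⟨fun a p n => by rw [smul_def, smul_def, map_smul, smul_assoc]⟩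

variable {t}

theorem finite_and_projective [Module.Finite R N] [Module.Projective R N]
    (hb : ∃ (n : ℕ) (β : Fin n → R), ∀ z : R, ∃! p : Fin n → A[X], z = ∑ i, aeval t (p i) * β i) :
    letI := mod (A := A) t N
    Module.Finite A[X] N ∧ Module.Projective A[X] N := by
  letI := mod (A := A) t N
  letI : Algebra A[X] R := (aeval (R := A) t).toRingHom.toAlgebra
  haveI : IsScalarTower A[X] R N := ⟨fun p r n => by
    rw [smul_def, Algebra.smul_def, mul_smul]; rfl⟩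
  obtain ⟨n, β, hβ⟩ := hb
  have hlc : ∀ p : Fin n → A[X], Fintype.linearCombination A[X] β p = ∑ i, aeval t (p i) * β i := by
    intro p
    rw [Fintype.linearCombination_apply]
    rfl
  have hbij : Function.Bijective (Fintype.linearCombination A[X] β) := by
    constructor
    · intro p q hpq
      obtain ⟨p₀, -, hu⟩ := hβ (Fintype.linearCombination A[X] β p)
      rw [hu p (hlc p), hu q (by rw [hpq, hlc])]
    · intro z
      obtain ⟨p, hp, -⟩ := hβ z
      exact ⟨p, by rw [hlc, ← hp]⟩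
  let e : (Fin n → A[X]) ≃ₗ[A[X]] R := LinearEquiv.ofBijective _ hbij
  haveI : Module.Free A[X] R := Module.Free.of_equiv e
  haveI : Module.Finite A[X] R := Module.Finite.equiv e
  exact ⟨Module.Finite.trans R N, B.projective_trans A[X] R N⟩

end PolyMod

variable {k : Type u} [Field k] {Γ : CurveAlg k}

namespace LB
variable {A : Type u} [CommRing A] [Algebra k A] (𝒩 : LB Γ A)

/-- `X` acts on `N₀` as `x`. -/
noncomputable abbrev polyMod₀ : Module A[X] 𝒩.N₀ := PolyMod.mod (A := A) (Γ.xA A) 𝒩.N₀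
/-- `X` acts on `N₁` as `y`. -/
noncomputable abbrev polyMod₁ : Module A[X] 𝒩.N₁ := PolyMod.mod (A := A) (Γ.yA A) 𝒩.N₁

/-- multiplication by `x` on `N₀₁`. -/
noncomputable def xM (hΓ : Γ.IsGood) : 𝒩.N₀₁ ≃ₗ[A] 𝒩.N₀₁ where
  toFun n := Γ.φ₀ A (Γ.xA A) • n
  invFun n := Γ.φ₁ A (Γ.yA A) • n
  map_add' := smul_add _
  map_smul' a n := smul_comm _ _ _
  left_inv n := by
    show Γ.φ₁ A (Γ.yA A) • Γ.φ₀ A (Γ.xA A) • n = n
    rw [smul_smul, mul_comm, CurveAlg.φ₀_xA_mul_φ₁_yA hΓ, one_smul]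
  right_inv n := by
    show Γ.φ₀ A (Γ.xA A) • Γ.φ₁ A (Γ.yA A) • n = n
    rw [smul_smul, CurveAlg.φ₀_xA_mul_φ₁_yA hΓ, one_smul]

theorem xM_apply (hΓ : Γ.IsGood) (n : 𝒩.N₀₁) : 𝒩.xM hΓ n = Γ.φ₀ A (Γ.xA A) • n := rfl
theorem xM_symm_apply (hΓ : Γ.IsGood) (n : 𝒩.N₀₁) :
    (𝒩.xM hΓ).symm n = Γ.φ₁ A (Γ.yA A) • n := rfl

theorem xM_pow_apply (hΓ : Γ.IsGood) (j : ℕ) (n : 𝒩.N₀₁) :
    ((𝒩.xM hΓ) ^ j) n = Γ.φ₀ A (Γ.xA A) ^ j • n := by
  induction j with
  | zero => simp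
  | succ j ih => rw [B.pow_succ_apply', ih, xM_apply, smul_smul, pow_succ']

theorem xM_symm_pow_apply (hΓ : Γ.IsGood) (j : ℕ) (n : 𝒩.N₀₁) :
    ((𝒩.xM hΓ).symm ^ j) n = Γ.φ₁ A (Γ.yA A) ^ j • n := by
  induction j with
  | zero => simp
  | succ j ih => rw [B.pow_succ_apply', ih, xM_symm_apply, smul_smul, pow_succ']

/-- **LC1** -/
theorem isP1Bundle (hΓ : Γ.IsGood) :
    letI := 𝒩.polyMod₀
    letI := 𝒩.polyMod₁
    haveI := PolyMod.tower (A := A) (Γ.xA A) 𝒩.N₀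
    haveI := PolyMod.tower (A := A) (Γ.yA A) 𝒩.N₁
    B.IsP1Bundle 𝒩.r₀A 𝒩.r₁A (𝒩.xM hΓ) := by
  letI := 𝒩.polyMod₀
  letI := 𝒩.polyMod₁
  haveI := PolyMod.tower (A := A) (Γ.xA A) 𝒩.N₀
  haveI := PolyMod.tower (A := A) (Γ.yA A) 𝒩.N₁
  have h₀ := PolyMod.finite_and_projective (A := A) 𝒩.N₀ (CurveAlg.exists_basis_R₀ hΓ A)
  have h₁ := PolyMod.finite_and_projective (A := A) 𝒩.N₁ (CurveAlg.exists_basis_R₁ hΓ A)
  exact
  { finite₀ := h₀.1
    finite₁ := h₁.1
    projective₀ := h₀.2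
    projective₁ := h₁.2
    inj₀ := 𝒩.inj₀
    inj₁ := 𝒩.inj₁
    semilinear₀ := fun n => by
      rw [PolyMod.X_smul]
      exact 𝒩.r₀.map_smulₛₗ _ _
    semilinear₁ := fun n => by
      rw [PolyMod.X_smul]
      exact 𝒩.r₁.map_smulₛₗ _ _
    span₀ := fun m => by
      obtain ⟨j, n, hn⟩ := 𝒩.span₀ m
      exact ⟨j, n, by rw [xM_pow_apply, hn]; rfl⟩
    span₁ := fun m => by
      obtain ⟨j, n, hn⟩ := 𝒩.span₁ m
      exact ⟨j, n, by rw [xM_symm_pow_apply, hn]; rfl⟩ }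

end LB
end Fermat.Agent.S25
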