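import Fermat.Agent.S25.L.Rings

/-! # S25 / L2 : isomorphisms of line bundle data, the unit -/
set_option autoImplicit false
set_option linter.style.haveILetI false
universe u
open TensorProduct Polynomial

namespace Fermat.Agent.S25
variable {k : Type u} [Field k] {Γ : CurveAlg k}

namespace LB
section
variable {A : Type u} [CommRing A] [Algebra k A]

/-- the identity isomorphism -/
def Iso.refl (𝒩 : LB Γ A) : Iso 𝒩 𝒩 where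
  e₀ := LinearEquiv.refl _ _
  e₁ := LinearEquiv.refl _ _
  e₀₁ := LinearEquiv.refl _ _
  comm₀ _ := rfl
  comm₁ _ := rfl

/-- the inverse isomorphism -/
def Iso.symm {𝒩 𝒩' : LB Γ A} (h : Iso 𝒩 𝒩') : Iso 𝒩' 𝒩 where
  e₀ := h.e₀.symm
  e₁ := h.e₁.symm
  e₀₁ := h.e₀₁.symm
  comm₀ n := by
    rw [LinearEquiv.symm_apply_eq, h.comm₀, LinearEquiv.apply_symm_apply]
  comm₁ n := by
    rw [LinearEquiv.symm_apply_eq, h.comm₁, LinearEquiv.apply_symm_apply]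

/-- composition of isomorphisms -/
def Iso.trans {𝒩 𝒩' 𝒩'' : LB Γ A} (h : Iso 𝒩 𝒩') (h' : Iso 𝒩' 𝒩'') : Iso 𝒩 𝒩'' where
  e₀ := h.e₀.trans h'.e₀
  e₁ := h.e₁.trans h'.e₁
  e₀₁ := h.e₀₁.trans h'.e₀₁
  comm₀ n := by
    rw [LinearEquiv.trans_apply, h.comm₀, h'.comm₀, LinearEquiv.trans_apply]
  comm₁ n := by
    rw [LinearEquiv.trans_apply, h.comm₁, h'.comm₁, LinearEquiv.trans_apply]

theorem Equiv.refl (𝒩 : LB Γ A) : 𝒩.Equiv 𝒩 := ⟨Iso.refl 𝒩⟩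
theorem Equiv.symm {𝒩 𝒩' : LB Γ A} (h : 𝒩.Equiv 𝒩') : 𝒩'.Equiv 𝒩 := h.elim fun i => ⟨i.symm⟩
theorem Equiv.trans {𝒩 𝒩' 𝒩'' : LB Γ A} (h : 𝒩.Equiv 𝒩') (h' : 𝒩'.Equiv 𝒩'') : 𝒩.Equiv 𝒩'' :=
  h.elim fun i => h'.elim fun i' => ⟨i.trans i'⟩

theorem unit_span₀ (hΓ : Γ.IsGood) (A : Type u) [CommRing A] [Algebra k A] (n : Γ.R₀₁ A) :
    ∃ (m : ℕ) (n₀ : Γ.R₀ A), (Γ.φ₀ A (Γ.xA A)) ^ m • n = Γ.φ₀ A n₀ := by
  letI : Algebra (Γ.R₀ A) (Γ.R₀₁ A) := (Γ.φ₀ A).toRingHom.toAlgebra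
  haveI : IsLocalization (Submonoid.powers (Γ.xA A)) (Γ.R₀₁ A) := CurveAlg.isLocalization_φ₀ hΓ A
  obtain ⟨⟨a, ⟨s, m, rfl⟩⟩, h⟩ := IsLocalization.surj (Submonoid.powers (Γ.xA A)) n
  refine ⟨m, a, ?_⟩
  have h' : n * Γ.φ₀ A (Γ.xA A ^ m) = Γ.φ₀ A a := h
  rw [smul_eq_mul, mul_comm, ← map_pow, h']

theorem unit_span₁ (hΓ : Γ.IsGood) (A : Type u) [CommRing A] [Algebra k A] (n : Γ.R₀₁ A) :
    ∃ (m : ℕ) (n₁ : Γ.R₁ A), (Γ.φ₁ A (Γ.yA A)) ^ m • n = Γ.φ₁ A n₁ := by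
  letI : Algebra (Γ.R₁ A) (Γ.R₀₁ A) := (Γ.φ₁ A).toRingHom.toAlgebra
  haveI : IsLocalization (Submonoid.powers (Γ.yA A)) (Γ.R₀₁ A) := CurveAlg.isLocalization_φ₁ hΓ A
  obtain ⟨⟨a, ⟨s, m, rfl⟩⟩, h⟩ := IsLocalization.surj (Submonoid.powers (Γ.yA A)) n
  refine ⟨m, a, ?_⟩
  have h' : n * Γ.φ₁ A (Γ.yA A ^ m) = Γ.φ₁ A a := h
  rw [smul_eq_mul, mul_comm, ← map_pow, h']

/-- the trivial line bundle -/
noncomputable def unit (hΓ : Γ.IsGood) (A : Type u) [CommRing A] [Algebra k A] : LB Γ A where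
  N₀ := Γ.R₀ A
  N₁ := Γ.R₁ A
  N₀₁ := Γ.R₀₁ A
  r₀ := { toFun := Γ.φ₀ A, map_add' := map_add _, map_smul' := fun a b => by simp }
  r₁ := { toFun := Γ.φ₁ A, map_add' := map_add _, map_smul' := fun a b => by simp }
  inv₀ := inferInstance
  inv₁ := inferInstance
  inj₀ := CurveAlg.φ₀_injective hΓ A
  inj₁ := CurveAlg.φ₁_injective hΓ A
  span₀ := unit_span₀ hΓ A
  span₁ := unit_span₁ hΓ A

theorem eA_algebraMap (a : A) : Γ.eA A (algebraMap A (Γ.R₀ A) a) = a := (Γ.eA A).commutes a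

theorem unit_rigid (hΓ : Γ.IsGood) : (unit hΓ A).Rigid :=
  ⟨{ toFun := Γ.eA A, map_add' := map_add _, map_smul' := fun a b => map_mul (Γ.eA A) a b },
    fun a => ⟨algebraMap A (Γ.R₀ A) a, eA_algebraMap a⟩⟩

theorem Rigid.of_equiv {𝒩 𝒩' : LB Γ A} (h : 𝒩.Equiv 𝒩') (h' : 𝒩.Rigid) : 𝒩'.Rigid := by
  obtain ⟨i⟩ := h
  obtain ⟨ℓ, hℓ⟩ := h'
  exact ⟨ℓ.comp (i.e₀.symm : 𝒩'.N₀ →ₗ[Γ.R₀ A] 𝒩.N₀), hℓ.comp i.e₀.symm.surjective⟩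
end
end LB
end Fermat.Agent.S25
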