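import Fermat.Agent.S25.L.SemiLin

/-! # S25 / L5 (general part) : spanning bilinear maps between invertible modules -/
set_option autoImplicit false
set_option linter.style.haveILetI false
universe u
open TensorProduct

namespace Fermat.Agent.S25.SL

section bilin
variable {R S : Type u} [CommRing R] [CommRing S] {N N' N'' Q : Type u}
  [AddCommGroup N] [Module R N] [AddCommGroup N'] [Module R N'] [AddCommGroup N''] [Module R N'']
  [AddCommGroup Q] [Module S Q]

theorem lift₂_surjective (m : N →ₗ[R] N' →ₗ[R] N'')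
    (hm : Submodule.span R {z | ∃ n n', m n n' = z} = ⊤) :
    Function.Surjective (TensorProduct.lift m) := by
  rw [← LinearMap.range_eq_top, eq_top_iff, ← hm, Submodule.span_le]
  rintro _ ⟨n, n', rfl⟩
  exact ⟨n ⊗ₜ n', TensorProduct.lift.tmul n n'⟩

theorem lift₂_bijective [Module.Invertible R N] [Module.Invertible R N'] [Module.Invertible R N'']
    (m : N →ₗ[R] N' →ₗ[R] N'') (hm : Submodule.span R {z | ∃ n n', m n n' = z} = ⊤) :
    Function.Bijective (TensorProduct.lift m) :=
  Module.Invertible.bijective_of_surjective (lift₂_surjective m hm)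

/-- a spanning bilinear map between invertible modules has the universal property of the tensor
product (semilinear targets allowed). -/
theorem exists_bilift [Module.Invertible R N] [Module.Invertible R N'] [Module.Invertible R N'']
    (m : N →ₗ[R] N' →ₗ[R] N'') (hm : Submodule.span R {z | ∃ n n', m n n' = z} = ⊤)
    (τ : R →+* S) (c : N → N' → Q)
    (hadd₁ : ∀ n₁ n₂ n', c (n₁ + n₂) n' = c n₁ n' + c n₂ n')
    (hadd₂ : ∀ n n₁' n₂', c n (n₁' + n₂') = c n n₁' + c n n₂')
    (hc₁ : ∀ a n n', c (a • n) n' = τ a • c n n') (hc₂ : ∀ a n n', c n (a • n') = τ a • c n n') :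
    ∃ c'' : N'' →ₛₗ[τ] Q, ∀ n n', c'' (m n n') = c n n' := by
  let e : N ⊗[R] N' ≃ₗ[R] N'' := LinearEquiv.ofBijective _ (lift₂_bijective m hm)
  let g : N ⊗[R] N' →+ Q := TensorProduct.liftAddHom
    (AddMonoidHom.mk' (fun n => AddMonoidHom.mk' (fun n' => c n n') (hadd₂ n))
      (fun n₁ n₂ => by ext n'; exact hadd₁ n₁ n₂ n'))
    (fun r n n' => by
      simp only [AddMonoidHom.mk'_apply]
      rw [hc₁, hc₂])
  have hg : ∀ n n', g (n ⊗ₜ n') = c n n' := fun n n' => TensorProduct.liftAddHom_tmul _ _ n n'
  let G : N ⊗[R] N' →ₛₗ[τ] Q :=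
    { toFun := g
      map_add' := map_add g
      map_smul' := fun a t => by
        induction t using TensorProduct.induction_on with
        | zero => simp
        | tmul n n' => rw [TensorProduct.smul_tmul', hg, hg, hc₁]
        | add s t hs ht => rw [smul_add, map_add, map_add, hs, ht, smul_add] }
  refine ⟨G.comp (e.symm : N'' →ₗ[R] N ⊗[R] N'), fun n n' => ?_⟩
  have h : e.symm (m n n') = n ⊗ₜ n' := by
    rw [LinearEquiv.symm_apply_eq]
    exact (TensorProduct.lift.tmul n n').symm
  rw [LinearMap.comp_apply, LinearEquiv.coe_coe, h]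
  exact hg n n'

/-- spanning sets in both variables give a spanning set of the target. -/
theorem span_image2 (m : N →ₗ[R] N' →ₗ[R] N'')
    (hm : Submodule.span R {z | ∃ n n', m n n' = z} = ⊤) {s : Set N} {s' : Set N'}
    (hs : Submodule.span R s = ⊤) (hs' : Submodule.span R s' = ⊤) :
    Submodule.span R (Set.image2 (fun n n' => m n n') s s') = ⊤ := by
  have h1 : Submodule.map₂ m (⊤ : Submodule R N) (⊤ : Submodule R N') = ⊤ := by
    have e1 : (⊤ : Submodule R N) = Submodule.span R Set.univ := Submodule.span_univ.symm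
    have e2 : (⊤ : Submodule R N') = Submodule.span R Set.univ := Submodule.span_univ.symm
    rw [e1, e2, Submodule.map₂_span_span, ← hm]
    congr 1
    ext z
    simp [Set.mem_image2]
  rw [← Submodule.map₂_span_span, hs, hs', h1]

end bilin

section surj
variable {R R' : Type u} [CommRing R] [CommRing R'] (ρ : R →+* R')
  {N : Type u} [AddCommGroup N] [Module R N]

theorem BCMod.mk_surjective (hρ : Function.Surjective ρ) :
    Function.Surjective (BCMod.mk ρ N) := by
  intro t
  induction t using BCMod.induction_on with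
  | zero => exact ⟨0, map_zero _⟩
  | tmul a n =>
    obtain ⟨r, rfl⟩ := hρ a
    exact ⟨r • n, by rw [(BCMod.mk ρ N).map_smulₛₗ, BCMod.smul_mk]⟩
  | add s t hs ht =>
    obtain ⟨n, rfl⟩ := hs
    obtain ⟨n', rfl⟩ := ht
    exact ⟨n + n', map_add _ _ _⟩

end surj

end Fermat.Agent.S25.SL
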