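import Fermat.Agent.S25.L.Calculus
import Fermat.Agent.S25.L.SemiLin2

/-! # S25 / L5 (LB level) : rigidifications, pull backs from the base -/
set_option autoImplicit false
set_option linter.style.haveILetI false
universe u
open TensorProduct Polynomial

namespace Fermat.Agent.S25
variable {k : Type u} [Field k] {Γ : CurveAlg k}

namespace LB
variable {A A' : Type u} [CommRing A] [Algebra k A] [CommRing A'] [Algebra k A']

/-! ### rigidifications -/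

theorem surjective_of_one {𝒩 : LB Γ A} (ℓ : 𝒩.N₀ →ₛₗ[(Γ.eA A).toRingHom] A) (h : ∃ t, ℓ t = 1) :
    Function.Surjective ℓ := by
  obtain ⟨t, ht⟩ := h
  intro a
  refine ⟨algebraMap A (Γ.R₀ A) a • t, ?_⟩
  rw [ℓ.map_smulₛₗ, ht]
  change Γ.eA A (algebraMap A (Γ.R₀ A) a) • (1 : A) = a
  rw [eA_algebraMap, smul_eq_mul, mul_one]

theorem eA_surjective : Function.Surjective (Γ.eA A) := fun a => ⟨_, eA_algebraMap a⟩

theorem Rigid.tens {𝒩 𝒩' 𝒩'' : LB Γ A} (h : Tens 𝒩 𝒩' 𝒩'') (hr : 𝒩.Rigid) (hr' : 𝒩'.Rigid) :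
    𝒩''.Rigid := by
  obtain ⟨ℓ, hℓ⟩ := hr
  obtain ⟨ℓ', hℓ'⟩ := hr'
  obtain ⟨ℓ'', hℓ''⟩ := SL.exists_bilift h.m₀ h.span₀ (Γ.eA A).toRingHom
    (fun n n' => ℓ n * ℓ' n')
    (fun n₁ n₂ n' => by rw [map_add, add_mul])
    (fun n n₁' n₂' => by rw [map_add, mul_add])
    (fun a n n' => by rw [ℓ.map_smulₛₗ, smul_eq_mul, smul_eq_mul, mul_assoc])
    (fun a n n' => by rw [ℓ'.map_smulₛₗ, smul_eq_mul, smul_eq_mul, mul_left_comm])
  obtain ⟨n, hn⟩ := hℓ 1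
  obtain ⟨n', hn'⟩ := hℓ' 1
  exact ⟨ℓ'', surjective_of_one ℓ'' ⟨h.m₀ n n', by rw [hℓ'', hn, hn', mul_one]⟩⟩

theorem Rigid.of_tens_unit {hΓ : Γ.IsGood} {𝒩 𝒩' : LB Γ A} (h : Tens 𝒩 𝒩' (unit hΓ A))
    (hr : 𝒩.Rigid) : 𝒩'.Rigid := by
  obtain ⟨ℓ, hℓ⟩ := hr
  obtain ⟨n₁, hn₁⟩ := hℓ 1
  -- the pairing, as a function to `R₀ A`
  let μ : 𝒩.N₀ → 𝒩'.N₀ → Γ.R₀ A := fun n n' => h.m₀ n n'
  have μ_add₁ : ∀ n₁ n₂ n', μ (n₁ + n₂) n' = μ n₁ n' + μ n₂ n' := fun n₁ n₂ n' => by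
    change h.m₀ (n₁ + n₂) n' = h.m₀ n₁ n' + h.m₀ n₂ n'
    rw [map_add]; rfl
  have μ_add₂ : ∀ n n₁' n₂', μ n (n₁' + n₂') = μ n n₁' + μ n n₂' := fun n n₁' n₂' =>
    map_add (h.m₀ n) n₁' n₂'
  have μ_smul₁ : ∀ a n n', μ (a • n) n' = a * μ n n' := fun a n n' => by
    change h.m₀ (a • n) n' = a • h.m₀ n n'
    rw [map_smul]; rfl
  have μ_smul₂ : ∀ a n n', μ n (a • n') = a * μ n n' := fun a n n' => map_smul (h.m₀ n) a n'
  let ℓ' : 𝒩'.N₀ →ₛₗ[(Γ.eA A).toRingHom] A :=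
    { toFun := fun n' => Γ.eA A (μ n₁ n')
      map_add' := fun a b => by rw [μ_add₂, map_add]
      map_smul' := fun a n' => by rw [μ_smul₂, map_mul]; rfl }
  have hspan : Submodule.span A (Set.range ℓ) = ⊤ := by
    rw [eq_top_iff]
    intro a _
    exact Submodule.subset_span (hℓ a)
  have key : ∀ n n', Γ.eA A (μ n n') = ℓ n * ℓ' n' := by
    intro n n'
    let c : 𝒩.N₀ →ₛₗ[(Γ.eA A).toRingHom] A :=
      { toFun := fun n => Γ.eA A (μ n n')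
        map_add' := fun a b => by rw [μ_add₁, map_add]
        map_smul' := fun a n => by rw [μ_smul₁, map_mul]; rfl }
    obtain ⟨c', hc'⟩ := SL.exists_lift ℓ hspan (RingHom.id A) (Γ.eA A).toRingHom (fun _ => rfl) c
    have h1 : c' (ℓ n) = ℓ n * c' 1 := by
      have : ℓ n = ℓ n • (1 : A) := by rw [smul_eq_mul, mul_one]
      conv_lhs => rw [this]
      rw [c'.map_smul, smul_eq_mul]
    have h2 : c' 1 = ℓ' n' := by rw [← hn₁, hc']; rfl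
    have h3 : Γ.eA A (μ n n') = c' (ℓ n) := (hc' n).symm
    rw [h3, h1, h2]
  refine ⟨ℓ', surjective_of_one ℓ' ?_⟩
  have hone : (1 : Γ.R₀ A) ∈ Submodule.span (Γ.R₀ A) {z : Γ.R₀ A | ∃ n n', μ n n' = z} := by
    have := h.span₀
    have h' : Submodule.span (Γ.R₀ A) {z : Γ.R₀ A | ∃ n n', μ n n' = z} = ⊤ := this
    rw [h']; exact Submodule.mem_top
  have hall : ∀ z ∈ Submodule.span (Γ.R₀ A) {z : Γ.R₀ A | ∃ n n', μ n n' = z},
      ∃ t, ℓ' t = Γ.eA A z := by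
    intro z hz
    induction hz using Submodule.span_induction with
    | mem z hz =>
      obtain ⟨n, n', rfl⟩ := hz
      refine ⟨algebraMap A (Γ.R₀ A) (ℓ n) • n', ?_⟩
      rw [ℓ'.map_smulₛₗ, key]
      change Γ.eA A (algebraMap A (Γ.R₀ A) (ℓ n)) • ℓ' n' = _
      rw [eA_algebraMap, smul_eq_mul]
    | zero => exact ⟨0, by rw [map_zero, map_zero]⟩
    | add x y _ _ hx hy =>
      obtain ⟨t, ht⟩ := hx
      obtain ⟨t', ht'⟩ := hy
      exact ⟨t + t', by rw [map_add, map_add, ht, ht']⟩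
    | smul a x _ hx =>
      obtain ⟨t, ht⟩ := hx
      refine ⟨a • t, ?_⟩
      rw [ℓ'.map_smulₛₗ, ht, smul_eq_mul, smul_eq_mul, map_mul]
      rfl
  obtain ⟨t, ht⟩ := hall 1 hone
  exact ⟨t, by rw [ht, map_one]⟩

theorem rigid_iff {𝒩 : LB Γ A} :
    𝒩.Rigid ↔ Nonempty (SL.BCMod (Γ.eA A).toRingHom 𝒩.N₀ ≃ₗ[A] A) := by
  constructor
  · rintro ⟨ℓ, hℓ⟩
    have hspan : Submodule.span A (Set.range ℓ) = ⊤ := by
      rw [eq_top_iff]
      intro a _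
      exact Submodule.subset_span (hℓ a)
    exact ⟨LinearEquiv.ofBijective _ (SL.can_bijective ℓ hspan)⟩
  · rintro ⟨e⟩
    exact ⟨(e : SL.BCMod (Γ.eA A).toRingHom 𝒩.N₀ →ₗ[A] A).comp (SL.BCMod.mk _ _),
      e.surjective.comp (SL.BCMod.mk_surjective _ eA_surjective)⟩

theorem rigid_of_field {K : Type u} [Field K] [Algebra k K] (𝒩 : LB Γ K) : 𝒩.Rigid :=
  rigid_iff.mpr ((Module.Invertible.free_iff_linearEquiv (R := K)).mp inferInstance)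

/-! ### pull backs from the base -/

/-- `𝒩` is (a model of) `π^*Λ`. -/
def IsPB (𝒩 : LB Γ A) (Λ : Type u) [AddCommGroup Λ] [Module A Λ] : Prop :=
  ∃ (i₀ : Λ →ₗ[A] 𝒩.N₀) (i₁ : Λ →ₗ[A] 𝒩.N₁), (∀ l, 𝒩.r₀ (i₀ l) = 𝒩.r₁ (i₁ l)) ∧
    Submodule.span (Γ.R₀ A) (Set.range i₀) = ⊤ ∧ Submodule.span (Γ.R₁ A) (Set.range i₁) = ⊤

section
variable {Λ Λ' : Type u} [AddCommGroup Λ] [Module A Λ] [AddCommGroup Λ'] [Module A Λ']

/-- an `A`-linear map to `N₀` as a semilinear map -/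
noncomputable def toSL₀ {𝒩 : LB Γ A} (i₀ : Λ →ₗ[A] 𝒩.N₀) : Λ →ₛₗ[algebraMap A (Γ.R₀ A)] 𝒩.N₀ where
  toFun := i₀
  map_add' := i₀.map_add
  map_smul' a l := i₀.map_smul a l
/-- an `A`-linear map to `N₁` as a semilinear map -/
noncomputable def toSL₁ {𝒩 : LB Γ A} (i₁ : Λ →ₗ[A] 𝒩.N₁) : Λ →ₛₗ[algebraMap A (Γ.R₁ A)] 𝒩.N₁ where
  toFun := i₁
  map_add' := i₁.map_add
  map_smul' a l := i₁.map_smul a l

theorem IsPB.congr {𝒩 : LB Γ A} (h : IsPB 𝒩 Λ) (e : Λ ≃ₗ[A] Λ') : IsPB 𝒩 Λ' := by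
  obtain ⟨i₀, i₁, hc, h₀, h₁⟩ := h
  refine ⟨i₀.comp e.symm.toLinearMap, i₁.comp e.symm.toLinearMap, fun l => hc _, ?_, ?_⟩
  · rw [LinearMap.coe_comp, Set.range_comp]
    simpa using h₀
  · rw [LinearMap.coe_comp, Set.range_comp]
    simpa using h₁

theorem isPB_unit (hΓ : Γ.IsGood) : IsPB (unit hΓ A) A := by
  refine ⟨{ toFun := algebraMap A (Γ.R₀ A), map_add' := map_add _,
            map_smul' := fun a b => by rw [smul_eq_mul, map_mul]; rfl },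
          { toFun := algebraMap A (Γ.R₁ A), map_add' := map_add _,
            map_smul' := fun a b => by rw [smul_eq_mul, map_mul]; rfl }, fun l => ?_, ?_, ?_⟩
  · exact ((Γ.φ₀ A).commutes l).trans ((Γ.φ₁ A).commutes l).symm
  · exact (Ideal.eq_top_iff_one (Ideal.span (Set.range (algebraMap A (Γ.R₀ A))))).mpr
      (Submodule.subset_span ⟨1, map_one _⟩)
  · exact (Ideal.eq_top_iff_one (Ideal.span (Set.range (algebraMap A (Γ.R₁ A))))).mpr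
      (Submodule.subset_span ⟨1, map_one _⟩)

/-- `π^* A` is trivial. -/
theorem IsPB.equiv_unit (hΓ : Γ.IsGood) {𝒩 : LB Γ A} (h : IsPB 𝒩 A) : (unit hΓ A).Equiv 𝒩 := by
  obtain ⟨i₀, i₁, hc, h₀, h₁⟩ := h
  have hs₀ : Function.Surjective (LinearMap.toSpanSingleton (Γ.R₀ A) 𝒩.N₀ (i₀ 1)) := by
    rw [← LinearMap.range_eq_top, eq_top_iff, ← h₀, Submodule.span_le]
    rintro _ ⟨a, rfl⟩
    refine ⟨algebraMap A (Γ.R₀ A) a, ?_⟩
    have : i₀ a = a • i₀ 1 := by rw [← i₀.map_smul, smul_eq_mul, mul_one]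
    rw [this]; rfl
  have hs₁ : Function.Surjective (LinearMap.toSpanSingleton (Γ.R₁ A) 𝒩.N₁ (i₁ 1)) := by
    rw [← LinearMap.range_eq_top, eq_top_iff, ← h₁, Submodule.span_le]
    rintro _ ⟨a, rfl⟩
    refine ⟨algebraMap A (Γ.R₁ A) a, ?_⟩
    have : i₁ a = a • i₁ 1 := by rw [← i₁.map_smul, smul_eq_mul, mul_one]
    rw [this]; rfl
  let e₀ : (unit hΓ A).N₀ ≃ₗ[Γ.R₀ A] 𝒩.N₀ :=
    LinearEquiv.ofBijective (LinearMap.toSpanSingleton (Γ.R₀ A) 𝒩.N₀ (i₀ 1))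
      (Module.Invertible.bijective_of_surjective hs₀)
  let e₁ : (unit hΓ A).N₁ ≃ₗ[Γ.R₁ A] 𝒩.N₁ :=
    LinearEquiv.ofBijective (LinearMap.toSpanSingleton (Γ.R₁ A) 𝒩.N₁ (i₁ 1))
      (Module.Invertible.bijective_of_surjective hs₁)
  obtain ⟨e₀₁, he₀₁⟩ := exists_e₀₁ hΓ e₀
  have h1 : e₀₁ (1 : Γ.R₀₁ A) = 𝒩.r₀ (i₀ 1) := by
    have := he₀₁ (1 : Γ.R₀ A)
    have e1 : (unit hΓ A).r₀ (1 : Γ.R₀ A) = (1 : Γ.R₀₁ A) := map_one (Γ.φ₀ A)
    have e2 : e₀ (1 : Γ.R₀ A) = i₀ 1 := one_smul _ _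
    rw [e1, e2] at this
    exact this
  have hcomm₁ : ∀ a : Γ.R₁ A, e₀₁ (Γ.φ₁ A a : Γ.R₀₁ A) = 𝒩.r₁ (a • i₁ 1) := by
    intro a
    calc e₀₁ (Γ.φ₁ A a : Γ.R₀₁ A) = e₀₁ ((Γ.φ₁ A a) • (1 : Γ.R₀₁ A)) :=
          congrArg e₀₁ (mul_one (Γ.φ₁ A a)).symm
      _ = (Γ.φ₁ A a) • e₀₁ (1 : Γ.R₀₁ A) := e₀₁.map_smul _ _
      _ = (Γ.φ₁ A a) • 𝒩.r₁ (i₁ 1) := by rw [h1, hc]
      _ = 𝒩.r₁ (a • i₁ 1) := (𝒩.r₁.map_smulₛₗ a (i₁ 1)).symm
  exact ⟨{ e₀ := e₀, e₁ := e₁, e₀₁ := e₀₁, comm₀ := he₀₁, comm₁ := hcomm₁ }⟩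

/-- a rigid pull back comes from a trivial module. -/
theorem IsPB.linearEquiv_of_rigid [Module.Invertible A Λ] {𝒩 : LB Γ A} (h : IsPB 𝒩 Λ)
    (hr : 𝒩.Rigid) : Nonempty (Λ ≃ₗ[A] A) := by
  obtain ⟨i₀, i₁, hc, h₀, h₁⟩ := h
  obtain ⟨ℓ, hℓ⟩ := hr
  let g : Λ →ₗ[A] A :=
    { toFun := fun l => ℓ (i₀ l)
      map_add' := fun a b => by rw [map_add, map_add]
      map_smul' := fun a l => by
        rw [i₀.map_smul]
        change ℓ (algebraMap A (Γ.R₀ A) a • i₀ l) = _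
        rw [ℓ.map_smulₛₗ]
        change Γ.eA A (algebraMap A (Γ.R₀ A) a) • ℓ (i₀ l) = _
        rw [eA_algebraMap]; rfl }
  have hall : ∀ n ∈ Submodule.span (Γ.R₀ A) (Set.range i₀), ℓ n ∈ LinearMap.range g := by
    intro n hn
    induction hn using Submodule.span_induction with
    | mem x hx =>
      obtain ⟨l, rfl⟩ := hx
      exact ⟨l, rfl⟩
    | zero => rw [map_zero]; exact Submodule.zero_mem _
    | add x y _ _ hx hy => rw [map_add]; exact Submodule.add_mem _ hx hy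
    | smul a x _ hx => rw [ℓ.map_smulₛₗ]; exact Submodule.smul_mem _ _ hx
  have hg : Function.Surjective g := by
    intro a
    obtain ⟨n, rfl⟩ := hℓ a
    exact hall n (h₀ ▸ Submodule.mem_top)
  exact ⟨LinearEquiv.ofBijective g (Module.Invertible.bijective_of_surjective hg)⟩

theorem IsPB.tens {𝒩 𝒩' 𝒩'' : LB Γ A} (h : Tens 𝒩 𝒩' 𝒩'') (hp : IsPB 𝒩 Λ) (hp' : IsPB 𝒩' Λ') :
    IsPB 𝒩'' (Λ ⊗[A] Λ') := by
  obtain ⟨i₀, i₁, hc, h₀, h₁⟩ := hp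
  obtain ⟨i₀', i₁', hc', h₀', h₁'⟩ := hp'
  let j₀ : Λ ⊗[A] Λ' →ₗ[A] 𝒩''.N₀ := TensorProduct.lift
    (LinearMap.mk₂ A (fun l l' => h.m₀ (i₀ l) (i₀' l'))
      (fun a b c => by rw [map_add, map_add]; rfl)
      (fun a b c => by
        rw [i₀.map_smul]
        change h.m₀ (algebraMap A (Γ.R₀ A) a • i₀ b) (i₀' c) = _
        rw [map_smul]; rfl)
      (fun a b c => by rw [map_add, map_add])
      (fun a b c => by
        rw [i₀'.map_smul]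
        change h.m₀ (i₀ b) (algebraMap A (Γ.R₀ A) a • i₀' c) = _
        rw [map_smul]; rfl))
  let j₁ : Λ ⊗[A] Λ' →ₗ[A] 𝒩''.N₁ := TensorProduct.lift
    (LinearMap.mk₂ A (fun l l' => h.m₁ (i₁ l) (i₁' l'))
      (fun a b c => by rw [map_add, map_add]; rfl)
      (fun a b c => by
        rw [i₁.map_smul]
        change h.m₁ (algebraMap A (Γ.R₁ A) a • i₁ b) (i₁' c) = _
        rw [map_smul]; rfl)
      (fun a b c => by rw [map_add, map_add])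
      (fun a b c => by
        rw [i₁'.map_smul]
        change h.m₁ (i₁ b) (algebraMap A (Γ.R₁ A) a • i₁' c) = _
        rw [map_smul]; rfl))
  have hj₀ : ∀ l l', j₀ (l ⊗ₜ l') = h.m₀ (i₀ l) (i₀' l') := fun l l' => rfl
  have hj₁ : ∀ l l', j₁ (l ⊗ₜ l') = h.m₁ (i₁ l) (i₁' l') := fun l l' => rfl
  refine ⟨j₀, j₁, fun t => ?_, ?_, ?_⟩
  · induction t using TensorProduct.induction_on with
    | zero => rw [map_zero, map_zero, map_zero, map_zero]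
    | tmul l l' => rw [hj₀, hj₁, ← h.comm₀, ← h.comm₁, hc, hc']
    | add s t hs ht => rw [map_add, map_add, map_add, map_add, hs, ht]
  · rw [eq_top_iff, ← SL.span_image2 h.m₀ h.span₀ h₀ h₀', Submodule.span_le]
    rintro _ ⟨_, ⟨l, rfl⟩, _, ⟨l', rfl⟩, rfl⟩
    exact Submodule.subset_span ⟨l ⊗ₜ l', rfl⟩
  · rw [eq_top_iff, ← SL.span_image2 h.m₁ h.span₁ h₁ h₁', Submodule.span_le]
    rintro _ ⟨_, ⟨l, rfl⟩, _, ⟨l', rfl⟩, rfl⟩
    exact Submodule.subset_span ⟨l ⊗ₜ l', rfl⟩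

theorem isLoc_id : SL.IsLoc (RingHom.id A) (1 : A) (LinearMap.id : Λ →ₗ[A] Λ) where
  unit := isUnit_one
  ring s := ⟨0, s, by simp⟩
  inj := Function.injective_id
  span n := ⟨0, n, by simp⟩

variable (Λ) in
/-- the pull back `π^*Λ`. -/
noncomputable def pb (hΓ : Γ.IsGood) [Module.Invertible A Λ] : LB Γ A where
  N₀ := SL.BCMod (algebraMap A (Γ.R₀ A)) Λ
  N₁ := SL.BCMod (algebraMap A (Γ.R₁ A)) Λ
  N₀₁ := SL.BCMod (algebraMap A (Γ.R₀₁ A)) Λ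
  r₀ := SL.BCMod.map (RingHom.id A) (Γ.φ₀ A).toRingHom (algebraMap A (Γ.R₀ A))
    (algebraMap A (Γ.R₀₁ A)) (fun a => ((Γ.φ₀ A).commutes a).symm) LinearMap.id
  r₁ := SL.BCMod.map (RingHom.id A) (Γ.φ₁ A).toRingHom (algebraMap A (Γ.R₁ A))
    (algebraMap A (Γ.R₀₁ A)) (fun a => ((Γ.φ₁ A).commutes a).symm) LinearMap.id
  inv₀ := inferInstance
  inv₁ := inferInstance
  inj₀ := SL.BCMod.map_injective _ isLoc_id (CurveAlg.φ₀_injective hΓ A)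
  inj₁ := SL.BCMod.map_injective _ isLoc_id (CurveAlg.φ₁_injective hΓ A)
  span₀ t := by
    induction t using SL.BCMod.induction_on with
    | zero => exact ⟨0, 0, by rw [smul_zero, map_zero]⟩
    | tmul s l =>
      obtain ⟨m, a, ha⟩ := unit_span₀ hΓ A s
      refine ⟨m, SL.BCMod.tmul _ a l, ?_⟩
      rw [SL.BCMod.map_tmul, SL.BCMod.smul_tmul]
      rw [smul_eq_mul] at ha
      rw [ha]; rfl
    | add s t hs ht =>
      obtain ⟨i, a, ha⟩ := hs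
      obtain ⟨j, b, hb⟩ := ht
      refine ⟨i + j, (Γ.xA A) ^ j • a + (Γ.xA A) ^ i • b, ?_⟩
      rw [map_add, LinearMap.map_smulₛₗ, LinearMap.map_smulₛₗ, ← ha, ← hb, smul_add, map_pow,
        map_pow]
      change _ = (Γ.φ₀ A (Γ.xA A)) ^ j • (Γ.φ₀ A (Γ.xA A)) ^ i • s
        + (Γ.φ₀ A (Γ.xA A)) ^ i • (Γ.φ₀ A (Γ.xA A)) ^ j • t
      rw [smul_smul, smul_smul, pow_add, mul_comm]
  span₁ t := by
    induction t using SL.BCMod.induction_on with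
    | zero => exact ⟨0, 0, by rw [smul_zero, map_zero]⟩
    | tmul s l =>
      obtain ⟨m, a, ha⟩ := unit_span₁ hΓ A s
      refine ⟨m, SL.BCMod.tmul _ a l, ?_⟩
      rw [SL.BCMod.map_tmul, SL.BCMod.smul_tmul]
      rw [smul_eq_mul] at ha
      rw [ha]; rfl
    | add s t hs ht =>
      obtain ⟨i, a, ha⟩ := hs
      obtain ⟨j, b, hb⟩ := ht
      refine ⟨i + j, (Γ.yA A) ^ j • a + (Γ.yA A) ^ i • b, ?_⟩
      rw [map_add, LinearMap.map_smulₛₗ, LinearMap.map_smulₛₗ, ← ha, ← hb, smul_add, map_pow,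
        map_pow]
      change _ = (Γ.φ₁ A (Γ.yA A)) ^ j • (Γ.φ₁ A (Γ.yA A)) ^ i • s
        + (Γ.φ₁ A (Γ.yA A)) ^ i • (Γ.φ₁ A (Γ.yA A)) ^ j • t
      rw [smul_smul, smul_smul, pow_add, mul_comm]

theorem isPB_pb (hΓ : Γ.IsGood) [Module.Invertible A Λ] : IsPB (pb (A := A) Λ hΓ) Λ := by
  refine ⟨{ toFun := SL.BCMod.mk (algebraMap A (Γ.R₀ A)) Λ, map_add' := map_add _,
            map_smul' := fun a l => (SL.BCMod.mk (algebraMap A (Γ.R₀ A)) Λ).map_smulₛₗ a l },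
          { toFun := SL.BCMod.mk (algebraMap A (Γ.R₁ A)) Λ, map_add' := map_add _,
            map_smul' := fun a l => (SL.BCMod.mk (algebraMap A (Γ.R₁ A)) Λ).map_smulₛₗ a l },
          fun l => ?_, SL.BCMod.span_range_mk _, SL.BCMod.span_range_mk _⟩
  exact (SL.BCMod.map_mk _ _ _ _ _ _ l).trans (SL.BCMod.map_mk _ _ _ _ _ _ l).symm

end

section
variable {Λ : Type u} [AddCommGroup Λ] [Module A Λ]

theorem _root_.Fermat.Agent.S25.CurveAlg.ρ₀_algebraMap (f : A →ₐ[k] A') (a : A) :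
    Γ.ρ₀ f (algebraMap A (Γ.R₀ A) a) = algebraMap A' (Γ.R₀ A') (f a) := by
  simp [CurveAlg.ρ₀, Algebra.TensorProduct.algebraMap_apply]
theorem _root_.Fermat.Agent.S25.CurveAlg.ρ₁_algebraMap (f : A →ₐ[k] A') (a : A) :
    Γ.ρ₁ f (algebraMap A (Γ.R₁ A) a) = algebraMap A' (Γ.R₁ A') (f a) := by
  simp [CurveAlg.ρ₁, Algebra.TensorProduct.algebraMap_apply]

theorem IsPB.bc {f : A →ₐ[k] A'} {𝒩 : LB Γ A} {𝒩' : LB Γ A'} (b : BC f 𝒩 𝒩') (hp : IsPB 𝒩 Λ) :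
    IsPB 𝒩' (SL.BCMod f.toRingHom Λ) := by
  obtain ⟨i₀, i₁, hc, h₀, h₁⟩ := hp
  let c₀ : Λ →ₛₗ[f.toRingHom] 𝒩'.N₀ :=
    { toFun := fun l => b.b₀ (i₀ l)
      map_add' := fun _ _ => by rw [map_add, map_add]
      map_smul' := fun a l => by
        rw [i₀.map_smul]
        change b.b₀ (algebraMap A (Γ.R₀ A) a • i₀ l) = _
        rw [b.b₀.map_smulₛₗ]
        change Γ.ρ₀ f (algebraMap A (Γ.R₀ A) a) • _ = _
        rw [Γ.ρ₀_algebraMap]; rfl }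
  let c₁ : Λ →ₛₗ[f.toRingHom] 𝒩'.N₁ :=
    { toFun := fun l => b.b₁ (i₁ l)
      map_add' := fun _ _ => by rw [map_add, map_add]
      map_smul' := fun a l => by
        rw [i₁.map_smul]
        change b.b₁ (algebraMap A (Γ.R₁ A) a • i₁ l) = _
        rw [b.b₁.map_smulₛₗ]
        change Γ.ρ₁ f (algebraMap A (Γ.R₁ A) a) • _ = _
        rw [Γ.ρ₁_algebraMap]; rfl }
  refine ⟨SL.can c₀, SL.can c₁, fun t => ?_, ?_, ?_⟩
  · induction t using SL.BCMod.induction_on with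
    | zero => rw [map_zero, map_zero, map_zero, map_zero]
    | tmul a l =>
      have e0 : SL.can c₀ (SL.BCMod.tmul _ a l) = a • b.b₀ (i₀ l) := by
        rw [← SL.BCMod.smul_mk, (SL.can c₀).map_smul, SL.can_mk]; rfl
      have e1 : SL.can c₁ (SL.BCMod.tmul _ a l) = a • b.b₁ (i₁ l) := by
        rw [← SL.BCMod.smul_mk, (SL.can c₁).map_smul, SL.can_mk]; rfl
      rw [e0, e1]
      change 𝒩'.r₀ (algebraMap A' (Γ.R₀ A') a • b.b₀ (i₀ l))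
        = 𝒩'.r₁ (algebraMap A' (Γ.R₁ A') a • b.b₁ (i₁ l))
      rw [𝒩'.r₀.map_smulₛₗ, 𝒩'.r₁.map_smulₛₗ, ← b.comm₀, ← b.comm₁, hc]
      congr 1
      exact ((Γ.φ₀ A').commutes a).trans ((Γ.φ₁ A').commutes a).symm
    | add s t hs ht => rw [map_add, map_add, map_add, map_add, hs, ht]
  · rw [eq_top_iff, ← span_comp (toSL₀ i₀) b.b₀ h₀ b.span₀, Submodule.span_le]
    rintro _ ⟨l, rfl⟩
    exact Submodule.subset_span ⟨SL.BCMod.mk _ _ l, SL.can_mk c₀ l⟩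
  · rw [eq_top_iff, ← span_comp (toSL₁ i₁) b.b₁ h₁ b.span₁, Submodule.span_le]
    rintro _ ⟨l, rfl⟩
    exact Submodule.subset_span ⟨SL.BCMod.mk _ _ l, SL.can_mk c₁ l⟩

/-- normalisation -/
theorem rigid_of_tens_dual {𝒩 ℒ 𝒩'' : LB Γ A}
    (hp : IsPB ℒ (Module.Dual A (SL.BCMod (Γ.eA A).toRingHom 𝒩.N₀))) (h : Tens 𝒩 ℒ 𝒩'') :
    𝒩''.Rigid := by
  obtain ⟨i₀, i₁, hc, h₀, h₁⟩ := hp
  obtain ⟨κ, hκ⟩ := SL.exists_lift (toSL₀ i₀) h₀ (Γ.eA A).toRingHom (RingHom.id A)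
    (fun a => (eA_algebraMap a).symm) LinearMap.id
  obtain ⟨ℓ'', hℓ''⟩ := SL.exists_bilift h.m₀ h.span₀ (Γ.eA A).toRingHom
    (fun n z => (κ z) (SL.BCMod.mk (Γ.eA A).toRingHom 𝒩.N₀ n))
    (fun n₁ n₂ z => by rw [map_add, map_add])
    (fun n z₁ z₂ => by rw [map_add, LinearMap.add_apply])
    (fun a n z => by rw [LinearMap.map_smulₛₗ, map_smul])
    (fun a n z => by rw [LinearMap.map_smulₛₗ, LinearMap.smul_apply])
  refine ⟨ℓ'', surjective_of_one ℓ'' ?_⟩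
  have hall : ∀ t : Module.Dual A (SL.BCMod (Γ.eA A).toRingHom 𝒩.N₀) ⊗[A]
      (SL.BCMod (Γ.eA A).toRingHom 𝒩.N₀), ∃ z, ℓ'' z = Module.Invertible.linearEquiv A _ t := by
    intro t
    induction t using TensorProduct.induction_on with
    | zero => exact ⟨0, by rw [map_zero, map_zero]⟩
    | tmul l e =>
      obtain ⟨n, rfl⟩ := SL.BCMod.mk_surjective _ eA_surjective e
      refine ⟨h.m₀ n (i₀ l), ?_⟩
      rw [hℓ'']
      have : κ (i₀ l) = l := hκ l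
      rw [this]
      rfl
    | add s t hs ht =>
      obtain ⟨z, hz⟩ := hs
      obtain ⟨z', hz'⟩ := ht
      exact ⟨z + z', by rw [map_add, map_add, hz, hz']⟩
  obtain ⟨t, ht⟩ := (Module.Invertible.linearEquiv A
    (SL.BCMod (Γ.eA A).toRingHom 𝒩.N₀)).surjective 1
  obtain ⟨z, hz⟩ := hall t
  exact ⟨z, by rw [hz, ht]⟩

/-- an invertible module is free on a neighbourhood of any prime. -/
theorem exists_linearEquiv_away [Module.Invertible A Λ] (p : PrimeSpectrum A) :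
    ∃ f : A, f ∉ p.asIdeal ∧
      Nonempty (SL.BCMod (algebraMap A (Localization.Away f)) Λ ≃ₗ[Localization.Away f]
        Localization.Away f) := by
  have hex : ∃ (φ : Module.Dual A Λ) (l : Λ), φ l ∉ p.asIdeal := by
    by_contra hcon
    push Not at hcon
    have hall : ∀ t : Module.Dual A Λ ⊗[A] Λ, Module.Invertible.linearEquiv A Λ t ∈ p.asIdeal := by
      intro t
      induction t using TensorProduct.induction_on with
      | zero => rw [map_zero]; exact Submodule.zero_mem _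
      | tmul φ l => exact hcon φ l
      | add s t hs ht => rw [map_add]; exact Submodule.add_mem _ hs ht
    obtain ⟨t, ht⟩ := (Module.Invertible.linearEquiv A Λ).surjective 1
    exact p.isPrime.ne_top ((Ideal.eq_top_iff_one _).mpr (ht ▸ hall t))
  obtain ⟨φ, l, hφ⟩ := hex
  refine ⟨φ l, hφ, ?_⟩
  let c : Λ →ₛₗ[algebraMap A (Localization.Away (φ l))] Localization.Away (φ l) :=
    { toFun := fun x => algebraMap A _ (φ x)
      map_add' := fun _ _ => by rw [map_add, map_add]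
      map_smul' := fun a x => by rw [map_smul, smul_eq_mul, map_mul, smul_eq_mul] }
  have hs : Function.Surjective (SL.can c) := by
    rw [← LinearMap.range_eq_top]
    exact Ideal.eq_top_of_isUnit_mem _ ⟨SL.BCMod.mk _ _ l, SL.can_mk c l⟩
      (IsLocalization.Away.algebraMap_isUnit (φ l))
  exact ⟨LinearEquiv.ofBijective _ (Module.Invertible.bijective_of_surjective hs)⟩

end

end LB
end Fermat.Agent.S25
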