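import Fermat.Agent.S25.L.Cohomology
import Fermat.Agent.S25.L.PicAux

/-! # S25 / L5 : the group `PicAlg Γ A` of classes of line bundle data -/
set_option autoImplicit false
universe u
open TensorProduct Polynomial

namespace Fermat.Agent.S25
variable {k : Type u} [Field k] (Γ : CurveAlg k)

instance LB.setoid (A : Type u) [CommRing A] [Algebra k A] : Setoid (LB Γ A) where
  r := LB.Equiv
  iseqv := ⟨LB.Equiv.refl, LB.Equiv.symm, LB.Equiv.trans⟩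

/-- classes of line bundles on `C × Spec A` -/
def PicAlg (A : Type u) [CommRing A] [Algebra k A] : Type (u + 1) := Quotient (LB.setoid Γ A)

variable {Γ}
namespace PicAlg
variable {A A' A'' : Type u} [CommRing A] [Algebra k A] [CommRing A'] [Algebra k A']
  [CommRing A''] [Algebra k A'']

def mk (𝒩 : LB Γ A) : PicAlg Γ A := Quotient.mk _ 𝒩

theorem mk_eq_mk {𝒩 𝒩' : LB Γ A} : mk 𝒩 = mk 𝒩' ↔ 𝒩.Equiv 𝒩' := Quotient.eq (r := LB.setoid Γ A)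
theorem exists_rep (n : PicAlg Γ A) : ∃ 𝒩, mk 𝒩 = n := Quotient.exists_rep n

variable [hΓ : Fact Γ.IsGood]

/-- a chosen tensor product -/
noncomputable def mulAux (𝒩 𝒩' : LB Γ A) : LB Γ A := (LB.exists_Tens hΓ.out 𝒩 𝒩').choose
theorem mulAux_spec (𝒩 𝒩' : LB Γ A) : Nonempty (LB.Tens 𝒩 𝒩' (mulAux 𝒩 𝒩')) :=
  (LB.exists_Tens hΓ.out 𝒩 𝒩').choose_spec

/-- multiplication of classes -/
noncomputable def mul' : PicAlg Γ A → PicAlg Γ A → PicAlg Γ A :=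
  Quotient.map₂ mulAux (by
    intro 𝒩₁ 𝒩₂ e 𝒩₁' 𝒩₂' e'
    obtain ⟨h₁⟩ := mulAux_spec 𝒩₁ 𝒩₁'
    obtain ⟨h₂⟩ := mulAux_spec 𝒩₂ 𝒩₂'
    obtain ⟨h₃⟩ := h₁.of_equiv e e' (LB.Equiv.refl _)
    exact h₃.unique hΓ.out h₂)

theorem mul'_mk_eq_iff {𝒩 𝒩' 𝒩'' : LB Γ A} :
    mul' (mk 𝒩) (mk 𝒩') = mk 𝒩'' ↔ Nonempty (LB.Tens 𝒩 𝒩' 𝒩'') := by
  have e : mul' (mk 𝒩) (mk 𝒩') = mk (mulAux 𝒩 𝒩') := rfl
  rw [e, mk_eq_mk]
  obtain ⟨h⟩ := mulAux_spec 𝒩 𝒩'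
  constructor
  · intro e''
    exact h.of_equiv (LB.Equiv.refl _) (LB.Equiv.refl _) e''
  · rintro ⟨h'⟩
    exact h.unique hΓ.out h'

theorem mul'_comm (n n' : PicAlg Γ A) : mul' n n' = mul' n' n := by
  obtain ⟨𝒩, rfl⟩ := exists_rep n
  obtain ⟨𝒩', rfl⟩ := exists_rep n'
  obtain ⟨h⟩ := mulAux_spec 𝒩' 𝒩
  exact mul'_mk_eq_iff.mpr h.comm

theorem mul'_assoc (n₁ n₂ n₃ : PicAlg Γ A) : mul' (mul' n₁ n₂) n₃ = mul' n₁ (mul' n₂ n₃) := by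
  obtain ⟨𝒩₁, rfl⟩ := exists_rep n₁
  obtain ⟨𝒩₂, rfl⟩ := exists_rep n₂
  obtain ⟨𝒩₃, rfl⟩ := exists_rep n₃
  obtain ⟨h₁₂⟩ := mulAux_spec 𝒩₁ 𝒩₂
  obtain ⟨h₂₃⟩ := mulAux_spec 𝒩₂ 𝒩₃
  obtain ⟨h⟩ := mulAux_spec (mulAux 𝒩₁ 𝒩₂) 𝒩₃
  exact (mul'_mk_eq_iff.mpr (LB.Tens.assoc hΓ.out h₁₂ h₂₃ h)).symm

theorem one_mul' (n : PicAlg Γ A) : mul' (mk (LB.unit hΓ.out A)) n = n := by
  obtain ⟨𝒩, rfl⟩ := exists_rep n
  exact mul'_mk_eq_iff.mpr (LB.Tens.unit_left hΓ.out 𝒩)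

theorem exists_inv' (n : PicAlg Γ A) : ∃ n', mul' n' n = mk (LB.unit hΓ.out A) := by
  obtain ⟨𝒩, rfl⟩ := exists_rep n
  obtain ⟨𝒩', h⟩ := LB.exists_inverse hΓ.out 𝒩
  exact ⟨mk 𝒩', (mul'_comm _ _).trans (mul'_mk_eq_iff.mpr h)⟩

noncomputable instance : CommGroup (PicAlg Γ A) where
  mul := mul'
  mul_assoc := mul'_assoc
  one := mk (LB.unit hΓ.out A)
  one_mul := one_mul'
  mul_one n := (mul'_comm _ _).trans (one_mul' n)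
  inv n := (exists_inv' n).choose
  inv_mul_cancel n := (exists_inv' n).choose_spec
  mul_comm := mul'_comm

theorem one_def : (1 : PicAlg Γ A) = mk (LB.unit hΓ.out A) := rfl
theorem mk_mul_mk_eq_iff {𝒩 𝒩' 𝒩'' : LB Γ A} :
    mk 𝒩 * mk 𝒩' = mk 𝒩'' ↔ Nonempty (LB.Tens 𝒩 𝒩' 𝒩'') := mul'_mk_eq_iff

/-- a chosen base change -/
noncomputable def mapAux (f : A →ₐ[k] A') (𝒩 : LB Γ A) : LB Γ A' := (LB.exists_BC hΓ.out f 𝒩).choose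
theorem mapAux_spec (f : A →ₐ[k] A') (𝒩 : LB Γ A) : Nonempty (LB.BC f 𝒩 (mapAux f 𝒩)) :=
  (LB.exists_BC hΓ.out f 𝒩).choose_spec

/-- base change of classes, as a function -/
noncomputable def map' (f : A →ₐ[k] A') : PicAlg Γ A → PicAlg Γ A' :=
  Quotient.map (mapAux f) (by
    intro 𝒩₁ 𝒩₂ e
    obtain ⟨h₁⟩ := mapAux_spec f 𝒩₁
    obtain ⟨h₂⟩ := mapAux_spec f 𝒩₂
    obtain ⟨h₃⟩ := h₁.of_equiv e (LB.Equiv.refl _)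
    exact h₃.unique hΓ.out h₂)

theorem map'_mk_eq_iff {f : A →ₐ[k] A'} {𝒩 : LB Γ A} {𝒩' : LB Γ A'} :
    map' f (mk 𝒩) = mk 𝒩' ↔ Nonempty (LB.BC f 𝒩 𝒩') := by
  have e : map' f (mk 𝒩) = mk (mapAux f 𝒩) := rfl
  rw [e, mk_eq_mk]
  obtain ⟨h⟩ := mapAux_spec f 𝒩
  constructor
  · intro e'
    exact h.of_equiv (LB.Equiv.refl _) e'
  · rintro ⟨h'⟩
    exact h.unique hΓ.out h'

/-- base change -/
noncomputable def map (f : A →ₐ[k] A') : PicAlg Γ A →* PicAlg Γ A' where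
  toFun := map' f
  map_one' := map'_mk_eq_iff.mpr (LB.BC.unit hΓ.out f)
  map_mul' n n' := by
    obtain ⟨𝒩, rfl⟩ := exists_rep n
    obtain ⟨𝒩', rfl⟩ := exists_rep n'
    obtain ⟨h⟩ := mulAux_spec 𝒩 𝒩'
    obtain ⟨b₁⟩ := mapAux_spec f 𝒩
    obtain ⟨b₂⟩ := mapAux_spec f 𝒩'
    obtain ⟨b₃⟩ := mapAux_spec f (mulAux 𝒩 𝒩')
    exact (mk_mul_mk_eq_iff.mpr (LB.Tens.BC hΓ.out h b₁ b₂ b₃)).symm
theorem map_mk_eq_iff {f : A →ₐ[k] A'} {𝒩 : LB Γ A} {𝒩' : LB Γ A'} :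
    map f (mk 𝒩) = mk 𝒩' ↔ Nonempty (LB.BC f 𝒩 𝒩') := map'_mk_eq_iff
theorem map_id (n : PicAlg Γ A) : map (AlgHom.id k A) n = n := by
  obtain ⟨𝒩, rfl⟩ := exists_rep n
  exact map_mk_eq_iff.mpr (LB.BC.id 𝒩)
theorem map_map (f : A →ₐ[k] A') (g : A' →ₐ[k] A'') (n : PicAlg Γ A) :
    map g (map f n) = map (g.comp f) n := by
  obtain ⟨𝒩, rfl⟩ := exists_rep n
  obtain ⟨b₁⟩ := mapAux_spec f 𝒩
  obtain ⟨b₂⟩ := mapAux_spec g (mapAux f 𝒩)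
  exact (map_mk_eq_iff.mpr (b₁.comp b₂)).symm

/-- rigidifiable classes form a subgroup -/
def Rigid (n : PicAlg Γ A) : Prop := ∃ 𝒩, mk 𝒩 = n ∧ 𝒩.Rigid
theorem rigid_mk {𝒩 : LB Γ A} : Rigid (mk 𝒩) ↔ 𝒩.Rigid :=
  ⟨fun ⟨_, h, hr⟩ => LB.Rigid.of_equiv (mk_eq_mk.mp h) hr, fun h => ⟨𝒩, rfl, h⟩⟩
theorem rigid_one : Rigid (1 : PicAlg Γ A) := ⟨_, rfl, LB.unit_rigid hΓ.out⟩
theorem Rigid.mul {n n' : PicAlg Γ A} (h : Rigid n) (h' : Rigid n') : Rigid (n * n') := by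
  obtain ⟨𝒩, rfl, hr⟩ := h
  obtain ⟨𝒩', rfl, hr'⟩ := h'
  obtain ⟨t⟩ := mulAux_spec 𝒩 𝒩'
  exact ⟨mulAux 𝒩 𝒩', rfl, LB.Rigid.tens t hr hr'⟩
theorem Rigid.inv {n : PicAlg Γ A} (h : Rigid n) : Rigid n⁻¹ := by
  obtain ⟨𝒩, rfl, hr⟩ := h
  obtain ⟨𝒩', h'⟩ := exists_rep (mk 𝒩)⁻¹
  have h1 : mk 𝒩 * mk 𝒩' = mk (LB.unit hΓ.out A) := by rw [h', mul_inv_cancel, one_def]
  obtain ⟨t⟩ := mk_mul_mk_eq_iff.mp h1
  exact ⟨𝒩', h', LB.Rigid.of_tens_unit t hr⟩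
theorem Rigid.map {n : PicAlg Γ A} (h : Rigid n) (f : A →ₐ[k] A') : Rigid (map f n) := by
  obtain ⟨𝒩, rfl, hr⟩ := h
  obtain ⟨b⟩ := mapAux_spec f 𝒩
  exact ⟨mapAux f 𝒩, rfl, b.rigid hr⟩
theorem rigid_of_field {K : Type u} [Field K] [Algebra k K] (n : PicAlg Γ K) : Rigid n := by
  obtain ⟨𝒩, rfl⟩ := exists_rep n
  exact ⟨𝒩, rfl, LB.rigid_of_field 𝒩⟩

/-- L6 : classes pulled back from `Spec A`. `FromBase n` : `n = π^*Λ` for an invertible `A`-module `Λ`. -/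
def FromBase (n : PicAlg Γ A) : Prop :=
  ∃ (𝒩 : LB Γ A) (Λ : Type u) (_ : AddCommGroup Λ) (_ : Module A Λ) (_ : Module.Invertible A Λ)
    (i₀ : Λ →ₗ[A] 𝒩.N₀) (i₁ : Λ →ₗ[A] 𝒩.N₁), mk 𝒩 = n ∧ (∀ l, 𝒩.r₀ (i₀ l) = 𝒩.r₁ (i₁ l)) ∧
      Submodule.span (Γ.R₀ A) (Set.range i₀) = ⊤ ∧ Submodule.span (Γ.R₁ A) (Set.range i₁) = ⊤
theorem fromBase_iff {n : PicAlg Γ A} : FromBase n ↔
    ∃ (𝒩 : LB Γ A) (Λ : Type u) (_ : AddCommGroup Λ) (_ : Module A Λ) (_ : Module.Invertible A Λ),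
      mk 𝒩 = n ∧ LB.IsPB 𝒩 Λ :=
  ⟨fun ⟨𝒩, Λ, i1, i2, i3, i₀, i₁, h, hc, h₀, h₁⟩ => ⟨𝒩, Λ, i1, i2, i3, h, i₀, i₁, hc, h₀, h₁⟩,
   fun ⟨𝒩, Λ, i1, i2, i3, h, i₀, i₁, hc, h₀, h₁⟩ => ⟨𝒩, Λ, i1, i2, i3, i₀, i₁, h, hc, h₀, h₁⟩⟩
theorem eq_one_of_isPB {𝒩 : LB Γ A} (h : LB.IsPB 𝒩 A) : mk 𝒩 = 1 :=
  (mk_eq_mk.mpr (h.equiv_unit hΓ.out)).symm
theorem fromBase_one : FromBase (1 : PicAlg Γ A) :=
  fromBase_iff.mpr ⟨_, A, inferInstance, inferInstance, inferInstance, rfl, LB.isPB_unit hΓ.out⟩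
theorem FromBase.mul {n n' : PicAlg Γ A} (h : FromBase n) (h' : FromBase n') : FromBase (n * n') := by
  obtain ⟨𝒩, Λ, _, _, _, rfl, hp⟩ := fromBase_iff.mp h
  obtain ⟨𝒩', Λ', _, _, _, rfl, hp'⟩ := fromBase_iff.mp h'
  obtain ⟨t⟩ := mulAux_spec 𝒩 𝒩'
  exact fromBase_iff.mpr ⟨mulAux 𝒩 𝒩', Λ ⊗[A] Λ', inferInstance, inferInstance, inferInstance, rfl,
    LB.IsPB.tens t hp hp'⟩
theorem FromBase.inv {n : PicAlg Γ A} (h : FromBase n) : FromBase n⁻¹ := by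
  obtain ⟨𝒩, Λ, _, _, _, rfl, hp⟩ := fromBase_iff.mp h
  have hp' := LB.isPB_pb (A := A) (Λ := Module.Dual A Λ) hΓ.out
  obtain ⟨t⟩ := mulAux_spec (LB.pb (A := A) (Module.Dual A Λ) hΓ.out) 𝒩
  have h1 : mk (LB.pb (A := A) (Module.Dual A Λ) hΓ.out) * mk 𝒩 = 1 :=
    eq_one_of_isPB ((LB.IsPB.tens t hp' hp).congr (Module.Invertible.linearEquiv A Λ))
  rw [← eq_inv_of_mul_eq_one_left h1]
  exact fromBase_iff.mpr ⟨_, Module.Dual A Λ, inferInstance, inferInstance, inferInstance, rfl, hp'⟩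
theorem FromBase.map {n : PicAlg Γ A} (h : FromBase n) (f : A →ₐ[k] A') : FromBase (map f n) := by
  obtain ⟨𝒩, Λ, _, _, _, rfl, hp⟩ := fromBase_iff.mp h
  obtain ⟨b⟩ := mapAux_spec f 𝒩
  exact fromBase_iff.mpr ⟨mapAux f 𝒩, SL.BCMod f.toRingHom Λ, inferInstance, inferInstance,
    inferInstance, rfl, LB.IsPB.bc b hp⟩
/-- `ε^* π^* = id`. -/
theorem FromBase.eq_one_of_rigid {n : PicAlg Γ A} (h : FromBase n) (h' : Rigid n) : n = 1 := by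
  obtain ⟨𝒩, Λ, _, _, _, rfl, hp⟩ := fromBase_iff.mp h
  obtain ⟨e⟩ := hp.linearEquiv_of_rigid (rigid_mk.mp h')
  exact eq_one_of_isPB (hp.congr e)
/-- normalisation: every class is uniquely (rigid) * (from base). -/
theorem exists_fromBase_mul_rigid (n : PicAlg Γ A) : ∃ l, FromBase l ∧ Rigid (n * l) := by
  obtain ⟨𝒩, rfl⟩ := exists_rep n
  have hp := LB.isPB_pb (A := A)
    (Λ := Module.Dual A (SL.BCMod (Γ.eA A).toRingHom 𝒩.N₀)) hΓ.out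
  obtain ⟨t⟩ := mulAux_spec 𝒩
    (LB.pb (A := A) (Module.Dual A (SL.BCMod (Γ.eA A).toRingHom 𝒩.N₀)) hΓ.out)
  exact ⟨mk _, fromBase_iff.mpr ⟨_, _, inferInstance, inferInstance, inferInstance, rfl, hp⟩,
    _, rfl, LB.rigid_of_tens_dual hp t⟩
/-- classes from the base are Zariski locally trivial on `Spec A`. -/
theorem FromBase.exists_localization {n : PicAlg Γ A} (h : FromBase n) (p : PrimeSpectrum A) :
    ∃ f : A, f ∉ p.asIdeal ∧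
      PicAlg.map ((Algebra.ofId A (Localization.Away f)).restrictScalars k) n = 1 := by
  obtain ⟨𝒩, Λ, _, _, _, rfl, hp⟩ := fromBase_iff.mp h
  obtain ⟨f, hf, ⟨e⟩⟩ := LB.exists_linearEquiv_away (Λ := Λ) p
  refine ⟨f, hf, ?_⟩
  obtain ⟨b⟩ := mapAux_spec ((Algebra.ofId A (Localization.Away f)).restrictScalars k) 𝒩
  exact eq_one_of_isPB ((LB.IsPB.bc b hp).congr e)

/-- cohomological invariants of classes over a field -/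
noncomputable def h0 {K : Type u} [Field K] [Algebra k K] (n : PicAlg Γ K) : ℕ :=
  Quotient.liftOn n (fun 𝒩 => Module.finrank K 𝒩.H0) (fun _ _ h => (LB.Equiv.H0_equiv h).some.finrank_eq)
noncomputable def h1 {K : Type u} [Field K] [Algebra k K] (n : PicAlg Γ K) : ℕ :=
  Quotient.liftOn n (fun 𝒩 => Module.finrank K 𝒩.H1) (fun _ _ h => (LB.Equiv.H1_equiv h).some.finrank_eq)
noncomputable def chi {K : Type u} [Field K] [Algebra k K] (n : PicAlg Γ K) : ℤ := (h0 n : ℤ) - h1 n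
/-- degree -/
noncomputable def deg {K : Type u} [Field K] [Algebra k K] (n : PicAlg Γ K) : ℤ :=
  chi n - (1 - (Γ.genus : ℤ))

/-- fibrewise degree 0 -/
def Deg0 (n : PicAlg Γ A) : Prop :=
  ∀ (K : Type u) [Field K] [Algebra k K] (f : A →ₐ[k] K), deg (map f n) = 0
theorem deg0_mk {𝒩 : LB Γ A} : Deg0 (mk 𝒩) ↔ 𝒩.Deg0 := by
  constructor
  · intro h K _ _ f 𝒩' hb
    have h1 := h K f
    rw [map_mk_eq_iff.mpr hb] at h1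
    have h2 : deg (mk 𝒩') = 𝒩'.chi - (1 - (Γ.genus : ℤ)) := rfl
    rw [h2] at h1
    linarith
  · intro h K _ _ f
    have h1 := h K f (mapAux f 𝒩) (mapAux_spec f 𝒩)
    have h2 : deg (map f (mk 𝒩)) = (mapAux f 𝒩).chi - (1 - (Γ.genus : ℤ)) := rfl
    rw [h2, h1, sub_self]

theorem h0_map {K K' : Type u} [Field K] [Algebra k K] [Field K'] [Algebra k K'] (f : K →ₐ[k] K')
    (n : PicAlg Γ K) : h0 (map f n) = h0 n := by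
  obtain ⟨𝒩, rfl⟩ := exists_rep n
  obtain ⟨a0, a1, ha, -⟩ := LB.exists_h0_h1 hΓ.out 𝒩
  have h1 := (ha K' f (mapAux f 𝒩) (mapAux_spec f 𝒩)).1
  have h2 := (ha K (AlgHom.id k K) 𝒩 (LB.BC.id 𝒩)).1
  have e1 : h0 (map f (mk 𝒩)) = Module.finrank K' (mapAux f 𝒩).H0 := rfl
  have e2 : h0 (mk 𝒩) = Module.finrank K 𝒩.H0 := rfl
  rw [e1, e2, h1, h2]
  exact congrArg a0 (Subsingleton.elim _ _)
theorem h1_map {K K' : Type u} [Field K] [Algebra k K] [Field K'] [Algebra k K'] (f : K →ₐ[k] K')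
    (n : PicAlg Γ K) : h1 (map f n) = h1 n := by
  obtain ⟨𝒩, rfl⟩ := exists_rep n
  obtain ⟨a0, a1, ha, -⟩ := LB.exists_h0_h1 hΓ.out 𝒩
  have h1' := (ha K' f (mapAux f 𝒩) (mapAux_spec f 𝒩)).2
  have h2 := (ha K (AlgHom.id k K) 𝒩 (LB.BC.id 𝒩)).2
  have e1 : h1 (map f (mk 𝒩)) = Module.finrank K' (mapAux f 𝒩).H1 := rfl
  have e2 : h1 (mk 𝒩) = Module.finrank K 𝒩.H1 := rfl
  rw [e1, e2, h1', h2]
  exact congrArg a1 (Subsingleton.elim _ _)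

/-- semicontinuity (from `LB.exists_h0_h1`) -/
theorem exists_h0_h1 (n : PicAlg Γ A) :
    ∃ e0 e1 : PrimeSpectrum A → ℕ,
      (∀ (K : Type u) [Field K] [Algebra k K] (g : A →ₐ[k] K),
        h0 (map g n) = e0 (PrimeSpectrum.comap g.toRingHom ⊥) ∧
        h1 (map g n) = e1 (PrimeSpectrum.comap g.toRingHom ⊥)) ∧
      IsLocallyConstant (fun p => (e0 p : ℤ) - (e1 p : ℤ)) ∧
      (∀ c, IsClosed {p | c ≤ e1 p}) ∧ (∀ c, IsClosed {p | c ≤ e0 p}) := by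
  obtain ⟨𝒩, rfl⟩ := exists_rep n
  obtain ⟨e0, e1, h, h2, h3, h4⟩ := LB.exists_h0_h1 hΓ.out 𝒩
  refine ⟨e0, e1, fun K _ _ g => ?_, h2, h3, h4⟩
  obtain ⟨𝒩', h𝒩'⟩ := exists_rep (map g (mk 𝒩))
  have := h K g 𝒩' (map_mk_eq_iff.1 h𝒩'.symm)
  rw [← h𝒩']
  exact this

end PicAlg
end Fermat.Agent.S25
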